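import Fermat.Agent.Newform.Single

set_option autoImplicit false

noncomputable section

namespace Fermat.Agent.Newform

open UpperHalfPlane ModularForm CongruenceSubgroup Matrix.SpecialLinearGroup Filter
open Fermat.Agent.IntStr ModularFormClass
open scoped MatrixGroups Manifold Topology

variable {N M : ℕ} {k : ℤ} {f g : ℍ → ℂ}

/-- `Γ₀(N)` inside `GL₂(ℝ)`. -/
def G0 (N : ℕ) : Subgroup (GL (Fin 2) ℝ) := (Gamma0 N).map (mapGL ℝ)

theorem mem_G0 {m : GL (Fin 2) ℝ} : m ∈ G0 N ↔ ∃ a b c d : ℤ, a * d - b * c = 1 ∧ (N : ℤ) ∣ c ∧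
    (m : Matrix (Fin 2) (Fin 2) ℝ) = !![(a : ℝ), b; c, d] := by
  constructor
  · rintro ⟨γ, hγ, rfl⟩
    rw [SetLike.mem_coe, Gamma0_mem, ZMod.intCast_zmod_eq_zero_iff_dvd] at hγ
    have hdet : γ 0 0 * γ 1 1 - γ 0 1 * γ 1 0 = 1 := by
      have := γ.det_coe
      rwa [Matrix.det_fin_two] at this
    refine ⟨_, _, _, _, hdet, hγ, ?_⟩
    ext i j
    rw [val_mapGL]
    fin_cases i <;> fin_cases j <;> simp
  · rintro ⟨a, b, c, d, hdet, hc, hm⟩
    let γ : SL(2, ℤ) := ⟨!![a, b; c, d], by rw [Matrix.det_fin_two_of]; exact hdet⟩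
    refine ⟨γ, ?_, ?_⟩
    · rw [SetLike.mem_coe, Gamma0_mem, ZMod.intCast_zmod_eq_zero_iff_dvd]
      exact hc
    · apply Units.ext
      rw [hm]
      ext i j
      rw [val_mapGL]
      fin_cases i <;> fin_cases j <;> simp [γ]

theorem G0_le_stab (hf : IsCF (Gamma0 N) k f) : G0 N ≤ stab k f := by
  intro m hm
  obtain ⟨a, b, c, d, hdet, hc, hm⟩ := mem_G0.mp hm
  exact mem_stab_of_cf hf hdet hc m hm

theorem cf_of_G0 (hf : IsQCF k f) (h : ∀ m ∈ G0 N, f ∣[k] m = f) : IsCF (Gamma0 N) k f :=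
  cf_of_mat hf fun a b c d hdet hc _ => h _ (mem_G0.mpr ⟨a, b, c, d, hdet, hc, val_mat _ _ _ _ _⟩)

/-- Sums over coset representatives are invariant. -/
theorem sum_reps_slash {ι : Type*} [Fintype ι] {H : Subgroup (GL (Fin 2) ℝ)} (hH : H ≤ stab k f)
    (r : ι → GL (Fin 2) ℝ) (κ : GL (Fin 2) ℝ)
    (hcover : ∀ i, ∃ j, (r i * κ) * (r j)⁻¹ ∈ H)
    (hinj : ∀ i j, r i * (r j)⁻¹ ∈ H → i = j) :
    (∑ i, f ∣[k] r i) ∣[k] κ = ∑ i, f ∣[k] r i := by
  choose σ hσ using hcover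
  have hσi : Function.Injective σ := by
    intro i j hij
    apply hinj
    have h1 := hσ i
    have h2 := hσ j
    rw [hij] at h1
    have h3 := H.mul_mem h1 (H.inv_mem h2)
    have e : r i * κ * (r (σ j))⁻¹ * (r j * κ * (r (σ j))⁻¹)⁻¹ = r i * (r j)⁻¹ := by group
    rwa [e] at h3
  have hσb : Function.Bijective σ := Finite.injective_iff_bijective.mp hσi
  have hs : (∑ i, f ∣[k] r i) ∣[k] κ = ∑ i, (f ∣[k] r i) ∣[k] κ := by
    rw [SlashAction.sum_slash]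
  rw [hs]
  refine Eq.trans ?_ (Equiv.sum_comp (Equiv.ofBijective σ hσb) (fun i => f ∣[k] r i))
  refine Finset.sum_congr rfl fun i _ => ?_
  rw [← SlashAction.slash_mul]
  change _ = f ∣[k] r (σ i)
  have h1 := hH (hσ i)
  rw [mem_stab] at h1
  have e : r i * κ = (r i * κ * (r (σ i))⁻¹) * r (σ i) := by group
  rw [e, SlashAction.slash_mul, h1]

/-- If `w` normalises the situation, the sum over representatives commutes with `w`. -/
theorem sum_reps_comm {ι : Type*} [Fintype ι] {H : Subgroup (GL (Fin 2) ℝ)} (hH : H ≤ stab k f)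
    (r : ι → GL (Fin 2) ℝ) (w : GL (Fin 2) ℝ)
    (hcover : ∀ i, ∃ j, (w * r i * w⁻¹) * (r j)⁻¹ ∈ H)
    (hinj : ∀ i j, w * (r i * (r j)⁻¹) * w⁻¹ ∈ H → i = j) :
    (∑ i, f ∣[k] r i) ∣[k] w = ∑ i, (f ∣[k] w) ∣[k] r i := by
  choose σ hσ using hcover
  have hσi : Function.Injective σ := by
    intro i j hij
    apply hinj
    have h1 := hσ i
    have h2 := hσ j
    rw [hij] at h1
    have h3 := H.mul_mem h1 (H.inv_mem h2)
    have e : w * r i * w⁻¹ * (r (σ j))⁻¹ * (w * r j * w⁻¹ * (r (σ j))⁻¹)⁻¹ =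
      w * (r i * (r j)⁻¹) * w⁻¹ := by group
    rwa [e] at h3
  have hσb : Function.Bijective σ := Finite.injective_iff_bijective.mp hσi
  have hs : (∑ i, f ∣[k] r i) ∣[k] w = ∑ i, (f ∣[k] r i) ∣[k] w := by
    rw [SlashAction.sum_slash]
  rw [hs]
  refine Eq.trans (Equiv.sum_comp (Equiv.ofBijective σ hσb)
    (fun i => (f ∣[k] r i) ∣[k] w)).symm ?_
  refine Finset.sum_congr rfl fun i _ => ?_
  change (f ∣[k] r (σ i)) ∣[k] w = _
  rw [← SlashAction.slash_mul, ← SlashAction.slash_mul]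
  have h1 := hH (hσ i)
  rw [mem_stab] at h1
  have e : w * r i = (w * r i * w⁻¹ * (r (σ i))⁻¹) * (r (σ i) * w) := by group
  rw [e, SlashAction.slash_mul _ (w * r i * w⁻¹ * (r (σ i))⁻¹), h1]

end Fermat.Agent.Newform
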