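import Fermat.Agent.IntStr.Cusp
import Fermat.Prelude.Def_ModularForm_HeckeOperator

set_option autoImplicit false

noncomputable section

namespace Fermat.Agent.Newform

open UpperHalfPlane ModularForm CongruenceSubgroup Matrix.SpecialLinearGroup Filter
open Fermat.Agent.IntStr
open scoped MatrixGroups Manifold Topology

/-- A real `2 × 2` matrix with nonzero determinant as an element of `GL₂(ℝ)`. -/
def mat (a b c d : ℝ) (h : a * d - b * c ≠ 0) : GL (Fin 2) ℝ :=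
  Matrix.GeneralLinearGroup.mkOfDetNeZero !![a, b; c, d] (by rwa [Matrix.det_fin_two_of])

@[simp] theorem val_mat (a b c d : ℝ) (h : a * d - b * c ≠ 0) :
    ((mat a b c d h : GL (Fin 2) ℝ) : Matrix (Fin 2) (Fin 2) ℝ) = !![a, b; c, d] := rfl

theorem mat_mul_mat {a b c d a' b' c' d' a'' b'' c'' d'' : ℝ} {h h' h''}
    (e1 : a * a' + b * c' = a'') (e2 : a * b' + b * d' = b'')
    (e3 : c * a' + d * c' = c'') (e4 : c * b' + d * d' = d'') :
    mat a b c d h * mat a' b' c' d' h' = mat a'' b'' c'' d'' h'' := by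
  apply Units.ext
  rw [Units.val_mul, val_mat, val_mat, val_mat, Matrix.mul_fin_two, e1, e2, e3, e4]

theorem mat_congr {a b c d a' b' c' d' : ℝ} {h h'}
    (e1 : a = a') (e2 : b = b') (e3 : c = c') (e4 : d = d') :
    mat a b c d h = mat a' b' c' d' h' := by
  subst e1 e2 e3 e4; rfl

theorem eq_mat (g : GL (Fin 2) ℝ) :
    ∃ h, g = mat (g 0 0) (g 0 1) (g 1 0) (g 1 1) h := by
  have hd : g 0 0 * g 1 1 - g 0 1 * g 1 0 ≠ 0 := by
    have := g.det_ne_zero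
    rwa [Matrix.det_fin_two] at this
  refine ⟨hd, ?_⟩
  apply Units.ext
  rw [val_mat]
  exact Matrix.eta_fin_two _

/-- Rational matrices. -/
def IsRatM (g : GL (Fin 2) ℝ) : Prop := ∀ i j, ∃ r : ℚ, g i j = (r : ℝ)

theorem IsRatM.mul {g h : GL (Fin 2) ℝ} (hg : IsRatM g) (hh : IsRatM h) : IsRatM (g * h) := by
  intro i j
  obtain ⟨a, ha⟩ := hg i 0
  obtain ⟨b, hb⟩ := hg i 1
  obtain ⟨c, hc⟩ := hh 0 j
  obtain ⟨d, hd⟩ := hh 1 j
  refine ⟨a * c + b * d, ?_⟩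
  rw [Units.val_mul, Matrix.mul_apply, Fin.sum_univ_two, ha, hb, hc, hd]
  push_cast
  rfl

theorem isRatM_mat {a b c d : ℝ} {h} (ha : ∃ r : ℚ, a = r) (hb : ∃ r : ℚ, b = r)
    (hc : ∃ r : ℚ, c = r) (hd : ∃ r : ℚ, d = r) : IsRatM (mat a b c d h) := by
  intro i j
  fin_cases i <;> fin_cases j <;> simpa [val_mat]

theorem val_mapGL (γ : SL(2, ℤ)) (i j : Fin 2) :
    ((mapGL ℝ γ : GL (Fin 2) ℝ) : Matrix (Fin 2) (Fin 2) ℝ) i j = ((γ i j : ℤ) : ℝ) := by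
  simp

theorem isRatM_mapGL (γ : SL(2, ℤ)) : IsRatM (mapGL ℝ γ) := by
  intro i j
  exact ⟨((γ i j : ℤ) : ℚ), by simp⟩

theorem isZeroAtImInfty_slash_of_col {k : ℤ} {f : ℍ → ℂ}
    (hf : ∀ γ : SL(2, ℤ), IsZeroAtImInfty (f ∣[k] γ)) (g : GL (Fin 2) ℝ) (x z : ℤ) (t : ℝ)
    (h0 : g 0 0 = t * x) (h1 : g 1 0 = t * z) : IsZeroAtImInfty (f ∣[k] g) := by
  have hd : g 0 0 * g 1 1 - g 0 1 * g 1 0 ≠ 0 := by
    have := g.det_ne_zero
    rwa [Matrix.det_fin_two] at this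
  have hxz : 0 < Int.gcd x z := by
    rw [Nat.pos_iff_ne_zero]
    intro h
    rw [Int.gcd_eq_zero_iff] at h
    apply hd
    rw [h0, h1, h.1, h.2]
    simp
  obtain ⟨x', hx'⟩ : (Int.gcd x z : ℤ) ∣ x := Int.gcd_dvd_left ..
  obtain ⟨z', hz'⟩ : (Int.gcd x z : ℤ) ∣ z := Int.gcd_dvd_right ..
  have hg0 : (Int.gcd x z : ℤ) ≠ 0 := by exact_mod_cast hxz.ne'
  have hcop : IsCoprime x' z' := by
    have h := Int.isCoprime_iff_gcd_eq_one.mpr (Int.gcd_div_gcd_div_gcd (i := x) (j := z) hxz)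
    have e1 : x / (Int.gcd x z : ℤ) = x' := Int.ediv_eq_of_eq_mul_right hg0 hx'
    have e2 : z / (Int.gcd x z : ℤ) = z' := Int.ediv_eq_of_eq_mul_right hg0 hz'
    rwa [e1, e2] at h
  obtain ⟨γ, hγ0, hγ1⟩ := hcop.exists_SL2_col 0
  set u : GL (Fin 2) ℝ := (mapGL ℝ γ)⁻¹ * g with hu
  have hu10 : u 1 0 = 0 := by
    rw [hu, ← map_inv]
    rw [Units.val_mul, Matrix.mul_apply, Fin.sum_univ_two, h0, h1]
    have e1 : ((mapGL ℝ γ⁻¹ : GL (Fin 2) ℝ) : Matrix (Fin 2) (Fin 2) ℝ) 1 0 = -(z' : ℝ) := by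
      have h : (γ⁻¹ : SL(2, ℤ)) 1 0 = -z' := by
        rw [Matrix.SpecialLinearGroup.SL2_inv_expl, ← hγ1]; rfl
      rw [val_mapGL, h]; push_cast; rfl
    have e2 : ((mapGL ℝ γ⁻¹ : GL (Fin 2) ℝ) : Matrix (Fin 2) (Fin 2) ℝ) 1 1 = (x' : ℝ) := by
      have h : (γ⁻¹ : SL(2, ℤ)) 1 1 = x' := by
        rw [Matrix.SpecialLinearGroup.SL2_inv_expl, ← hγ0]; rfl
      rw [val_mapGL, h]
    rw [e1, e2]
    have hx'' : (x : ℝ) = (Int.gcd x z : ℤ) * x' := by exact_mod_cast hx'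
    have hz'' : (z : ℝ) = (Int.gcd x z : ℤ) * z' := by exact_mod_cast hz'
    rw [hx'', hz'']
    ring
  have hgu : g = mapGL ℝ γ * u := by rw [hu]; group
  rw [hgu, SlashAction.slash_mul]
  have := hf γ
  rw [ModularForm.SL_slash] at this
  exact this.slash _ hu10

theorem isZeroAtImInfty_slash_of_rat {k : ℤ} {f : ℍ → ℂ}
    (hf : ∀ γ : SL(2, ℤ), IsZeroAtImInfty (f ∣[k] γ)) (g : GL (Fin 2) ℝ) (hg : IsRatM g) :
    IsZeroAtImInfty (f ∣[k] g) := by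
  obtain ⟨r, hr⟩ := hg 0 0
  obtain ⟨s, hs⟩ := hg 1 0
  refine isZeroAtImInfty_slash_of_col hf g (r.num * s.den) (s.num * r.den)
    ((r.den : ℝ)⁻¹ * (s.den : ℝ)⁻¹) ?_ ?_
  · rw [hr]
    have h1 : (r.den : ℝ) ≠ 0 := by exact_mod_cast r.den_nz
    have h2 : (s.den : ℝ) ≠ 0 := by exact_mod_cast s.den_nz
    have h3 : (r : ℝ) = r.num / r.den := by exact_mod_cast (Rat.num_div_den r).symm
    rw [h3]
    push_cast
    field_simp
  · rw [hs]
    have h1 : (r.den : ℝ) ≠ 0 := by exact_mod_cast r.den_nz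
    have h2 : (s.den : ℝ) ≠ 0 := by exact_mod_cast s.den_nz
    have h3 : (s : ℝ) = s.num / s.den := by exact_mod_cast (Rat.num_div_den s).symm
    rw [h3]
    push_cast
    field_simp

/-- Cusp forms for some congruence subgroup: holomorphic and vanishing at all rational cusps. -/
structure IsQCF (k : ℤ) (f : ℍ → ℂ) : Prop where
  holo : MDiff f
  zero : ∀ g : GL (Fin 2) ℝ, IsRatM g → IsZeroAtImInfty (f ∣[k] g)

theorem IsQCF.slash {k : ℤ} {f : ℍ → ℂ} (hf : IsQCF k f) {g : GL (Fin 2) ℝ} (hg : IsRatM g) :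
    IsQCF k (f ∣[k] g) where
  holo := hf.holo.slash k g
  zero h hh := by
    rw [← SlashAction.slash_mul]
    exact hf.zero _ (hg.mul hh)

theorem IsQCF.add {k : ℤ} {f g : ℍ → ℂ} (hf : IsQCF k f) (hg : IsQCF k g) : IsQCF k (f + g) where
  holo := hf.holo.add hg.holo
  zero h hh := by
    rw [SlashAction.add_slash]
    exact (hf.zero h hh).add (hg.zero h hh)

theorem IsQCF.zero' {k : ℤ} : IsQCF k (0 : ℍ → ℂ) where
  holo := mdifferentiable_const
  zero h hh := by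
    rw [SlashAction.zero_slash]
    exact tendsto_const_nhds

theorem IsQCF.smul {k : ℤ} {f : ℍ → ℂ} (c : ℂ) (hf : IsQCF k f) : IsQCF k (c • f) where
  holo := hf.holo.const_smul c
  zero h hh := by
    rw [ModularForm.smul_slash]
    exact (hf.zero h hh).smul _

theorem IsQCF.neg {k : ℤ} {f : ℍ → ℂ} (hf : IsQCF k f) : IsQCF k (-f) := by
  have := hf.smul (-1)
  rwa [neg_one_smul] at this

theorem IsQCF.sub {k : ℤ} {f g : ℍ → ℂ} (hf : IsQCF k f) (hg : IsQCF k g) : IsQCF k (f - g) := by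
  rw [sub_eq_add_neg]
  exact hf.add hg.neg

theorem IsQCF.sum {k : ℤ} {ι : Type*} (s : Finset ι) (f : ι → ℍ → ℂ)
    (hf : ∀ i ∈ s, IsQCF k (f i)) : IsQCF k (∑ i ∈ s, f i) := by
  classical
  induction s using Finset.induction_on with
  | empty => simpa using IsQCF.zero'
  | insert i s hi ih =>
    rw [Finset.sum_insert hi]
    exact (hf i (Finset.mem_insert_self i s)).add
      (ih fun j hj => hf j (Finset.mem_insert_of_mem hj))

theorem _root_.Fermat.Agent.IntStr.IsCF.isQCF {G : Subgroup SL(2, ℤ)} {k : ℤ} {f : ℍ → ℂ}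
    (hf : IsCF G k f) : IsQCF k f where
  holo := hf.holo
  zero g hg := isZeroAtImInfty_slash_of_rat hf.zero_cusp g hg

theorem IsQCF.isCF {G : Subgroup SL(2, ℤ)} {k : ℤ} {f : ℍ → ℂ} (hf : IsQCF k f)
    (h : ∀ γ ∈ G, f ∣[k] γ = f) : IsCF G k f where
  holo := hf.holo
  slash := h
  bdd γ := by
    rw [ModularForm.SL_slash]
    exact (hf.zero _ (isRatM_mapGL γ)).isBoundedAtImInfty
  zero_cusp γ := by
    rw [ModularForm.SL_slash]
    exact hf.zero _ (isRatM_mapGL γ)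

end Fermat.Agent.Newform
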