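import Fermat.Agent.Newform.AL

set_option autoImplicit false

noncomputable section

namespace Fermat.Agent.Newform

open UpperHalfPlane ModularForm CongruenceSubgroup Matrix.SpecialLinearGroup Filter
open Fermat.Agent.IntStr ModularFormClass CuspForm Fermat.Agent.Eigenform
open scoped MatrixGroups Manifold Topology

variable {N M : ℕ} {f : ℍ → ℂ}

theorem slash_scalar {t : ℝ} (ht : 0 < t) (h) (f : ℍ → ℂ) : f ∣[(2 : ℤ)] mat t 0 0 t h = f := by
  funext τ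
  have hdet : ((mat t 0 0 t h).det : ℝ) = t ^ 2 := by
    rw [Matrix.GeneralLinearGroup.val_det_apply, val_mat, Matrix.det_fin_two_of]; ring
  have hpos : 0 < ((mat t 0 0 t h).det : ℝ) := by rw [hdet]; positivity
  have htC : (t : ℂ) ≠ 0 := by exact_mod_cast ht.ne'
  rw [ModularForm.slash_apply]
  have h2 : denom (mat t 0 0 t h) τ = t := by
    simp [UpperHalfPlane.denom]
  have h3 : UpperHalfPlane.σ (mat t 0 0 t h) = .refl ℝ ℂ := sigma_of_det_pos hpos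
  have h4 : (mat t 0 0 t h) • τ = τ := by
    apply UpperHalfPlane.ext
    rw [UpperHalfPlane.coe_smul_of_det_pos hpos]
    simp [UpperHalfPlane.num, UpperHalfPlane.denom]
    field_simp
  rw [h2, h3, h4, hdet, abs_of_pos (by positivity)]
  simp only [ContinuousAlgEquiv.refl_apply]
  have e1 : ((t ^ 2 : ℝ) : ℂ) ^ ((2 : ℤ) - 1) = (t : ℂ) ^ 2 := by norm_num
  have e2 : (t : ℂ) ^ (-(2 : ℤ)) = ((t : ℂ) ^ 2)⁻¹ := by
    rw [zpow_neg]
    norm_cast
  rw [e1, e2, mul_assoc, mul_inv_cancel₀ (pow_ne_zero 2 htC), mul_one]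

variable {N₁ Q q : ℕ}

/-- The Atkin–Lehner operator is an involution in weight two. -/
theorem IsAL.sq (hQ : Q ≠ 0) {m : GL (Fin 2) ℝ} {x y z t : ℤ} (hm : IsAL N₁ Q m x y z t)
    (hf : IsCF (Gamma0 (Q * N₁)) 2 f) : (f ∣[(2 : ℤ)] m) ∣[(2 : ℤ)] m = f := by
  obtain ⟨hal, hm⟩ := hm
  have hQr : (0 : ℝ) < Q := by exact_mod_cast Nat.pos_of_ne_zero hQ
  have halr : (Q : ℝ) * x * t - N₁ * y * z = 1 := by exact_mod_cast hal
  have hdet : (Q * x ^ 2 + y * N₁ * z) * (N₁ * z * y + Q * t ^ 2) -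
      (y * (x + t)) * (Q * N₁ * z * (x + t)) = 1 := by
    linear_combination (Q * x * t - N₁ * y * z + 1) * hal
  have hne : (Q * x ^ 2 + y * N₁ * z : ℝ) * (N₁ * z * y + Q * t ^ 2) -
      (y * (x + t)) * (Q * N₁ * z * (x + t)) ≠ 0 := by
    have : (Q * x ^ 2 + y * N₁ * z : ℝ) * (N₁ * z * y + Q * t ^ 2) -
      (y * (x + t)) * (Q * N₁ * z * (x + t)) = 1 := by exact_mod_cast hdet
    rw [this]; exact one_ne_zero
  have hs : (Q : ℝ) * Q - 0 * 0 ≠ 0 := by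
    have := mul_pos hQr hQr
    simpa using this.ne'
  have e : m * m = mat Q 0 0 Q hs * mat (Q * x ^ 2 + y * N₁ * z) (y * (x + t))
      (Q * N₁ * z * (x + t)) (N₁ * z * y + Q * t ^ 2) hne := by
    apply Units.ext
    rw [Units.val_mul, Units.val_mul, hm, val_mat, val_mat, Matrix.mul_fin_two, Matrix.mul_fin_two]
    ext i j
    fin_cases i <;> fin_cases j <;> simp <;> ring
  rw [← SlashAction.slash_mul, e, SlashAction.slash_mul, slash_scalar hQr]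
  refine cf_slash_mat hf hdet ⟨z * (x + t), by push_cast; ring⟩ _ ?_
  rw [val_mat]
  push_cast
  rfl

/-- The trace to level `N₁`, for `q ∥ N = q N₁`. -/
theorem trace_isCF (hq : q.Prime) (hqN : ¬ q ∣ N₁) {m : GL (Fin 2) ℝ} {x y z t : ℤ}
    (hm : IsAL N₁ q m x y z t) (hf : IsCF (Gamma0 (q * N₁)) 2 f) :
    IsCF (Gamma0 N₁) 2 (f + heckeU 2 q (f ∣[(2 : ℤ)] m)) := by
  obtain ⟨hal, hmm⟩ := id hm
  have hq0 : (q : ℝ) ≠ 0 := by exact_mod_cast hq.ne_zero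
  have hqR : (0 : ℝ) < q := by exact_mod_cast hq.pos
  have hqZ : (q : ℤ) ≠ 0 := by exact_mod_cast hq.ne_zero
  have hqq : Prime (q : ℤ) := Nat.prime_iff_prime_int.mp hq
  have hqN' : ¬ (q : ℤ) ∣ N₁ := by exact_mod_cast hqN
  have hqz : ¬ (q : ℤ) ∣ z := by
    rintro ⟨z', hz'⟩
    apply hqq.not_isUnit
    rw [isUnit_iff_dvd_one]
    exact ⟨x * t - N₁ * y * z', by rw [hz'] at hal; linear_combination -hal⟩
  have hdetj : ∀ j : ℤ, x * (N₁ * z * j + q * t) - (x * j + y) * (N₁ * z) = 1 := by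
    intro j; linear_combination hal
  have hdetr : ∀ j : ℤ, (x : ℝ) * ((N₁ * z * j + q * t : ℤ) : ℝ) -
      ((x * j + y : ℤ) : ℝ) * ((N₁ * z : ℤ) : ℝ) ≠ 0 := by
    intro j
    have : (x : ℝ) * ((N₁ * z * j + q * t : ℤ) : ℝ) -
      ((x * j + y : ℤ) : ℝ) * ((N₁ * z : ℤ) : ℝ) = 1 := by exact_mod_cast hdetj j
    rw [this]; exact one_ne_zero
  let G : ℤ → GL (Fin 2) ℝ := fun j => mat (x : ℝ) ((x * j + y : ℤ) : ℝ) ((N₁ * z : ℤ) : ℝ)
    ((N₁ * z * j + q * t : ℤ) : ℝ) (hdetr j)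
  have hGm : ∀ j, G j ∈ G0 N₁ := fun j =>
    mem_G0.mpr ⟨_, _, _, _, hdetj j, dvd_mul_right _ _, val_mat _ _ _ _ _⟩
  have hGinv : ∀ j, ((G j)⁻¹ : GL (Fin 2) ℝ) = mat ((N₁ * z * j + q * t : ℤ) : ℝ)
      ((-(x * j + y) : ℤ) : ℝ) ((-(N₁ * z) : ℤ) : ℝ) (x : ℝ) (by
        have h1 : (N₁ * z * j + q * t) * x - (-(x * j + y)) * (-(N₁ * z)) = 1 := by
          linear_combination hal
        have : ((N₁ * z * j + q * t : ℤ) : ℝ) * (x : ℝ) -
          ((-(x * j + y) : ℤ) : ℝ) * ((-(N₁ * z) : ℤ) : ℝ) = 1 := by exact_mod_cast h1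
        rw [this]; exact one_ne_zero) := by
    intro j
    rw [inv_eq_iff_mul_eq_one]
    apply Units.ext
    rw [Units.val_mul, val_mat, val_mat, Matrix.mul_fin_two]
    have hj := hdetj j
    have h1 : x * (N₁ * z * j + q * t) + (x * j + y) * (-(N₁ * z)) = 1 := by linear_combination hj
    have h2 : x * (-(x * j + y)) + (x * j + y) * x = 0 := by ring
    have h3 : (N₁ * z) * (N₁ * z * j + q * t) + (N₁ * z * j + q * t) * (-(N₁ * z)) = 0 := by ring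
    have h4 : (N₁ * z) * (-(x * j + y)) + (N₁ * z * j + q * t) * x = 1 := by linear_combination hj
    ext a b
    fin_cases a <;> fin_cases b
    · simpa using (show (x : ℝ) * ((N₁ * z * j + q * t : ℤ) : ℝ) + ((x * j + y : ℤ) : ℝ) *
        ((-(N₁ * z) : ℤ) : ℝ) = 1 by exact_mod_cast h1)
    · simpa using (show (x : ℝ) * ((-(x * j + y) : ℤ) : ℝ) + ((x * j + y : ℤ) : ℝ) * (x : ℝ) = 0 by
        exact_mod_cast h2)
    · simpa using (show ((N₁ * z : ℤ) : ℝ) * ((N₁ * z * j + q * t : ℤ) : ℝ) +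
        ((N₁ * z * j + q * t : ℤ) : ℝ) * ((-(N₁ * z) : ℤ) : ℝ) = 0 by exact_mod_cast h3)
    · simpa using (show ((N₁ * z : ℤ) : ℝ) * ((-(x * j + y) : ℤ) : ℝ) +
        ((N₁ * z * j + q * t : ℤ) : ℝ) * (x : ℝ) = 1 by exact_mod_cast h4)
  let r : Option (Fin q) → GL (Fin 2) ℝ := fun o => o.elim 1 (fun j => G (j : ℕ))
  -- lower left entry of elements of G0 (q * N₁)
  have hll : ∀ g : GL (Fin 2) ℝ, g ∈ G0 (q * N₁) → ∀ c : ℤ,
      (g : Matrix (Fin 2) (Fin 2) ℝ) 1 0 = c → ((q * N₁ : ℕ) : ℤ) ∣ c := by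
    intro g hg c hc
    obtain ⟨a', b', c', d', -, h1, h2⟩ := mem_G0.mp hg
    rw [h2] at hc
    simp at hc
    have : c' = c := by exact_mod_cast hc
    rwa [← this]
  have hsum : f + heckeU 2 q (f ∣[(2 : ℤ)] m) = ∑ i, f ∣[(2 : ℤ)] r i := by
    rw [Fintype.sum_option]
    congr 1
    · change f = f ∣[(2 : ℤ)] (1 : GL (Fin 2) ℝ)
      rw [SlashAction.slash_one]
    · rw [heckeU_eq_sum]
      refine Finset.sum_congr rfl fun j _ => ?_
      have hs : (q : ℝ) * q - 0 * 0 ≠ 0 := by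
        have := mul_pos hqR hqR
        simpa using this.ne'
      have e : m * heckeMatrix q j = mat q 0 0 q hs * G (j : ℕ) := by
        apply Units.ext
        rw [Units.val_mul, Units.val_mul, hmm, val_heckeMatrix hq.ne_zero, val_mat, val_mat,
          Matrix.mul_fin_two, Matrix.mul_fin_two]
        push_cast
        ext i j
        fin_cases i <;> fin_cases j <;> simp <;> ring
      rw [← SlashAction.slash_mul, e, SlashAction.slash_mul, slash_scalar hqR]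
      rfl
  rw [hsum]
  have hrm : ∀ i, r i ∈ G0 N₁ := by
    rintro (_ | j)
    · exact (G0 N₁).one_mem
    · exact hGm _
  refine cf_of_G0 (IsQCF.sum _ _ fun i _ => hf.isQCF.slash ?_) ?_
  · obtain ⟨a, b, c, d, -, -, h⟩ := mem_G0.mp (hrm i)
    intro i' j'
    rw [h]
    fin_cases i' <;> fin_cases j'
    · exact ⟨a, by simp⟩
    · exact ⟨b, by simp⟩
    · exact ⟨c, by simp⟩
    · exact ⟨d, by simp⟩
  · intro κ hκ
    apply sum_reps_slash (H := G0 (q * N₁)) (G0_le_stab hf) r κ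
    · intro i
      obtain ⟨a, b, c, d, hdet, ⟨c₁, hc₁⟩, hx⟩ := mem_G0.mp ((G0 N₁).mul_mem (hrm i) hκ)
      by_cases hqc : (q : ℤ) ∣ c₁
      · refine ⟨none, ?_⟩
        change r i * κ * (1 : GL (Fin 2) ℝ)⁻¹ ∈ _
        rw [inv_one, mul_one]
        refine mem_G0.mpr ⟨a, b, c, d, hdet, ?_, hx⟩
        obtain ⟨c₂, hc₂⟩ := hqc
        exact ⟨c₂, by rw [hc₁, hc₂]; push_cast; ring⟩
      · have hqcN : ¬ (q : ℤ) ∣ c₁ * N₁ := fun h => (hqq.dvd_or_dvd h).elim hqc hqN'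
        obtain ⟨j, hj⟩ := exists_mod_inv hq (b := d) hqcN
        refine ⟨some j, ?_⟩
        change r i * κ * (G (j : ℕ))⁻¹ ∈ _
        obtain ⟨w, hw⟩ := hj
        rw [hGinv]
        refine mem_G0.mpr ⟨a * (N₁ * z * (j : ℕ) + q * t) + b * (-(N₁ * z)),
          a * (-(x * (j : ℕ) + y)) + b * x, c * (N₁ * z * (j : ℕ) + q * t) + d * (-(N₁ * z)),
          c * (-(x * (j : ℕ) + y)) + d * x, ?_, ?_, ?_⟩
        · have h1 := hdetj (j : ℕ)
          linear_combination (x * (N₁ * z * (j : ℕ) + q * t) - (x * (j : ℕ) + y) * (N₁ * z)) * hdet +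
            h1
        · refine ⟨c₁ * t - z * w, ?_⟩
          rw [hc₁]
          push_cast
          linear_combination (-(N₁ * z : ℤ)) * hw
        · rw [Units.val_mul, hx, val_mat, Matrix.mul_fin_two]
          push_cast
          rfl
    · have key : ∀ j : Fin q, G (j : ℕ) ∉ G0 (q * N₁) := by
        intro j hj
        have h1 := hll _ hj (N₁ * z) (by rw [val_mat]; simp)
        obtain ⟨w, hw⟩ := h1
        have hN0 : (N₁ : ℤ) ≠ 0 := fun h => hqN' (h ▸ dvd_zero _)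
        apply hqz
        refine ⟨w, mul_left_cancel₀ hN0 ?_⟩
        rw [hw]; push_cast; ring
      rintro (_ | i) (_ | j) hij
      · rfl
      · exfalso
        apply key j
        change (1 : GL (Fin 2) ℝ) * (G (j : ℕ))⁻¹ ∈ _ at hij
        rw [one_mul] at hij
        exact (G0 _).inv_mem_iff.mp hij
      · exfalso
        apply key i
        change G (i : ℕ) * (1 : GL (Fin 2) ℝ)⁻¹ ∈ _ at hij
        rwa [inv_one, mul_one] at hij
      · congr 1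
        change G (i : ℕ) * (G (j : ℕ))⁻¹ ∈ _ at hij
        have hN0 : (N₁ : ℤ) ≠ 0 := fun h => hqN' (h ▸ dvd_zero _)
        have h1 := hll _ hij (N₁ * z * (N₁ * z * ((j : ℕ) : ℤ) + q * t) +
          (N₁ * z * ((i : ℕ) : ℤ) + q * t) * (-(N₁ * z))) (by
            rw [Units.val_mul, hGinv, val_mat, val_mat, Matrix.mul_fin_two]
            push_cast
            simp)
        obtain ⟨w, hw⟩ := h1
        have h2 : (q : ℤ) ∣ (N₁ * z ^ 2) * (((j : ℕ) : ℤ) - ((i : ℕ) : ℤ)) := by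
          refine ⟨w, mul_left_cancel₀ hN0 ?_⟩
          push_cast at hw
          linear_combination hw
        have h3 : (q : ℤ) ∣ ((j : ℕ) : ℤ) - ((i : ℕ) : ℤ) := by
          rcases hqq.dvd_or_dvd h2 with h | h
          · rcases hqq.dvd_or_dvd h with h | h
            · exact absurd h hqN'
            · exact absurd (hqq.dvd_of_dvd_pow h) hqz
          · exact h
        have h4 : ((i : ℕ) : ℤ) ≡ ((j : ℕ) : ℤ) [ZMOD q] := Int.modEq_iff_dvd.mpr h3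
        exact Fin.ext (Nat.ModEq.eq_of_lt_of_lt (Int.natCast_modEq_iff.mp h4) i.2 j.2)

theorem coe_hOp_of_not_dvd [NeZero N] {ℓ : Nat.Primes} (h : ¬ (ℓ : ℕ) ∣ N)
    (F : CuspForm (Gamma0 N) 2) : (hOp N ℓ F : ℍ → ℂ) = heckeT 2 ℓ F := by
  rw [hOp_of_not_dvd h]; rfl

theorem heckeT_heckeU_comm' [NeZero N] (hf : IsCF (Gamma0 N) 2 f) {ℓ r : ℕ} (hℓ : ℓ.Prime)
    (hℓN : ¬ ℓ ∣ N) (hrN : r ∣ N) : heckeT 2 ℓ (heckeU 2 r f) = heckeU 2 r (heckeT 2 ℓ f) := by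
  have h1 := (CuspForm.heckeTLin_heckeULin_comm (N := N) 2 hℓ hℓN hrN).eq
  have h2 := congrArg (fun T : Module.End ℂ (CuspForm (Gamma0 N) 2) =>
    (T hf.toCuspForm : ℍ → ℂ)) h1
  exact h2

/-- For a newform, the trace to lower level of any form with the same good eigenvalues vanishes. -/
theorem trace_eq_zero [NeZero N₁] (hq : q.Prime) (hqN : ¬ q ∣ N₁) {m : GL (Fin 2) ℝ}
    {x y z t : ℤ} (hm : IsAL N₁ q m x y z t) {g : CuspForm (Gamma0 (q * N₁)) 2}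
    (hg : g.IsNewform) {F : ℍ → ℂ} (hF : IsCF (Gamma0 (q * N₁)) 2 F)
    (hFℓ : ∀ ℓ : ℕ, ℓ.Prime → ¬ ℓ ∣ q * N₁ → heckeT 2 ℓ F = qCoeff g ℓ • F) :
    F + heckeU 2 q (F ∣[(2 : ℤ)] m) = 0 := by
  have : NeZero (q * N₁) := ⟨mul_ne_zero hq.ne_zero (NeZero.ne N₁)⟩
  have hFm := hm.isCF hq.ne_zero hF
  have htr := trace_isCF hq hqN hm hF
  by_contra hne
  have h0 : htr.toCuspForm ≠ 0 := by
    intro h
    apply hne
    exact congrArg (fun G : CuspForm (Gamma0 N₁) 2 => (G : ℍ → ℂ)) h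
  obtain ⟨g', hg', hgg'⟩ := exists_eigenform (N := N₁) {ℓ | ¬ (ℓ : ℕ) ∣ q * N₁}
    (fun ℓ => qCoeff g ℓ) h0 (by
      intro ℓ hℓ
      have hℓN₁ : ¬ (ℓ : ℕ) ∣ N₁ := fun h => hℓ (h.mul_left q)
      apply DFunLike.coe_injective
      rw [coe_hOp_of_not_dvd hℓN₁, IsCF.coe_toCuspForm, heckeT_add,
        heckeT_heckeU_comm' hFm ℓ.2 hℓ (dvd_mul_right q N₁), hm.heckeT_comm hq.ne_zero hF ℓ.2 hℓ,
        hFℓ ℓ ℓ.2 hℓ, ModularForm.smul_slash]
      have hσ : UpperHalfPlane.σ m = .refl ℝ ℂ := by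
        apply sigma_of_det_pos
        rw [Matrix.GeneralLinearGroup.val_det_apply, hm.2, Matrix.det_fin_two_of]
        have halr : (q : ℝ) * x * t - N₁ * y * z = 1 := by exact_mod_cast hm.1
        have hq0 : (0 : ℝ) < q := by exact_mod_cast hq.pos
        have : (q : ℝ) * x * (q * t) - y * (q * N₁ * z) = q := by
          linear_combination (q : ℝ) * halr
        rw [this]
        exact hq0
      rw [hσ, ContinuousAlgEquiv.refl_apply, heckeU_smul]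
      change _ = qCoeff g ℓ • (F + heckeU 2 q (F ∣[(2 : ℤ)] m))
      rw [smul_add])
  refine hg.2 N₁ (dvd_mul_left N₁ q) ?_ ⟨g', hg', fun ℓ hℓ hℓN => hgg' ⟨ℓ, hℓ⟩ hℓN⟩
  intro h
  have h1 : 1 * N₁ = q * N₁ := by rw [one_mul]; exact h
  exact hq.one_lt.ne (Nat.eq_of_mul_eq_mul_right (Nat.pos_of_ne_zero (NeZero.ne N₁)) h1)

/-- Atkin–Lehner: for a newform and `q ∥ N`: `w_q g = -a_q g` and `a_q² = 1`. -/
theorem newform_al [NeZero N₁] (hq : q.Prime) (hqN : ¬ q ∣ N₁) {m : GL (Fin 2) ℝ}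
    {x y z t : ℤ} (hm : IsAL N₁ q m x y z t) {g : CuspForm (Gamma0 (q * N₁)) 2}
    (hg : g.IsNewform) :
    (g : ℍ → ℂ) ∣[(2 : ℤ)] m = -(qCoeff g q) • (g : ℍ → ℂ) ∧ qCoeff g q ^ 2 = 1 := by
  have : NeZero (q * N₁) := ⟨mul_ne_zero hq.ne_zero (NeZero.ne N₁)⟩
  have hF := IsCF.of_cuspForm g
  have hFm := hm.isCF hq.ne_zero hF
  have hσ : UpperHalfPlane.σ m = .refl ℝ ℂ := by
    apply sigma_of_det_pos
    rw [Matrix.GeneralLinearGroup.val_det_apply, hm.2, Matrix.det_fin_two_of]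
    have halr : (q : ℝ) * x * t - N₁ * y * z = 1 := by exact_mod_cast hm.1
    have hq0 : (0 : ℝ) < q := by exact_mod_cast hq.pos
    have : (q : ℝ) * x * (q * t) - y * (q * N₁ * z) = q := by
      linear_combination (q : ℝ) * halr
    rw [this]
    exact hq0
  have hgℓ : ∀ ℓ : ℕ, ℓ.Prime → ¬ ℓ ∣ q * N₁ →
      heckeT 2 ℓ (g : ℍ → ℂ) = qCoeff g ℓ • (g : ℍ → ℂ) := by
    intro ℓ hℓ hℓN
    have := congrArg (fun G : CuspForm (Gamma0 (q * N₁)) 2 => (G : ℍ → ℂ))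
      (hOp_eigen hg.1 ⟨ℓ, hℓ⟩)
    rw [coe_hOp_of_not_dvd (ℓ := ⟨ℓ, hℓ⟩) hℓN] at this
    exact this
  have hU : heckeU 2 q (g : ℍ → ℂ) = qCoeff g q • (g : ℍ → ℂ) := by
    have := congrArg (fun G : CuspForm (Gamma0 (q * N₁)) 2 => (G : ℍ → ℂ))
      (hOp_eigen hg.1 ⟨q, hq⟩)
    rw [hOp_of_dvd (q := ⟨q, hq⟩) (dvd_mul_right q N₁)] at this
    exact this
  have h2 := trace_eq_zero hq hqN hm hg hFm (by
    intro ℓ hℓ hℓN
    rw [hm.heckeT_comm hq.ne_zero hF hℓ hℓN, hgℓ ℓ hℓ hℓN, ModularForm.smul_slash, hσ,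
      ContinuousAlgEquiv.refl_apply])
  rw [hm.sq hq.ne_zero hF, hU] at h2
  have h3 : (g : ℍ → ℂ) ∣[(2 : ℤ)] m = -(qCoeff g q) • (g : ℍ → ℂ) := by
    rw [eq_neg_of_add_eq_zero_left h2]
    funext τ
    simp
  refine ⟨h3, ?_⟩
  have h4 := hm.sq hq.ne_zero hF
  rw [h3, ModularForm.smul_slash, hσ, ContinuousAlgEquiv.refl_apply, h3, smul_smul] at h4
  have h5 : (-(qCoeff g q) * -(qCoeff g q)) • g = (1 : ℂ) • g := by
    apply DFunLike.coe_injective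
    rw [one_smul]
    exact h4
  have h6 := smul_left_injective ℂ (ne_zero_of_isNormalizedEigenform hg.1) h5
  linear_combination h6

/-- `a_q = 0` for a newform with `q² ∣ N`. -/
theorem newform_sq_dvd [NeZero N] (hq : q.Prime) (hqN : q ^ 2 ∣ N) {g : CuspForm (Gamma0 N) 2}
    (hg : g.IsNewform) : qCoeff g q = 0 := by
  by_contra hne
  have hqN1 : q ∣ N := dvd_trans (dvd_pow_self q two_ne_zero) hqN
  have hN1 : NeZero (N / q) := ⟨(Nat.div_pos (Nat.le_of_dvd (Nat.pos_of_ne_zero (NeZero.ne N)) hqN1)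
    hq.pos).ne'⟩
  obtain ⟨h, hh, hhn⟩ := qCoeff_of_reps_sq hq hqN (IsCF.of_cuspForm g)
  have hhn' : ∀ n, qCoeff h n = qCoeff g q * qCoeff g n := by
    intro n
    have h1 := hhn (q * n)
    rw [qCoeff_V hh hq.ne_zero, if_pos (dvd_mul_right q n), if_pos (dvd_mul_right q n),
      Nat.mul_div_cancel_left n hq.pos] at h1
    have h2 := qCoeff_mul_prime hg.1 hq n
    rw [if_pos hqN1, zero_mul, add_zero] at h2
    rw [h1, h2]
  have heq : h = qCoeff g q • (g : ℍ → ℂ) := by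
    refine cf_ext hh (IsCF.smul _ (IsCF.of_cuspForm g)) fun n => ?_
    rw [hhn', qCoeff_smul' (IsCF.of_cuspForm g)]
  have h0 : hh.toCuspForm ≠ 0 := by
    intro h
    have h1 : qCoeff hh.toCuspForm 1 = 0 := by rw [h]; exact qCoeff_zero_fun 1
    rw [hh.coe_toCuspForm, hhn', hg.1.qCoeff_one, mul_one] at h1
    exact hne h1
  obtain ⟨g', hg', hgg'⟩ := exists_eigenform (N := N / q) {ℓ | ¬ (ℓ : ℕ) ∣ N}
    (fun ℓ => qCoeff g ℓ) h0 (by
      intro ℓ hℓ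
      have hℓN₁ : ¬ (ℓ : ℕ) ∣ N / q := fun h => hℓ (h.trans (Nat.div_dvd_of_dvd hqN1))
      apply DFunLike.coe_injective
      rw [coe_hOp_of_not_dvd hℓN₁, IsCF.coe_toCuspForm]
      change _ = qCoeff g ℓ • h
      have h3 := congrArg (fun G : CuspForm (Gamma0 N) 2 => (G : ℍ → ℂ)) (hOp_eigen hg.1 ℓ)
      rw [coe_hOp_of_not_dvd hℓ] at h3
      rw [heq, heckeT_smul, h3]
      change _ • (qCoeff g ℓ • (g : ℍ → ℂ)) = _
      rw [smul_comm])
  exact hg.2 (N / q) (Nat.div_dvd_of_dvd hqN1)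
    (Nat.div_lt_self (Nat.pos_of_ne_zero (NeZero.ne N)) hq.one_lt).ne
    ⟨g', hg', fun ℓ hℓ hℓN => hgg' ⟨ℓ, hℓ⟩ hℓN⟩

/-- `a_q² = 1` for a newform with `q ∥ N`. -/
theorem newform_exact [NeZero N] (hq : q.Prime) (hqN : q ∣ N) (hq2 : ¬ q ^ 2 ∣ N)
    {g : CuspForm (Gamma0 N) 2} (hg : g.IsNewform) : qCoeff g q ^ 2 = 1 := by
  obtain ⟨N₁, rfl⟩ := hqN
  have hN₁ : NeZero N₁ := ⟨right_ne_zero_of_mul (NeZero.ne (q * N₁))⟩
  have hqN₁ : ¬ q ∣ N₁ := by
    rintro ⟨s, rfl⟩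
    exact hq2 ⟨s, by ring⟩
  obtain ⟨m, x, y, z, t, hm⟩ := exists_AL hq.ne_zero ((hq.coprime_iff_not_dvd).mpr hqN₁)
  exact (newform_al hq hqN₁ hm hg).2

/-- The Prelude statement on bad coefficients of newforms. -/
theorem newformBadPrimeCoeff (N : ℕ) [NeZero N] : NewformBadPrimeCoeff N := fun _ hf _ hq hqN =>
  ⟨fun h => newform_exact hq hqN h hf, fun h => newform_sq_dvd hq h hf⟩

end Fermat.Agent.Newform
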