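import Fermat.Agent.Newform.MainLemma2
import Fermat.Agent.Eigenform.Converse
import Fermat.Prelude.Def_CuspForm_Newforms
import Fermat.Prelude.Def_CuspForm_HeckeEvalForms

set_option autoImplicit false

noncomputable section

namespace Fermat.Agent.Newform

open UpperHalfPlane ModularForm CongruenceSubgroup Matrix.SpecialLinearGroup Filter
open Fermat.Agent.IntStr ModularFormClass CuspForm Fermat.Agent.Eigenform
open scoped MatrixGroups Manifold Topology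

/-- Common eigenvectors for commuting families. -/
theorem exists_common_eigenvector {V : Type*} [AddCommGroup V] [Module ℂ V]
    [FiniteDimensional ℂ V] {ι : Type*} (T : ι → Module.End ℂ V)
    (hcomm : ∀ i j, Commute (T i) (T j)) (W : Submodule ℂ V) (hW : W ≠ ⊥)
    (hstab : ∀ i, ∀ w ∈ W, T i w ∈ W) :
    ∃ v ∈ W, v ≠ 0 ∧ ∀ i, ∃ μ : ℂ, T i v = μ • v := by
  classical
  -- minimal nonzero stable subspace
  let P : ℕ → Prop := fun d => ∃ U : Submodule ℂ V, U ≤ W ∧ U ≠ ⊥ ∧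
    (∀ i, ∀ w ∈ U, T i w ∈ U) ∧ Module.finrank ℂ U = d
  have hP : ∃ d, P d := ⟨_, W, le_refl _, hW, hstab, rfl⟩
  obtain ⟨U, hUW, hU0, hUs, hUd⟩ := Nat.find_spec hP
  have hmin : ∀ U' : Submodule ℂ V, U' ≤ U → U' ≠ ⊥ → (∀ i, ∀ w ∈ U', T i w ∈ U') → U' = U := by
    intro U' hle h0 hs
    apply Submodule.eq_of_le_of_finrank_le hle
    rw [hUd]
    exact Nat.find_min' hP ⟨U', hle.trans hUW, h0, hs, rfl⟩
  obtain ⟨v, hvU, hv0⟩ := (Submodule.ne_bot_iff _).mp hU0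
  refine ⟨v, hUW hvU, hv0, fun i => ?_⟩
  -- eigenvalue of T i on U
  have : Nontrivial U := (Submodule.nontrivial_iff_ne_bot).mpr hU0
  obtain ⟨μ, hμ⟩ := Module.End.exists_eigenvalue ((T i).restrict (hUs i))
  obtain ⟨u, hu⟩ := hμ.exists_hasEigenvector
  have hu1 : T i (u : V) = μ • (u : V) := by
    have := hu.apply_eq_smul
    have h2 := congrArg Subtype.val this
    simpa using h2
  let U' : Submodule ℂ V := U ⊓ LinearMap.ker (T i - μ • (1 : Module.End ℂ V))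
  have hU' : U' = U := by
    apply hmin U' inf_le_left
    · rw [Submodule.ne_bot_iff]
      refine ⟨u, ⟨u.2, ?_⟩, ?_⟩
      · rw [SetLike.mem_coe, LinearMap.mem_ker, LinearMap.sub_apply, hu1]
        simp
      · intro h
        exact hu.2 (Subtype.ext h)
    · rintro j w ⟨hw1, hw2⟩
      refine ⟨hUs j w hw1, ?_⟩
      rw [SetLike.mem_coe, LinearMap.mem_ker, LinearMap.sub_apply, sub_eq_zero] at hw2 ⊢
      rw [LinearMap.smul_apply, Module.End.one_apply] at hw2 ⊢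
      have h3 : T i (T j w) = T j (T i w) := by
        have := hcomm i j
        exact congrArg (fun f : Module.End ℂ V => f w) this.eq
      rw [h3, hw2, map_smul]
  have hv' : v ∈ U' := hU' ▸ hvU
  refine ⟨μ, ?_⟩
  have := hv'.2
  rw [SetLike.mem_coe, LinearMap.mem_ker, LinearMap.sub_apply, sub_eq_zero] at this
  simpa using this

variable {N M : ℕ}

instance finDim (N : ℕ) [NeZero N] (k : ℤ) : FiniteDimensional ℂ (CuspForm (Gamma0 N) k) :=
  finiteDimensional_of_hasIntegralStructure N k (hasIntegralStructure N k)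

/-- The Hecke operator at a prime (`U_ℓ` if `ℓ ∣ N`, `T_ℓ` otherwise). -/
def hOp (N : ℕ) [NeZero N] (ℓ : Nat.Primes) : Module.End ℂ (CuspForm (Gamma0 N) 2) :=
  (heckeFormsGen N 2 ℓ : heckeAlgebra N 2 ∅)

theorem hOp_of_dvd [NeZero N] {q : Nat.Primes} (h : (q : ℕ) ∣ N) : hOp N q = CuspForm.heckeULin 2 h := by
  rw [hOp, heckeFormsGen_of_dvd h]; rfl

theorem hOp_of_not_dvd [NeZero N] {q : Nat.Primes} (h : ¬ (q : ℕ) ∣ N) :
    hOp N q = CuspForm.heckeTLin 2 q.2 h := by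
  rw [hOp, heckeFormsGen_of_not_dvd h]; rfl

theorem hOp_comm [NeZero N] (q r : Nat.Primes) : Commute (hOp N q) (hOp N r) := by
  have := mul_comm (heckeFormsGen N 2 q) (heckeFormsGen N 2 r)
  exact congrArg Subtype.val this

/-- The coefficients of `T_ℓ f`, `U_ℓ f`. -/
theorem qCoeff_hOp [NeZero N] (ℓ : Nat.Primes) (f : CuspForm (Gamma0 N) 2) (n : ℕ) :
    qCoeff (hOp N ℓ f) n = qCoeff f (ℓ * n) + (if (ℓ : ℕ) ∣ N then (0 : ℂ) else (ℓ : ℂ)) *
      (if (ℓ : ℕ) ∣ n then qCoeff f (n / ℓ) else 0) := by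
  by_cases h : (ℓ : ℕ) ∣ N
  · rw [hOp_of_dvd h, qCoeff_heckeULin, ModularForm.coeffHeckeU_apply, if_pos h, zero_mul, add_zero,
      mul_comm]
  · rw [hOp_of_not_dvd h, qCoeff_heckeTLin, ModularForm.coeffHeckeT_apply, if_neg h, mul_comm n]
    congr 1
    split_ifs
    · norm_num
    · rw [mul_zero]

/-- Eigen-existence: a system of eigenvalues occurring on a nonzero form extends to
a normalised eigenform. -/
theorem exists_eigenform [NeZero N] (P : Set Nat.Primes) (a : Nat.Primes → ℂ)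
    {h : CuspForm (Gamma0 N) 2} (h0 : h ≠ 0) (hP : ∀ ℓ ∈ P, hOp N ℓ h = a ℓ • h) :
    ∃ g : CuspForm (Gamma0 N) 2, g.IsNormalizedEigenform ∧ ∀ ℓ ∈ P, qCoeff g ℓ = a ℓ := by
  let W : Submodule ℂ (CuspForm (Gamma0 N) 2) :=
    ⨅ ℓ ∈ P, LinearMap.ker (hOp N ℓ - a ℓ • (1 : Module.End ℂ (CuspForm (Gamma0 N) 2)))
  have hmem : ∀ w, w ∈ W ↔ ∀ ℓ ∈ P, hOp N ℓ w = a ℓ • w := by
    intro w
    simp only [W, Submodule.mem_iInf, LinearMap.mem_ker, LinearMap.sub_apply, sub_eq_zero,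
      LinearMap.smul_apply, Module.End.one_apply]
  obtain ⟨v, hvW, hv0, hv⟩ := exists_common_eigenvector (hOp N) hOp_comm W
    ((Submodule.ne_bot_iff _).mpr ⟨h, (hmem h).mpr hP, h0⟩)
    (by
      intro r w hw
      rw [hmem] at hw ⊢
      intro ℓ hℓ
      have h3 : hOp N ℓ (hOp N r w) = hOp N r (hOp N ℓ w) := by
        have := hOp_comm (N := N) ℓ r
        exact congrArg (fun f : Module.End ℂ (CuspForm (Gamma0 N) 2) => f w) this.eq
      rw [h3, hw ℓ hℓ, map_smul])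
  choose μ hμ using hv
  let t : ℕ → ℂ := fun n => if h : n.Prime then μ ⟨n, h⟩ else 0
  have ht : ∀ ℓ : Nat.Primes, t ℓ = μ ℓ := fun ℓ => by simp only [t, dif_pos ℓ.2]; rfl
  have hT : ∀ (w : CuspForm (Gamma0 N) 2), (∀ ℓ, hOp N ℓ w = μ ℓ • w) →
      ∀ (ℓ : ℕ) (hℓ : ℓ.Prime) (hℓN : ¬ ℓ ∣ N), CuspForm.heckeTLin 2 hℓ hℓN w = t ℓ • w := by
    intro w hw ℓ hℓ hℓN
    have := hw ⟨ℓ, hℓ⟩
    rw [hOp_of_not_dvd (q := ⟨ℓ, hℓ⟩) hℓN] at this
    rw [show t ℓ = μ ⟨ℓ, hℓ⟩ from ht ⟨ℓ, hℓ⟩]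
    exact this
  have hU : ∀ (w : CuspForm (Gamma0 N) 2), (∀ ℓ, hOp N ℓ w = μ ℓ • w) →
      ∀ (ℓ : ℕ) (_ : ℓ.Prime) (hℓN : ℓ ∣ N), CuspForm.heckeULin 2 hℓN w = t ℓ • w := by
    intro w hw ℓ hℓ hℓN
    have := hw ⟨ℓ, hℓ⟩
    rw [hOp_of_dvd (q := ⟨ℓ, hℓ⟩) hℓN] at this
    rw [show t ℓ = μ ⟨ℓ, hℓ⟩ from ht ⟨ℓ, hℓ⟩]
    exact this
  have h1 := qCoeff_one_ne_zero hv0 t (hT v hμ) (hU v hμ)
  set g := (qCoeff v 1)⁻¹ • v with hg
  have hgμ : ∀ ℓ, hOp N ℓ g = μ ℓ • g := by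
    intro ℓ
    rw [hg, map_smul, hμ, smul_comm]
  have hg1 : qCoeff g 1 = 1 := by
    rw [hg, qCoeff_smul, inv_mul_cancel₀ h1]
  obtain ⟨h2, h3⟩ := isNormalizedEigenform_of_eigen hg1 t (hT g hgμ) (hU g hgμ)
  refine ⟨g, h2, fun ℓ hℓ => ?_⟩
  rw [h3 ℓ ℓ.2, ht]
  have h4 := (hmem v).mp hvW ℓ hℓ
  rw [hμ] at h4
  exact smul_left_injective ℂ hv0 h4

theorem isNormalizedEigenform_iff [NeZero N] {f : CuspForm (Gamma0 N) 2} :
    f.IsNormalizedEigenform ↔ FormalHecke.IsEigensystem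
      (fun ℓ => if ℓ ∣ N then (0 : ℂ) else (ℓ : ℂ)) (qCoeff f) := by
  constructor
  · intro hf
    exact ⟨hf.qCoeff_one, fun ℓ hℓ n => qCoeff_mul_prime hf hℓ n⟩
  · intro h
    refine ⟨h.1, fun m n hmn => IsEigensystem.mul_of_coprime h m n hmn, ?_, ?_⟩
    · intro p r hp hpN
      have := IsEigensystem.prime_pow h p r hp
      simpa only [if_neg hpN] using this
    · intro p r hp hpN
      have := IsEigensystem.prime_pow h p r hp
      simpa only [if_pos hpN, zero_mul, sub_zero] using this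

theorem hOp_eigen [NeZero N] {f : CuspForm (Gamma0 N) 2} (hf : f.IsNormalizedEigenform)
    (ℓ : Nat.Primes) : hOp N ℓ f = qCoeff f ℓ • f := by
  by_cases h : (ℓ : ℕ) ∣ N
  · rw [hOp_of_dvd h]; exact heckeULin_eigen hf ℓ.2 h
  · rw [hOp_of_not_dvd h]; exact heckeTLin_eigen hf ℓ.2 h

/-- Two normalised eigenforms with the same prime coefficients are equal. -/
theorem eigenform_ext [NeZero N] {f g : CuspForm (Gamma0 N) 2} (hf : f.IsNormalizedEigenform)
    (hg : g.IsNormalizedEigenform) (h : ∀ ℓ : ℕ, ℓ.Prime → qCoeff f ℓ = qCoeff g ℓ) : f = g := by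
  have h0 : f - g = 0 := by
    apply eq_zero_of_qCoeff_eq_zero
    intro n
    rcases Nat.eq_zero_or_pos n with rfl | hn
    · exact qCoeff_cuspForm_zero _
    · refine eq_zero_of_eigen (e := fun ℓ => if ℓ ∣ N then (0 : ℂ) else (ℓ : ℂ))
        (t := qCoeff f) (c := qCoeff ⇑(f - g)) ?_ ?_ n hn
      · intro ℓ hℓ n
        have h1 := qCoeff_mul_prime hf hℓ n
        have h2 := qCoeff_mul_prime hg hℓ n
        rw [← h ℓ hℓ] at h2
        simp only [qCoeff_sub]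
        by_cases hd : ℓ ∣ n
        · rw [if_pos hd] at h1 h2 ⊢
          linear_combination h1 - h2
        · rw [if_neg hd] at h1 h2 ⊢
          linear_combination h1 - h2
      · rw [qCoeff_sub, hf.qCoeff_one, hg.qCoeff_one, sub_self]
  exact sub_eq_zero.mp h0

/-- Every normalised eigenform has an underlying newform. -/
theorem exists_newform [NeZero N] {f : CuspForm (Gamma0 N) 2} (hf : f.IsNormalizedEigenform) :
    ∃ (M : ℕ) (_ : M ∣ N) (g : CuspForm (Gamma0 M) 2), g.IsNewform ∧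
      ∀ ℓ : ℕ, ℓ.Prime → ¬ ℓ ∣ N → qCoeff g ℓ = qCoeff f ℓ := by
  classical
  have hex : ∃ M, M ∣ N ∧ GoodEigensystemOccursAt f M :=
    ⟨N, dvd_refl N, GoodEigensystemOccursAt.refl hf⟩
  have hspec := Nat.find_spec hex
  obtain ⟨M, hM⟩ : ∃ M, M = Nat.find hex := ⟨_, rfl⟩
  rw [← hM] at hspec
  obtain ⟨hMN, g, hg, hgf⟩ := hspec
  refine ⟨M, hMN, g, ⟨hg, ?_⟩, hgf⟩
  rintro M' hM' hne ⟨g', hg', hgg'⟩
  have hM0 : M ≠ 0 := fun h => NeZero.ne N (Nat.eq_zero_of_zero_dvd (h ▸ hMN))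
  have hlt : M' < M := lt_of_le_of_ne (Nat.le_of_dvd (Nat.pos_of_ne_zero hM0) hM') hne
  rw [hM] at hlt
  refine Nat.find_min hex hlt ⟨hM'.trans hMN, g', hg', fun ℓ hℓ hℓN => ?_⟩
  rw [hgg' ℓ hℓ (fun h => hℓN (h.trans hMN)), hgf ℓ hℓ hℓN]

/-- **Stabilisation.** Let `g` be a normalised eigenform of level `M`, `q` a prime and `β` a root of
`X² - a_q X + (q or 0)`. Then `g - β g(qτ)` is a normalised eigenform of level `Mq`. -/
theorem stabilize [NeZero M] {g : CuspForm (Gamma0 M) 2} (hg : g.IsNormalizedEigenform) {q : ℕ}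
    (hq : q.Prime) {β : ℂ}
    (hβ : β ^ 2 - qCoeff g q * β + (if q ∣ M then (0 : ℂ) else (q : ℂ)) = 0) :
    ∃ f : CuspForm (Gamma0 (M * q)) 2, f.IsNormalizedEigenform ∧
      (∀ ℓ : ℕ, ℓ.Prime → ℓ ≠ q → qCoeff f ℓ = qCoeff g ℓ) ∧ qCoeff f q = qCoeff g q - β ∧
      (f : ℍ → ℂ) = (g : ℍ → ℂ) - β • V q g := by
  have : NeZero (M * q) := ⟨mul_ne_zero (NeZero.ne M) hq.ne_zero⟩
  have h1 : IsCF (Gamma0 M) 2 (g : ℍ → ℂ) := IsCF.of_cuspForm g
  have h2 : IsCF (Gamma0 (M * q)) 2 (g : ℍ → ℂ) := IsCF.nezero_level h1 q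
  have h3 : IsCF (Gamma0 (M * q)) 2 (V q g) := IsCF.V h1 hq.ne_zero
  have h4 : IsCF (Gamma0 (M * q)) 2 ((g : ℍ → ℂ) - β • V q g) := IsCF.sub h2 (IsCF.smul β h3)
  have hc : ∀ n, qCoeff ((g : ℍ → ℂ) - β • V q g) n =
      qCoeff g n - β * (if q ∣ n then qCoeff g (n / q) else 0) := by
    intro n
    rw [qCoeff_sub' h2 (IsCF.smul β h3), qCoeff_smul' h3, qCoeff_V h1 hq.ne_zero]
  have hcℓ : ∀ ℓ : ℕ, ℓ.Prime → ℓ ≠ q → qCoeff ((g : ℍ → ℂ) - β • V q g) ℓ = qCoeff g ℓ := by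
    intro ℓ hℓ hne
    rw [hc, if_neg (fun h => hne ((Nat.prime_dvd_prime_iff_eq hq hℓ).mp h).symm), mul_zero,
      sub_zero]
  have hcq : qCoeff ((g : ℍ → ℂ) - β • V q g) q = qCoeff g q - β := by
    rw [hc, if_pos (dvd_refl q), Nat.div_self hq.pos, hg.qCoeff_one, mul_one]
  refine ⟨h4.toCuspForm, ?_, hcℓ, hcq, rfl⟩
  rw [isNormalizedEigenform_iff]
  refine ⟨?_, ?_⟩
  · rw [h4.coe_toCuspForm, hc, if_neg (fun h => hq.one_lt.ne' (Nat.dvd_one.mp h)), mul_zero,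
      sub_zero, hg.qCoeff_one]
  · intro ℓ hℓ n
    rw [h4.coe_toCuspForm]
    beta_reduce
    by_cases hℓq : ℓ = q
    · subst hℓq
      rw [if_pos (dvd_mul_left ℓ M), zero_mul, add_zero, hcq, hc, hc, if_pos (dvd_mul_right ℓ n),
        Nat.mul_div_cancel_left n hq.pos]
      have h5 := qCoeff_mul_prime hg hq n
      linear_combination h5 - (if ℓ ∣ n then qCoeff g (n / ℓ) else 0) * hβ
    · rw [hcℓ ℓ hℓ hℓq]
      simp only [hc]
      have hdiff : (if ℓ ∣ M * q then (0 : ℂ) else (ℓ : ℂ)) = if ℓ ∣ M then (0 : ℂ) else (ℓ : ℂ) := by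
        have : ℓ ∣ M * q ↔ ℓ ∣ M := by
          rw [hℓ.dvd_mul]
          constructor
          · rintro (h | h)
            · exact h
            · exact absurd ((Nat.prime_dvd_prime_iff_eq hℓ hq).mp h) hℓq
          · exact Or.inl
        simp only [this]
      rw [hdiff]
      have h5 := qCoeff_mul_prime hg hℓ n
      have hcop : Nat.Coprime q ℓ := (Nat.coprime_primes hq hℓ).mpr (Ne.symm hℓq)
      by_cases hqn : q ∣ n
      · obtain ⟨m, rfl⟩ := hqn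
        have h6 := qCoeff_mul_prime hg hℓ m
        have e1 : ℓ * (q * m) / q = ℓ * m := by
          rw [mul_left_comm, Nat.mul_div_cancel_left _ hq.pos]
        rw [if_pos (dvd_mul_right q m), Nat.mul_div_cancel_left m hq.pos,
          if_pos ((dvd_mul_right q m).mul_left ℓ), e1]
        by_cases hℓm : ℓ ∣ m
        · obtain ⟨r, rfl⟩ := hℓm
          have e2 : q * (ℓ * r) / ℓ = q * r := by
            rw [mul_left_comm, Nat.mul_div_cancel_left _ hℓ.pos]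
          have e3 : ℓ * r / ℓ = r := Nat.mul_div_cancel_left _ hℓ.pos
          rw [if_pos ((dvd_mul_right ℓ r).mul_left q), e2] at h5 ⊢
          rw [if_pos (dvd_mul_right ℓ r), e3] at h6
          rw [if_pos (dvd_mul_right q r), Nat.mul_div_cancel_left r hq.pos]
          linear_combination h5 - β * h6
        · have hne : ¬ ℓ ∣ q * m := fun h => hℓm (hcop.symm.dvd_of_dvd_mul_left h)
          rw [if_neg hne] at h5 ⊢
          rw [if_neg hℓm] at h6
          linear_combination h5 - β * h6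
      · have hqn' : ¬ q ∣ ℓ * n := fun h => hqn (hcop.dvd_of_dvd_mul_left h)
        rw [if_neg hqn, if_neg hqn']
        by_cases hℓn : ℓ ∣ n
        · have hqd : ¬ q ∣ n / ℓ := fun h => hqn (h.trans (Nat.div_dvd_of_dvd hℓn))
          rw [if_pos hℓn] at h5 ⊢
          rw [if_neg hqd]
          linear_combination h5
        · rw [if_neg hℓn] at h5 ⊢
          linear_combination h5

end Fermat.Agent.Newform
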