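import Fermat.Agent.Newform.StrongMult

set_option autoImplicit false

noncomputable section

namespace Fermat.Agent.Newform

open UpperHalfPlane ModularForm CongruenceSubgroup Matrix.SpecialLinearGroup Filter
open Fermat.Agent.IntStr ModularFormClass CuspForm Fermat.Agent.Eigenform Fermat.Agent.Petersson
open scoped MatrixGroups Manifold Topology

variable {N M : ℕ}

theorem V_one (f : ℍ → ℂ) : V 1 f = f := by
  funext τ
  rw [V]
  congr 1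
  apply UpperHalfPlane.ext
  rw [coe_heckeDiagMatrix_smul one_ne_zero]
  simp

theorem V_V {a b : ℕ} (ha : a ≠ 0) (hb : b ≠ 0) (f : ℍ → ℂ) : V a (V b f) = V (a * b) f := by
  funext τ
  rw [V, V, V]
  congr 1
  apply UpperHalfPlane.ext
  rw [coe_heckeDiagMatrix_smul hb, coe_heckeDiagMatrix_smul ha,
    coe_heckeDiagMatrix_smul (mul_ne_zero ha hb)]
  push_cast
  ring

/-- Equivariant decomposition: component of `G` in the eigenspace of a system `a`. -/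
theorem exists_component [NeZero M] [NeZero N] {d : ℕ} (hd : d ≠ 0) (h : M * d ∣ N)
    (s : Finset ℕ) (hs : ∀ ℓ : ℕ, ℓ.Prime → ℓ ∣ N → ℓ ∈ s) (a : Nat.Primes → ℂ)
    (G : CuspForm (Gamma0 M) 2) :
    ∃ G' : CuspForm (Gamma0 M) 2, (∀ ℓ : Nat.Primes, (ℓ : ℕ) ∉ s → hOp M ℓ G' = a ℓ • G') ∧
      ∀ X : CuspForm (Gamma0 N) 2, (∀ ℓ : Nat.Primes, (ℓ : ℕ) ∉ s → hOp N ℓ X = a ℓ • X) →
        ip X (VLin 2 hd h (G - G')) = 0 := by
  have hMN : M ∣ N := (dvd_mul_right M d).trans h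
  have htop := iSup_iInf_eigenspace (N := M) (fun ℓ : Nat.Primes => (ℓ : ℕ) ∉ s)
    (fun ℓ hℓ hℓM => hℓ (hs ℓ ℓ.2 (hℓM.trans hMN)))
  have hG : G ∈ ⨆ χ : {ℓ : Nat.Primes // (ℓ : ℕ) ∉ s} → ℂ,
      ⨅ ℓ : {ℓ : Nat.Primes // (ℓ : ℕ) ∉ s}, (hOp M ℓ.1).eigenspace (χ ℓ) := by
    rw [htop]; trivial
  induction hG using Submodule.iSup_induction' with
  | zero =>
    refine ⟨0, fun ℓ _ => by rw [map_zero, smul_zero], fun X _ => ?_⟩
    rw [sub_zero, map_zero, ip_zero_right]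
  | mem χ x hx =>
    rw [Submodule.mem_iInf] at hx
    by_cases hχ : ∀ ℓ : {ℓ : Nat.Primes // (ℓ : ℕ) ∉ s}, χ ℓ = a ℓ.1
    · refine ⟨x, fun ℓ hℓ => ?_, fun X _ => ?_⟩
      · have h1 := hx ⟨ℓ, hℓ⟩
        rw [Module.End.mem_eigenspace_iff, hχ] at h1
        exact h1
      · rw [sub_self, map_zero, ip_zero_right]
    · push Not at hχ
      obtain ⟨⟨ℓ, hℓ⟩, hne⟩ := hχ
      refine ⟨0, fun ℓ _ => by rw [map_zero, smul_zero], fun X hX => ?_⟩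
      rw [sub_zero]
      have hℓN : ¬ (ℓ : ℕ) ∣ N := fun h1 => hℓ (hs ℓ ℓ.2 h1)
      have h1 := hx ⟨ℓ, hℓ⟩
      rw [Module.End.mem_eigenspace_iff] at h1
      have h2 := isSym_hOp hℓN X (VLin 2 hd h x)
      rw [hX ℓ hℓ, hOp_VLin hd h ℓ (fun h3 => hℓN ((h3.mul_left M).trans h))
        ⟨fun h3 => absurd (h3.trans hMN) hℓN, fun h3 => absurd h3 hℓN⟩, h1, map_smul,
        ip_smul_left, ip_smul_right] at h2
      by_cases hX0 : X = 0
      · rw [hX0, ip_zero_left]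
      · have h3 := (isSym_hOp hℓN).conj_eq hX0 (hX ℓ hℓ)
        rw [h3] at h2
        by_contra h4
        exact hne (mul_right_cancel₀ h4 h2).symm
  | add x y _ _ ihx ihy =>
    obtain ⟨x', hx', hx''⟩ := ihx
    obtain ⟨y', hy', hy''⟩ := ihy
    refine ⟨x' + y', fun ℓ hℓ => ?_, fun X hX => ?_⟩
    · rw [map_add, hx' ℓ hℓ, hy' ℓ hℓ, smul_add]
    · have e : x + y - (x' + y') = (x - x') + (y - y') := by abel
      rw [e, map_add, ip_add_right, hx'' X hX, hy'' X hX, add_zero]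

theorem ip_sum_right {ι : Type*} [NeZero N] (t : Finset ι) (X : CuspForm (Gamma0 N) 2)
    (F : ι → CuspForm (Gamma0 N) 2) : ip X (∑ i ∈ t, F i) = ∑ i ∈ t, ip X (F i) := by
  classical
  induction t using Finset.induction_on with
  | empty => simp [ip_zero_right]
  | insert i t hi ih => rw [Finset.sum_insert hi, Finset.sum_insert hi, ip_add_right, ih]

/-- **Structure of eigenspaces.** Let `g` be a newform of level `M`. A form of level `N` with the same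
`T_ℓ`-eigenvalues for almost all `ℓ` is a combination of the `g(dτ)`, `d ∣ N / M`. -/
theorem mem_span_of_eigen [NeZero M] {g : CuspForm (Gamma0 M) 2} (hg : g.IsNewform)
    (N : ℕ) : ∀ [NeZero N] (s : Finset ℕ) (f : CuspForm (Gamma0 N) 2),
    (∀ ℓ : Nat.Primes, (ℓ : ℕ) ∉ s → hOp N ℓ f = qCoeff g ℓ • f) →
    (f : ℍ → ℂ) ∈ Submodule.span ℂ {F : ℍ → ℂ | ∃ d : ℕ, M * d ∣ N ∧ F = V d g} := by
  classical
  induction N using Nat.strong_induction_on with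
  | _ N IH =>
  intro _ s f hf
  by_cases hf0 : f = 0
  · rw [hf0]
    exact Submodule.zero_mem _
  -- enlarge `s`
  set s' : Finset ℕ := (s ∪ N.primeFactors ∪ M.primeFactors).filter Nat.Prime with hs'
  have hs'p : ∀ p ∈ s', p.Prime := fun p hp => (Finset.mem_filter.mp hp).2
  have hs'N : ∀ p : ℕ, p.Prime → p ∣ N → p ∈ s' := fun p hp hpN =>
    Finset.mem_filter.mpr ⟨Finset.mem_union_left _ (Finset.mem_union_right _
      (Nat.mem_primeFactors.mpr ⟨hp, hpN, NeZero.ne N⟩)), hp⟩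
  have hs'M : ∀ p : ℕ, p.Prime → p ∣ M → p ∈ s' := fun p hp hpN =>
    Finset.mem_filter.mpr ⟨Finset.mem_union_right _
      (Nat.mem_primeFactors.mpr ⟨hp, hpN, NeZero.ne M⟩), hp⟩
  have hss' : ∀ ℓ : Nat.Primes, (ℓ : ℕ) ∉ s' → (ℓ : ℕ) ∉ s := fun ℓ hℓ hs =>
    hℓ (Finset.mem_filter.mpr ⟨Finset.mem_union_left _ (Finset.mem_union_left _ hs), ℓ.2⟩)
  have hf' : ∀ ℓ : Nat.Primes, (ℓ : ℕ) ∉ s' → hOp N ℓ f = qCoeff g ℓ • f := fun ℓ hℓ =>
    hf ℓ (hss' ℓ hℓ)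
  -- `M ∣ N`
  have hMN : M ∣ N := by
    obtain ⟨f', hf'n, hf'a⟩ := exists_eigenform {ℓ | (ℓ : ℕ) ∉ s'} (fun ℓ => qCoeff g ℓ) hf0
      (fun ℓ hℓ => hf' ℓ hℓ)
    exact newform_level_dvd hg hf'n s' fun ℓ hℓ hℓs => hf'a ⟨ℓ, hℓ⟩ hℓs
  have hMN1 : M * 1 ∣ N := by rwa [mul_one]
  -- subtract `a₁(f) g`
  set X : CuspForm (Gamma0 N) 2 := f - qCoeff f 1 • VLin 2 one_ne_zero hMN1 g with hX
  have hVg : ∀ ℓ : Nat.Primes, (ℓ : ℕ) ∉ s' →
      hOp N ℓ (VLin 2 one_ne_zero hMN1 g) = qCoeff g ℓ • VLin 2 one_ne_zero hMN1 g := by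
    intro ℓ hℓ
    have hℓN : ¬ (ℓ : ℕ) ∣ N := fun h => hℓ (hs'N ℓ ℓ.2 h)
    rw [hOp_VLin one_ne_zero hMN1 ℓ (fun h => ℓ.2.one_lt.ne' (Nat.dvd_one.mp h))
      ⟨fun h3 => absurd (h3.trans hMN) hℓN, fun h3 => absurd h3 hℓN⟩, hOp_eigen hg.1, map_smul]
  have hXe : ∀ ℓ : Nat.Primes, (ℓ : ℕ) ∉ s' → hOp N ℓ X = qCoeff g ℓ • X := by
    intro ℓ hℓ
    rw [hX, map_sub, map_smul, hf' ℓ hℓ, hVg ℓ hℓ, smul_sub, smul_comm]
  have hX1 : qCoeff X 1 = 0 := by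
    rw [hX, Eigenform.qCoeff_sub, qCoeff_smul, coe_VLin, V_one, hg.1.qCoeff_one, mul_one, sub_self]
  -- main lemma
  obtain ⟨G, hG, hGh⟩ := main_lemma s' hs'p (IsCF.of_cuspForm X) (by
    intro n hn
    rcases Nat.eq_zero_or_pos n with rfl | hn0
    · exact qCoeff_cuspForm_zero X
    · exact qCoeff_eq_zero_of_eigen (s' : Set ℕ) (fun ℓ => qCoeff g ℓ)
        (fun ℓ hℓ => hXe ℓ (by simpa using hℓ)) hX1 n hn0
        (fun ℓ _ hℓn hℓs => hn ℓ (by simpa using hℓs) hℓn))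
  have hnz : ∀ p ∈ s'.filter (· ∣ N), N / p ≠ 0 := fun p hp =>
    (Nat.div_pos (Nat.le_of_dvd (Nat.pos_of_ne_zero (NeZero.ne N)) (Finset.mem_filter.mp hp).2)
      (hs'p p (Finset.mem_filter.mp hp).1).pos).ne'
  -- components
  have hcomp : ∀ p : {p // p ∈ s'.filter (· ∣ N)}, ∃ Y : CuspForm (Gamma0 N) 2, ∃ Z : ℍ → ℂ,
      (Y : ℍ → ℂ) = V p Z ∧ Z ∈ Submodule.span ℂ {F : ℍ → ℂ | ∃ d : ℕ, M * d ∣ N / p ∧ F = V d g} ∧
      (∀ ℓ : Nat.Primes, (ℓ : ℕ) ∉ s' → hOp N ℓ Y = qCoeff g ℓ • Y) ∧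
      ∃ Y' : CuspForm (Gamma0 N) 2, (Y' : ℍ → ℂ) = V p (G p) ∧
      ∀ X' : CuspForm (Gamma0 N) 2, (∀ ℓ : Nat.Primes, (ℓ : ℕ) ∉ s' →
        hOp N ℓ X' = qCoeff g ℓ • X') → ip X' (Y' - Y) = 0 := by
    rintro ⟨p, hp⟩
    have hp1 := (Finset.mem_filter.mp hp).1
    have hp2 := (Finset.mem_filter.mp hp).2
    have hpp := hs'p p hp1
    have hz : NeZero (N / p) := ⟨hnz p hp⟩
    have hdvd : N / p * p ∣ N := dvd_of_eq (Nat.div_mul_cancel hp2)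
    obtain ⟨G', hG', hG''⟩ := exists_component (N := N) (M := N / p) hpp.ne_zero hdvd s' hs'N
      (fun ℓ => qCoeff g ℓ) (hG p hp1 hp2).toCuspForm
    refine ⟨VLin 2 hpp.ne_zero hdvd G', G', rfl, ?_, ?_, VLin 2 hpp.ne_zero hdvd
      (hG p hp1 hp2).toCuspForm, rfl, ?_⟩
    · exact IH (N / p) (Nat.div_lt_self (Nat.pos_of_ne_zero (NeZero.ne N)) hpp.one_lt) s' G' hG'
    · intro ℓ hℓ
      have hℓN : ¬ (ℓ : ℕ) ∣ N := fun h => hℓ (hs'N ℓ ℓ.2 h)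
      rw [hOp_VLin hpp.ne_zero hdvd ℓ (fun h3 => hℓN (h3.trans hp2))
        ⟨fun h3 => absurd (h3.trans (Nat.div_dvd_of_dvd hp2)) hℓN, fun h3 => absurd h3 hℓN⟩,
        hG' ℓ hℓ, map_smul]
    · intro X' hX'
      rw [← map_sub]
      exact hG'' X' hX'
  choose Y Z hYZ hZ hY Y' hY' hYY' using hcomp
  set t := (s'.filter (· ∣ N)).attach with ht
  have hXsum : X = ∑ p ∈ t, Y' p := by
    apply DFunLike.coe_injective
    rw [hGh, ← Finset.sum_attach]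
    have hcoe : ∀ u : Finset {p // p ∈ s'.filter (· ∣ N)},
        ((∑ p ∈ u, Y' p : CuspForm (Gamma0 N) 2) : ℍ → ℂ) = ∑ p ∈ u, (Y' p : ℍ → ℂ) := by
      intro u
      induction u using Finset.induction_on with
      | empty => rfl
      | insert i u hi ih =>
        rw [Finset.sum_insert hi, Finset.sum_insert hi, ← ih]
        rfl
    rw [hcoe]
    exact Finset.sum_congr rfl fun p _ => (hY' p).symm
  set W : CuspForm (Gamma0 N) 2 := X - ∑ p ∈ t, Y p with hW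
  have hWe : ∀ ℓ : Nat.Primes, (ℓ : ℕ) ∉ s' → hOp N ℓ W = qCoeff g ℓ • W := by
    intro ℓ hℓ
    rw [hW, smul_sub, map_sub, map_sum, hXe ℓ hℓ, Finset.smul_sum]
    congr 1
    exact Finset.sum_congr rfl fun p _ => hY p ℓ hℓ
  have hWsum : W = ∑ p ∈ t, (Y' p - Y p) := by
    rw [hW, hXsum, Finset.sum_sub_distrib]
  have hW0 : W = 0 := by
    apply ip_self_eq_zero
    have h1 : ip W W = ip W (∑ p ∈ t, (Y' p - Y p)) := by rw [← hWsum]
    rw [h1, ip_sum_right]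
    exact Finset.sum_eq_zero fun p _ => hYY' p W hWe
  have hXY : X = ∑ p ∈ t, Y p := sub_eq_zero.mp hW0
  have hfX : f = qCoeff f 1 • VLin 2 one_ne_zero hMN1 g + ∑ p ∈ t, Y p := by
    rw [← hXY, hX]; abel
  have hcoeY : ∀ u : Finset {p // p ∈ s'.filter (· ∣ N)},
      ((∑ p ∈ u, Y p : CuspForm (Gamma0 N) 2) : ℍ → ℂ) = ∑ p ∈ u, (Y p : ℍ → ℂ) := by
    intro u
    induction u using Finset.induction_on with
    | empty => rfl
    | insert i u hi ih =>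
      rw [Finset.sum_insert hi, Finset.sum_insert hi, ← ih]
      rfl
  have hfc : (f : ℍ → ℂ) = qCoeff f 1 • V 1 (g : ℍ → ℂ) + ∑ p ∈ t, V p.1 (Z p) := by
    conv_lhs => rw [hfX]
    change qCoeff f 1 • V 1 (g : ℍ → ℂ) + ((∑ p ∈ t, Y p : CuspForm (Gamma0 N) 2) : ℍ → ℂ) = _
    rw [hcoeY]
    congr 1
    exact Finset.sum_congr rfl fun p _ => hYZ p
  rw [hfc]
  refine Submodule.add_mem _ (Submodule.smul_mem _ _ (Submodule.subset_span ⟨1, hMN1, rfl⟩)) ?_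
  refine Submodule.sum_mem _ fun p _ => ?_
  have hp1 := (Finset.mem_filter.mp p.2).1
  have hp2 := (Finset.mem_filter.mp p.2).2
  have hpp := hs'p p hp1
  let VL : (ℍ → ℂ) →ₗ[ℂ] (ℍ → ℂ) :=
    { toFun := V p.1, map_add' := fun _ _ => rfl, map_smul' := fun _ _ => rfl }
  have h1 : VL (Z p) ∈ (Submodule.span ℂ
      {F : ℍ → ℂ | ∃ d : ℕ, M * d ∣ N / p ∧ F = V d g}).map VL := Submodule.mem_map_of_mem (hZ p)
  rw [Submodule.map_span] at h1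
  refine Submodule.span_mono ?_ h1
  rintro _ ⟨_, ⟨d, hd, rfl⟩, rfl⟩
  have hd0 : d ≠ 0 := by
    rintro rfl
    rw [mul_zero, zero_dvd_iff] at hd
    exact hnz p p.2 hd
  refine ⟨p * d, ?_, V_V hpp.ne_zero hd0 _⟩
  obtain ⟨e, he⟩ := hd
  refine ⟨e, ?_⟩
  calc N = N / (p : ℕ) * p := (Nat.div_mul_cancel hp2).symm
    _ = M * d * e * p := by rw [he]
    _ = M * (p * d) * e := by ring

/-- The forms `g(dτ)` are linearly independent. -/
theorem linearIndependent_V [NeZero M] {g : CuspForm (Gamma0 M) 2} (hg1 : qCoeff g 1 = 1)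
    (D : Finset ℕ) (hD : ∀ d ∈ D, d ≠ 0) (c : ℕ → ℂ) (h : ∑ d ∈ D, c d • V d (g : ℍ → ℂ) = 0) :
    ∀ d ∈ D, c d = 0 := by
  classical
  intro d
  induction d using Nat.strong_induction_on with
  | _ d ih =>
  intro hd
  set L := ∏ e ∈ D, e with hL
  have hcf : ∀ e ∈ D, IsCF (Gamma0 (M * L)) 2 (V e (g : ℍ → ℂ)) := fun e he =>
    IsCF.level_mono (mul_dvd_mul_left M (Finset.dvd_prod_of_mem _ he))
      (IsCF.V (IsCF.of_cuspForm g) (hD e he))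
  have h1 : qCoeff (∑ e ∈ D, c e • V e (g : ℍ → ℂ)) d = 0 := by rw [h]; exact qCoeff_zero_fun d
  rw [qCoeff_sum' D (fun e => c e • V e (g : ℍ → ℂ)) (fun e he => IsCF.smul _ (hcf e he))] at h1
  have hd0 : 0 < d := Nat.pos_of_ne_zero (hD d hd)
  rw [Finset.sum_eq_single d] at h1
  · rw [qCoeff_smul' (hcf d hd), qCoeff_V (IsCF.of_cuspForm g) (hD d hd), if_pos dvd_rfl,
      Nat.div_self hd0, hg1, mul_one] at h1
    exact h1
  · intro e he hne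
    rw [qCoeff_smul' (hcf e he), qCoeff_V (IsCF.of_cuspForm g) (hD e he)]
    split_ifs with hed
    · rw [ih e (lt_of_le_of_ne (Nat.le_of_dvd hd0 hed) hne) he, zero_mul]
    · rw [mul_zero]
  · intro h; exact absurd hd h

/-- The space `S₂(Γ₀(N))` is spanned by the forms `g(dτ)`, `g` a newform of level `M`, `d M ∣ N`. -/
theorem span_newforms (N : ℕ) [NeZero N] (f : CuspForm (Gamma0 N) 2) :
    (f : ℍ → ℂ) ∈ Submodule.span ℂ {F : ℍ → ℂ | ∃ (M : ℕ) (g : CuspForm (Gamma0 M) 2) (d : ℕ),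
      g.IsNewform ∧ M * d ∣ N ∧ F = V d g} := by
  classical
  have htop := iSup_iInf_eigenspace (N := N) (fun ℓ : Nat.Primes => (ℓ : ℕ) ∉ N.primeFactors)
    (fun ℓ hℓ hℓM => hℓ (Nat.mem_primeFactors.mpr ⟨ℓ.2, hℓM, NeZero.ne N⟩))
  have hf : f ∈ ⨆ χ : {ℓ : Nat.Primes // (ℓ : ℕ) ∉ N.primeFactors} → ℂ,
      ⨅ ℓ : {ℓ : Nat.Primes // (ℓ : ℕ) ∉ N.primeFactors}, (hOp N ℓ.1).eigenspace (χ ℓ) := by
    rw [htop]; trivial
  induction hf using Submodule.iSup_induction' with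
  | zero => exact Submodule.zero_mem _
  | add x y _ _ ihx ihy => exact Submodule.add_mem _ ihx ihy
  | mem χ x hx =>
    rw [Submodule.mem_iInf] at hx
    by_cases hx0 : x = 0
    · rw [hx0]; exact Submodule.zero_mem _
    obtain ⟨f', hf', hf'a⟩ := exists_eigenform (N := N) {ℓ | (ℓ : ℕ) ∉ N.primeFactors}
      (fun ℓ => if hℓ : (ℓ : ℕ) ∉ N.primeFactors then χ ⟨ℓ, hℓ⟩ else 0) hx0 (by
        intro ℓ hℓ
        have hℓ' : (ℓ : ℕ) ∉ N.primeFactors := hℓ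
        have h1 := hx ⟨ℓ, hℓ⟩
        rw [Module.End.mem_eigenspace_iff] at h1
        simp only [dif_pos hℓ']
        exact h1)
    obtain ⟨M, hMN, g, hg, hgf⟩ := exists_newform hf'
    have hM : NeZero M := ⟨by rintro rfl; exact NeZero.ne N (Nat.eq_zero_of_zero_dvd hMN)⟩
    have h2 := mem_span_of_eigen hg N N.primeFactors x (by
      intro ℓ hℓ
      have h1 := hx ⟨ℓ, hℓ⟩
      rw [Module.End.mem_eigenspace_iff] at h1
      have hℓN : ¬ (ℓ : ℕ) ∣ N := fun h => hℓ (Nat.mem_primeFactors.mpr ⟨ℓ.2, h, NeZero.ne N⟩)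
      rw [h1, hgf ℓ ℓ.2 hℓN, hf'a ℓ hℓ, dif_pos hℓ])
    refine Submodule.span_mono ?_ h2
    rintro _ ⟨d, hd, rfl⟩
    exact ⟨M, g, d, hg, hd, rfl⟩

end Fermat.Agent.Newform
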