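import Fermat.Agent.Newform.Levels

set_option autoImplicit false

noncomputable section

namespace Fermat.Agent.Newform

open UpperHalfPlane ModularForm CongruenceSubgroup Matrix.SpecialLinearGroup Filter
open Fermat.Agent.IntStr ModularFormClass CuspForm Fermat.Agent.Eigenform
open scoped MatrixGroups Manifold Topology

variable {N M : ℕ}

theorem exists_prime_pow_of_not_dvd (hM : M ≠ 0) (hN : N ≠ 0) (h : ¬ M ∣ N) :
    ∃ (q a b m n : ℕ), q.Prime ∧ M = q ^ (a + 1) * m ∧ ¬ q ∣ m ∧ N = q ^ b * n ∧ ¬ q ∣ n ∧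
      b ≤ a := by
  obtain ⟨q, hq, hlt⟩ : ∃ q, q.Prime ∧ N.factorization q < M.factorization q := by
    by_contra hcon
    push Not at hcon
    exact h ((Nat.factorization_prime_le_iff_dvd hM hN).mp hcon)
  obtain ⟨a, ha⟩ : ∃ a, M.factorization q = a + 1 := ⟨M.factorization q - 1, by omega⟩
  refine ⟨q, a, N.factorization q, M / q ^ (a + 1), N / q ^ N.factorization q, hq, ?_, ?_, ?_, ?_,
    by omega⟩
  · rw [← ha]; exact (Nat.ordProj_mul_ordCompl_eq_self M q).symm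
  · rw [← ha]; exact Nat.not_dvd_ordCompl hq hM
  · exact (Nat.ordProj_mul_ordCompl_eq_self N q).symm
  · exact Nat.not_dvd_ordCompl hq hN

/-- **Strong multiplicity one across levels**: if the good eigensystem of a newform of level `M`
occurs at level `N` then `M ∣ N`. -/
theorem newform_level_dvd [NeZero M] [NeZero N] {g : CuspForm (Gamma0 M) 2} (hg : g.IsNewform)
    {f : CuspForm (Gamma0 N) 2} (hf : f.IsNormalizedEigenform) (s : Finset ℕ)
    (h : ∀ ℓ : ℕ, ℓ.Prime → ℓ ∉ s → qCoeff f ℓ = qCoeff g ℓ) : M ∣ N := by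
  classical
  by_contra hMN
  obtain ⟨q, a, b, m, n, hq, hM, hqm, hN, hqn, hba⟩ :=
    exists_prime_pow_of_not_dvd (NeZero.ne M) (NeZero.ne N) hMN
  have hm0 : m ≠ 0 := by rintro rfl; exact hqm (dvd_zero q)
  have hn0 : n ≠ 0 := by rintro rfl; exact hqn (dvd_zero q)
  -- the set of primes at which we deplete
  set P : Finset ℕ := ((s ∪ M.primeFactors ∪ N.primeFactors).erase q).filter Nat.Prime with hP
  have hPp : ∀ p ∈ P, p.Prime := fun p hp => (Finset.mem_filter.mp hp).2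
  have hqP : q ∉ P := fun h => (Finset.notMem_erase q _) (Finset.mem_filter.mp h).1
  have hPmem : ∀ ℓ : ℕ, ℓ.Prime → ℓ ≠ q → ℓ ∉ P → ℓ ∉ s ∧ ¬ ℓ ∣ M ∧ ¬ ℓ ∣ N := by
    intro ℓ hℓ hne hℓP
    refine ⟨fun h1 => hℓP ?_, fun h1 => hℓP ?_, fun h1 => hℓP ?_⟩
    · exact Finset.mem_filter.mpr ⟨Finset.mem_erase.mpr ⟨hne, Finset.mem_union_left _
        (Finset.mem_union_left _ h1)⟩, hℓ⟩
    · exact Finset.mem_filter.mpr ⟨Finset.mem_erase.mpr ⟨hne, Finset.mem_union_left _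
        (Finset.mem_union_right _ (Nat.mem_primeFactors.mpr ⟨hℓ, h1, NeZero.ne M⟩))⟩, hℓ⟩
    · exact Finset.mem_filter.mpr ⟨Finset.mem_erase.mpr ⟨hne, Finset.mem_union_right _
        (Nat.mem_primeFactors.mpr ⟨hℓ, h1, NeZero.ne N⟩)⟩, hℓ⟩
  have hprod0 : ∏ p ∈ P, p ≠ 0 := Finset.prod_ne_zero_iff.mpr fun p hp => (hPp p hp).ne_zero
  have hqprod : ¬ q ∣ ∏ p ∈ P, p := by
    intro h1
    obtain ⟨p, hp, hqp⟩ := (Prime.dvd_finsetProd_iff (Nat.prime_iff.mp hq) _).mp h1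
    rw [(Nat.prime_dvd_prime_iff_eq hq (hPp p hp)).mp hqp] at hqP
    exact hqP hp
  -- the newform is an Atkin–Lehner eigenvector at `q`
  have hcop : Nat.Coprime (q ^ (a + 1)) m := Nat.Coprime.pow_left _ ((hq.coprime_iff_not_dvd).mpr hqm)
  obtain ⟨c, hc⟩ := newform_ALEig hM hcop hg
  obtain ⟨G, hG, hGn⟩ := exists_depletion (pow_ne_zero (a + 1) hq.ne_zero) hg.1 hc P hPp
  obtain ⟨hF, hFn⟩ := depl_cf hprod0 P hPp (fun p hp => Finset.dvd_prod_of_mem _ hp)
    (IsCF.of_cuspForm f)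
  set F := Polynomial.aeval (tr (1 / ((∏ p ∈ P, p : ℕ) : ℝ))) (deplPoly (∏ p ∈ P, p) P) (f : ℍ → ℂ)
    with hFdef
  set R := (∏ p ∈ P, p) ^ 2 with hR
  have hR0 : R ≠ 0 := pow_ne_zero 2 hprod0
  have hqR : ¬ q ∣ R := fun h1 => hqprod (hq.dvd_of_dvd_pow h1)
  have hG' : ALEig (q ^ (a + 1)) (m * R * n) c G := hG.mono n
  have hF' : IsCF (Gamma0 (q ^ a * (m * R * n))) 2 F := by
    refine IsCF.level_mono ?_ hF
    rw [hN]
    obtain ⟨t, rfl⟩ := Nat.exists_eq_add_of_le hba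
    exact ⟨q ^ t * m, by ring⟩
  have hqmR : ¬ q ∣ m * R * n := by
    intro h1
    rcases (Nat.Prime.dvd_mul hq).mp h1 with h2 | h2
    · rcases (Nat.Prime.dvd_mul hq).mp h2 with h3 | h3
      · exact hqm h3
      · exact hqR h3
    · exact hqn h2
  have hno1 : ¬ ∃ p ∈ P, p ∣ 1 := by
    rintro ⟨p, hp, h1⟩
    exact (hPp p hp).one_lt.ne' (Nat.dvd_one.mp h1)
  have hqM : q ∣ M := by rw [hM, pow_succ]; exact (dvd_mul_left q _).mul_right m
  refine core_contradiction hq (mul_ne_zero (mul_ne_zero hm0 hR0) hn0) hqmR hG' hF'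
    (e := qCoeff g q) ?_ ?_ ?_ ?_ ?_ ?_
  · rw [hGn, if_neg hno1, hg.1.qCoeff_one]
  · rw [hFn, if_neg hno1, hf.qCoeff_one]
  · intro k hk
    rw [hGn, hFn]
    by_cases hex : ∃ p ∈ P, p ∣ k
    · rw [if_pos hex, if_pos hex]
    · rw [if_neg hex, if_neg hex]
      symm
      apply qCoeff_eq_of_primes hf hg.1
      intro ℓ hℓ hℓk
      obtain ⟨h1, h2, h3⟩ := hPmem ℓ hℓ (by rintro rfl; exact hk hℓk)
        (fun h1 => hex ⟨ℓ, h1, hℓk⟩)
      exact ⟨h3, h2, h ℓ hℓ h1⟩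
  · intro k
    have hiff : (∃ p ∈ P, p ∣ q * k) ↔ ∃ p ∈ P, p ∣ k := by
      constructor
      · rintro ⟨p, hp, h1⟩
        refine ⟨p, hp, ?_⟩
        rcases (hPp p hp).dvd_mul.mp h1 with h2 | h2
        · exfalso
          rw [(Nat.prime_dvd_prime_iff_eq (hPp p hp) hq).mp h2] at hp
          exact hqP hp
        · exact h2
      · rintro ⟨p, hp, h1⟩
        exact ⟨p, hp, h1.mul_left q⟩
    rw [hGn, hGn]
    by_cases hex : ∃ p ∈ P, p ∣ k
    · rw [if_pos (hiff.mpr hex), if_pos hex, mul_zero]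
    · rw [if_neg (fun h => hex (hiff.mp h)), if_neg hex]
      have key := qCoeff_mul_prime hg.1 hq k
      rw [if_pos hqM, zero_mul, add_zero] at key
      exact key
  · intro ha
    apply newform_sq_dvd hq _ hg
    rw [hM]
    exact (pow_dvd_pow q (by omega)).mul_right m
  · rintro rfl
    have hM' : M = q * m := by rw [hM]; ring
    obtain ⟨w, x, y, z, t, hw⟩ := exists_AL (N₁ := m) (pow_ne_zero (0 + 1) hq.ne_zero) hcop
    have h1 := hc.2 w x y z t hw
    subst hM'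
    have : NeZero m := ⟨hm0⟩
    have hw' : IsAL m q w x y z t := by simpa using hw
    have h2 := (newform_al hq hqm hw' hg).1
    rw [h1] at h2
    have h3 := congrArg (fun F => qCoeff F 1) h2
    rw [qCoeff_smul' (IsCF.of_cuspForm g), qCoeff_smul' (IsCF.of_cuspForm g), hg.1.qCoeff_one,
      mul_one, mul_one] at h3
    exact h3

/-- Two newforms with the same eigenvalues at almost all primes have the same level. -/
theorem newform_level_unique [NeZero M] [NeZero N] {g : CuspForm (Gamma0 M) 2} (hg : g.IsNewform)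
    {f : CuspForm (Gamma0 N) 2} (hf : f.IsNewform) (s : Finset ℕ)
    (h : ∀ ℓ : ℕ, ℓ.Prime → ℓ ∉ s → qCoeff f ℓ = qCoeff g ℓ) : M = N :=
  Nat.dvd_antisymm (newform_level_dvd hg hf.1 s h)
    (newform_level_dvd hf hg.1 s fun ℓ hℓ hs => (h ℓ hℓ hs).symm)

/-- Strong multiplicity one. -/
theorem strong_multiplicity_one [NeZero M] [NeZero N] {g : CuspForm (Gamma0 M) 2}
    (hg : g.IsNewform) {f : CuspForm (Gamma0 N) 2} (hf : f.IsNewform) (s : Finset ℕ)
    (h : ∀ ℓ : ℕ, ℓ.Prime → ℓ ∉ s → qCoeff f ℓ = qCoeff g ℓ) :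
    M = N ∧ (f : ℍ → ℂ) = g := by
  obtain rfl := newform_level_unique hg hf s h
  exact ⟨rfl, by rw [eq_of_newform s hg hf.1 h]⟩

end Fermat.Agent.Newform
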