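import Fermat.Agent.Newform.Exist

set_option autoImplicit false

noncomputable section

namespace Fermat.Agent.Newform

open UpperHalfPlane ModularForm CongruenceSubgroup Matrix.SpecialLinearGroup Filter
open Fermat.Agent.IntStr ModularFormClass CuspForm Fermat.Agent.Eigenform
open scoped MatrixGroups Manifold Topology

variable {N M : ℕ}

/-- Eigenform at level `M` gives an eigenform at any multiple. -/
theorem raise_mul (t : ℕ) : ∀ {M : ℕ} [NeZero M] {g : CuspForm (Gamma0 M) 2}, t ≠ 0 →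
    g.IsNormalizedEigenform → ∃ f : CuspForm (Gamma0 (M * t)) 2, f.IsNormalizedEigenform ∧
      ∀ ℓ : ℕ, ℓ.Prime → (ℓ ∣ M ∨ ¬ ℓ ∣ t) → qCoeff f ℓ = qCoeff g ℓ := by
  induction t using induction_on_primes with
  | zero => intro M _ g h; exact absurd rfl h
  | one =>
    intro M _ g _ hg
    rw [mul_one]
    exact ⟨g, hg, fun _ _ _ => rfl⟩
  | prime_mul p a hp ih =>
    intro M _ g hpa hg
    have ha : a ≠ 0 := right_ne_zero_of_mul hpa
    obtain ⟨f₀, hf₀, h0⟩ := ih ha hg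
    have : NeZero (M * a) := ⟨mul_ne_zero (NeZero.ne M) ha⟩
    have e : M * (p * a) = M * a * p := by ring
    rw [e]
    by_cases hpM : p ∣ M * a
    · obtain ⟨f, hf, h1, h2, -⟩ := stabilize hf₀ hp (β := 0) (by rw [if_pos hpM]; ring)
      refine ⟨f, hf, fun ℓ hℓ h => ?_⟩
      by_cases hℓp : ℓ = p
      · subst hℓp
        rw [h2, sub_zero]
        apply h0 ℓ hℓ
        rcases h with h | h
        · exact Or.inl h
        · exact absurd (dvd_mul_right ℓ a) h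
      · rw [h1 ℓ hℓ hℓp]
        apply h0 ℓ hℓ
        rcases h with h | h
        · exact Or.inl h
        · exact Or.inr fun h' => h (h'.mul_left p)
    · obtain ⟨β, hβ⟩ : ∃ β : ℂ, β ^ 2 - qCoeff f₀ p * β + (p : ℂ) = 0 := by
        obtain ⟨z, hz⟩ := IsAlgClosed.exists_pow_nat_eq
          ((qCoeff f₀ p) ^ 2 - 4 * (p : ℂ)) (n := 2) (by norm_num)
        refine ⟨(qCoeff f₀ p + z) / 2, ?_⟩
        linear_combination (1 / 4 : ℂ) * hz
      obtain ⟨f, hf, h1, h2, -⟩ := stabilize hf₀ hp (β := β) (by rw [if_neg hpM]; exact hβ)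
      refine ⟨f, hf, fun ℓ hℓ h => ?_⟩
      by_cases hℓp : ℓ = p
      · subst hℓp
        exfalso
        rcases h with h | h
        · exact hpM (h.mul_right a)
        · exact h (dvd_mul_right ℓ a)
      · rw [h1 ℓ hℓ hℓp]
        apply h0 ℓ hℓ
        rcases h with h | h
        · exact Or.inl h
        · exact Or.inr fun h' => h (h'.mul_left p)

theorem raise [NeZero N] (hMN : M ∣ N) {g : CuspForm (Gamma0 M) 2}
    (hg : g.IsNormalizedEigenform) : ∃ f : CuspForm (Gamma0 N) 2, f.IsNormalizedEigenform ∧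
      ∀ ℓ : ℕ, ℓ.Prime → (ℓ ∣ M ∨ ¬ ℓ ∣ N) → qCoeff f ℓ = qCoeff g ℓ := by
  obtain ⟨t, rfl⟩ := hMN
  have hM : M ≠ 0 := left_ne_zero_of_mul (NeZero.ne (M * t))
  have ht : t ≠ 0 := right_ne_zero_of_mul (NeZero.ne (M * t))
  have : NeZero M := ⟨hM⟩
  obtain ⟨f, hf, h⟩ := raise_mul t ht hg
  refine ⟨f, hf, fun ℓ hℓ h' => h ℓ hℓ ?_⟩
  rcases h' with h' | h'
  · exact Or.inl h'
  · exact Or.inr fun h'' => h' (h''.mul_left M)

/-- Linear algebra: eigensystems lift along surjections. -/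
theorem exists_eigenvector_lift {V W : Type*} [AddCommGroup V] [Module ℂ V]
    [AddCommGroup W] [Module ℂ W] [FiniteDimensional ℂ W] {ι : Type*}
    (T : ι → Module.End ℂ W) (S : ι → Module.End ℂ V) (φ : W →ₗ[ℂ] V)
    (hcomm : ∀ i j, Commute (T i) (T j)) (hφ : ∀ i w, φ (T i w) = S i (φ w))
    (a : ι → ℂ) {h : V} (h0 : h ≠ 0) (hS : ∀ i, S i h = a i • h) (hr : h ∈ LinearMap.range φ) :
    ∃ w : W, w ≠ 0 ∧ ∀ i, T i w = a i • w := by
  classical
  let P : ℕ → Prop := fun d => ∃ U : Submodule ℂ W, (∀ i, ∀ w ∈ U, T i w ∈ U) ∧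
    (∃ u ∈ U, φ u = h) ∧ (∀ u ∈ U, ∃ c : ℂ, φ u = c • h) ∧ Module.finrank ℂ U = d
  have hP : ∃ d, P d := by
    refine ⟨_, (Submodule.span ℂ {h}).comap φ, ?_, ?_, ?_, rfl⟩
    · intro i w hw
      rw [Submodule.mem_comap, Submodule.mem_span_singleton] at hw ⊢
      obtain ⟨c, hc⟩ := hw
      refine ⟨c * a i, ?_⟩
      rw [hφ, ← hc, map_smul, hS, smul_smul]
    · obtain ⟨u, hu⟩ := hr
      exact ⟨u, by rw [Submodule.mem_comap, hu]; exact Submodule.mem_span_singleton_self h, hu⟩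
    · intro u hu
      rw [Submodule.mem_comap, Submodule.mem_span_singleton] at hu
      obtain ⟨c, hc⟩ := hu
      exact ⟨c, hc.symm⟩
  obtain ⟨U, hUs, ⟨u, huU, hu⟩, hUh, hUd⟩ := Nat.find_spec hP
  have hmin : ∀ U' : Submodule ℂ W, U' ≤ U → (∀ i, ∀ w ∈ U', T i w ∈ U') →
      (∃ u ∈ U', φ u = h) → U' = U := by
    intro U' hle hs hu
    apply Submodule.eq_of_le_of_finrank_le hle
    rw [hUd]
    exact Nat.find_min' hP ⟨U', hs, hu, fun u hu => hUh u (hle hu), rfl⟩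
  have hU0 : U ≠ ⊥ := by
    rintro rfl
    rw [Submodule.mem_bot] at huU
    rw [huU, map_zero] at hu
    exact h0 hu.symm
  -- T i - a i is nilpotent on U
  have hnil : ∀ i, ∃ n : ℕ, ∀ w ∈ U, ((T i - a i • (1 : Module.End ℂ W)) ^ n) w = 0 := by
    intro i
    set f := T i - a i • (1 : Module.End ℂ W) with hf
    have hfU : ∀ w ∈ U, f w ∈ U := by
      intro w hw
      rw [hf, LinearMap.sub_apply, LinearMap.smul_apply, Module.End.one_apply]
      exact U.sub_mem (hUs i w hw) (U.smul_mem _ hw)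
    have hφf : ∀ w ∈ U, φ (f w) = 0 := by
      intro w hw
      obtain ⟨c, hc⟩ := hUh w hw
      rw [hf, LinearMap.sub_apply, LinearMap.smul_apply, Module.End.one_apply, map_sub, hφ,
        map_smul, hc, map_smul, hS, smul_smul, smul_smul, mul_comm, sub_self]
    obtain ⟨n, hn, hn1⟩ : ∃ n, IsCompl (LinearMap.ker ((f.restrict hfU) ^ n))
        (LinearMap.range ((f.restrict hfU) ^ n)) ∧ 1 ≤ n :=
      ((f.restrict hfU).eventually_isCompl_ker_pow_range_pow.and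
        (eventually_ge_atTop 1)).exists
    have hcoe : ∀ (m : ℕ) (w : U), (((f.restrict hfU) ^ m) w : W) = (f ^ m) (w : W) := by
      intro m
      induction m with
      | zero => intro w; simp
      | succ m ih =>
        intro w
        rw [pow_succ, pow_succ, Module.End.mul_apply, Module.End.mul_apply, ih]
        rfl
    let U' : Submodule ℂ W := U ⊓ LinearMap.ker (f ^ n)
    have hU' : U' = U := by
      apply hmin U' inf_le_left
      · rintro j w ⟨hw1, hw2⟩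
        refine ⟨hUs j w hw1, ?_⟩
        rw [SetLike.mem_coe, LinearMap.mem_ker] at hw2 ⊢
        have hc : Commute (f ^ n) (T j) := by
          apply Commute.pow_left
          rw [hf]
          exact (hcomm i j).sub_left ((Commute.one_left (T j)).smul_left (a i))
        have h3 : (f ^ n) (T j w) = T j ((f ^ n) w) :=
          congrArg (fun g : Module.End ℂ W => g w) hc.eq
        rw [h3, hw2, map_zero]
      · obtain ⟨x, hx, y, hy, hxy⟩ := Submodule.mem_sup.mp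
          (hn.sup_eq_top ▸ Submodule.mem_top : (⟨u, huU⟩ : U) ∈ _)
        refine ⟨x, ⟨x.2, ?_⟩, ?_⟩
        · rw [SetLike.mem_coe, LinearMap.mem_ker, ← hcoe, LinearMap.mem_ker.mp hx]; rfl
        · obtain ⟨z, hz⟩ := hy
          have hy0 : φ (y : W) = 0 := by
            obtain ⟨n', rfl⟩ : ∃ n', n = n' + 1 := ⟨n - 1, by omega⟩
            rw [← hz, pow_succ', Module.End.mul_apply]
            exact hφf _ (((f.restrict hfU) ^ n') z).2
          have h4 : (x : W) + (y : W) = u := congrArg Subtype.val hxy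
          have h5 : φ (x : W) + φ (y : W) = h := by rw [← map_add, h4, hu]
          rw [hy0, add_zero] at h5
          exact h5
    refine ⟨n, fun w hw => ?_⟩
    have : w ∈ U' := hU' ▸ hw
    exact this.2
  obtain ⟨v, hvU, hv0, hv⟩ := exists_common_eigenvector T hcomm U hU0 hUs
  refine ⟨v, hv0, fun i => ?_⟩
  obtain ⟨μ, hμ⟩ := hv i
  obtain ⟨n, hn⟩ := hnil i
  have h1 : ∀ m : ℕ, ((T i - a i • (1 : Module.End ℂ W)) ^ m) v = (μ - a i) ^ m • v := by
    intro m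
    induction m with
    | zero => simp
    | succ m ih =>
      rw [pow_succ', Module.End.mul_apply, ih, map_smul, LinearMap.sub_apply, hμ,
        LinearMap.smul_apply, Module.End.one_apply, ← sub_smul, smul_smul, pow_succ]
  have h2 := hn v hvU
  rw [h1] at h2
  have h3 : (μ - a i) ^ n = 0 := by
    rcases smul_eq_zero.mp h2 with h | h
    · exact h
    · exact absurd h hv0
  have h4 : μ = a i := by
    by_contra hne
    exact pow_ne_zero n (sub_ne_zero.mpr hne) h3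
  rw [hμ, h4]

/-- Vanishing of coefficients prime to a set of primes for an eigenvector with `a_1 = 0`. -/
theorem qCoeff_eq_zero_of_eigen [NeZero N] (s : Set ℕ) {h : CuspForm (Gamma0 N) 2}
    (a : Nat.Primes → ℂ) (hh : ∀ ℓ : Nat.Primes, (ℓ : ℕ) ∉ s → hOp N ℓ h = a ℓ • h)
    (h1 : qCoeff h 1 = 0) (n : ℕ) (hn : 0 < n) (hs : ∀ ℓ : ℕ, ℓ.Prime → ℓ ∣ n → ℓ ∉ s) :
    qCoeff h n = 0 := by
  induction n using Nat.strong_induction_on with
  | _ n ih =>
    rcases Nat.lt_or_ge 1 n with hn1 | hn1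
    · obtain ⟨ℓ, hℓ, m, rfl⟩ : ∃ ℓ : ℕ, ℓ.Prime ∧ ∃ m, n = ℓ * m :=
        ⟨n.minFac, Nat.minFac_prime hn1.ne', n.minFac_dvd⟩
      have hm : 0 < m := Nat.pos_of_ne_zero (by rintro rfl; simp at hn)
      have hlt : m < ℓ * m := by nlinarith [hℓ.two_le]
      have h2 := qCoeff_hOp ⟨ℓ, hℓ⟩ h m
      rw [hh ⟨ℓ, hℓ⟩ (hs ℓ hℓ (dvd_mul_right ℓ m)), qCoeff_smul,
        ih m hlt hm (fun r hr hrm => hs r hr (hrm.mul_left ℓ)), mul_zero] at h2
      simp only at h2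
      by_cases h4 : ℓ ∣ m
      · have hlt2 : m / ℓ < ℓ * m := lt_of_le_of_lt (Nat.div_le_self _ _) hlt
        have hpos : 0 < m / ℓ := Nat.div_pos (Nat.le_of_dvd hm h4) hℓ.pos
        rw [if_pos h4, ih (m / ℓ) hlt2 hpos (fun r hr hrm => hs r hr
          ((hrm.trans (Nat.div_dvd_of_dvd h4)).mul_left ℓ)), mul_zero, add_zero] at h2
        exact h2.symm
      · rw [if_neg h4, mul_zero, add_zero] at h2; exact h2.symm
    · have : n = 1 := by omega
      rw [this, h1]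

/-- `V_d` as a linear map between spaces of cusp forms. -/
def VLin {M N d : ℕ} [NeZero M] [NeZero N] (k : ℤ) (hd : d ≠ 0) (h : M * d ∣ N) :
    CuspForm (Gamma0 M) k →ₗ[ℂ] CuspForm (Gamma0 N) k where
  toFun g := (IsCF.level_mono h (IsCF.V (IsCF.of_cuspForm g) hd)).toCuspForm
  map_add' _ _ := rfl
  map_smul' _ _ := rfl

@[simp] theorem coe_VLin {M N d : ℕ} [NeZero M] [NeZero N] (k : ℤ) (hd : d ≠ 0) (h : M * d ∣ N)
    (g : CuspForm (Gamma0 M) k) : (VLin k hd h g : ℍ → ℂ) = V d g := rfl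

theorem qCoeff_VLin {M N d : ℕ} [NeZero M] [NeZero N] (k : ℤ) (hd : d ≠ 0) (h : M * d ∣ N)
    (g : CuspForm (Gamma0 M) k) (n : ℕ) :
    qCoeff (VLin k hd h g) n = if d ∣ n then qCoeff g (n / d) else 0 := by
  rw [coe_VLin, qCoeff_V (IsCF.of_cuspForm g) hd]

theorem hOp_VLin {M N d : ℕ} [NeZero M] [NeZero N] (hd : d ≠ 0) (h : M * d ∣ N)
    (ℓ : Nat.Primes) (hℓd : ¬ (ℓ : ℕ) ∣ d) (hℓ : (ℓ : ℕ) ∣ M ↔ (ℓ : ℕ) ∣ N)
    (g : CuspForm (Gamma0 M) 2) : hOp N ℓ (VLin 2 hd h g) = VLin 2 hd h (hOp M ℓ g) := by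
  have hd0 : 0 < d := Nat.pos_of_ne_zero hd
  have hcop : Nat.Coprime d ℓ := ((ℓ.2.coprime_iff_not_dvd).mpr hℓd).symm
  apply qCoeff_ext
  intro n
  rw [qCoeff_VLin, qCoeff_hOp, qCoeff_hOp]
  simp only [qCoeff_VLin, hℓ]
  by_cases hqn : d ∣ n
  · obtain ⟨m, rfl⟩ := hqn
    rw [if_pos (dvd_mul_right d m), Nat.mul_div_cancel_left m hd0,
      if_pos ((dvd_mul_right d m).mul_left _)]
    have e1 : (ℓ : ℕ) * (d * m) / d = ℓ * m := by
      rw [mul_left_comm, Nat.mul_div_cancel_left _ hd0]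
    rw [e1]
    congr 2
    by_cases hℓm : (ℓ : ℕ) ∣ m
    · obtain ⟨r, rfl⟩ := hℓm
      have e2 : d * (ℓ * r) / ℓ = d * r := by
        rw [mul_left_comm, Nat.mul_div_cancel_left _ ℓ.2.pos]
      rw [if_pos ((dvd_mul_right (ℓ : ℕ) r).mul_left d), e2, if_pos (dvd_mul_right d r),
        if_pos (dvd_mul_right (ℓ : ℕ) r), Nat.mul_div_cancel_left r hd0,
        Nat.mul_div_cancel_left r ℓ.2.pos]
    · have hne : ¬ (ℓ : ℕ) ∣ d * m := fun h => hℓm (hcop.symm.dvd_of_dvd_mul_left h)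
      rw [if_neg hne, if_neg hℓm]
  · have hqn' : ¬ d ∣ ℓ * n := fun h => hqn (hcop.dvd_of_dvd_mul_left h)
    rw [if_neg hqn, if_neg hqn']
    by_cases hℓn : (ℓ : ℕ) ∣ n
    · have hqd : ¬ d ∣ n / ℓ := fun h => hqn (h.trans (Nat.div_dvd_of_dvd hℓn))
      rw [if_pos hℓn, if_neg hqd, mul_zero, add_zero]
    · rw [if_neg hℓn, mul_zero, add_zero]

/-- If an eigensystem away from a finite set `s` of primes occurs in `S₂(Γ₀(N))` on a nonzero form
with `a₁ = 0`, then it occurs in a lower level `N / p`. -/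
theorem exists_lower [NeZero N] (s : Finset ℕ) (hs : ∀ p ∈ s, p.Prime)
    {h : CuspForm (Gamma0 N) 2} (h0 : h ≠ 0) (a : Nat.Primes → ℂ)
    (hsN : ∀ p : ℕ, p.Prime → p ∣ N → p ∈ s)
    (hh : ∀ ℓ : Nat.Primes, (ℓ : ℕ) ∉ s → hOp N ℓ h = a ℓ • h) (h1 : qCoeff h 1 = 0) :
    ∃ p : ℕ, p.Prime ∧ p ∣ N ∧ ∃ g : CuspForm (Gamma0 (N / p)) 2, g.IsNormalizedEigenform ∧
      ∀ ℓ : Nat.Primes, (ℓ : ℕ) ∉ s → qCoeff g ℓ = a ℓ := by
  classical
  have hN0 : N ≠ 0 := NeZero.ne N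
  obtain ⟨G, hG, hGh⟩ := main_lemma s hs (IsCF.of_cuspForm h) (by
    intro n hn
    rcases Nat.eq_zero_or_pos n with rfl | hn0
    · exact qCoeff_cuspForm_zero h
    · exact qCoeff_eq_zero_of_eigen (s : Set ℕ) a (fun ℓ hℓ => hh ℓ (by simpa using hℓ)) h1 n hn0
        (fun ℓ _ hℓn hℓs => hn ℓ (by simpa using hℓs) hℓn))
  let ι := {p : ℕ // p ∈ s ∧ p ∣ N}
  have : Fintype ι := Fintype.subtype (s.filter (· ∣ N)) (by simp)
  have hnz : ∀ p : ι, NeZero (N / (p : ℕ)) := fun p =>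
    ⟨(Nat.div_pos (Nat.le_of_dvd (Nat.pos_of_ne_zero hN0) p.2.2) (hs p p.2.1).pos).ne'⟩
  let W := ∀ p : ι, CuspForm (Gamma0 (N / (p : ℕ))) 2
  let φ : W →ₗ[ℂ] CuspForm (Gamma0 N) 2 := ∑ p : ι,
    (VLin 2 (hs p p.2.1).ne_zero (dvd_of_eq (Nat.div_mul_cancel p.2.2))) ∘ₗ LinearMap.proj p
  let T : {ℓ : Nat.Primes // (ℓ : ℕ) ∉ s} → Module.End ℂ W := fun ℓ =>
    LinearMap.pi fun p => (hOp (N / (p : ℕ)) ℓ.1) ∘ₗ LinearMap.proj p
  have hφ : ∀ w, φ w = ∑ p : ι, VLin 2 (hs p p.2.1).ne_zero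
      (dvd_of_eq (Nat.div_mul_cancel p.2.2)) (w p) := by
    intro w
    simp only [φ, LinearMap.sum_apply, LinearMap.comp_apply]
    rfl
  have hT : ∀ ℓ w p, T ℓ w p = hOp (N / (p : ℕ)) ℓ.1 (w p) := fun ℓ w p => rfl
  obtain ⟨w, hw0, hw⟩ := exists_eigenvector_lift T (fun ℓ => hOp N ℓ.1) φ
    (by
      intro i j
      apply LinearMap.ext
      intro w
      funext p
      rw [Module.End.mul_apply, Module.End.mul_apply, hT, hT, hT, hT]
      exact congrArg (fun f : Module.End ℂ (CuspForm (Gamma0 (N / (p : ℕ))) 2) => f (w p))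
        (hOp_comm (N := N / (p : ℕ)) i.1 j.1).eq)
    (by
      intro ℓ w
      rw [hφ, hφ, map_sum]
      refine Finset.sum_congr rfl fun p _ => ?_
      have hℓN : ¬ (ℓ.1 : ℕ) ∣ N := fun h => ℓ.2 (hsN _ ℓ.1.2 h)
      rw [hT, hOp_VLin]
      · exact fun h => hℓN (h.trans p.2.2)
      · constructor
        · intro h
          exact absurd (h.trans (Nat.div_dvd_of_dvd p.2.2)) hℓN
        · intro h
          exact absurd h hℓN)
    (fun ℓ => a ℓ.1) h0 (fun ℓ => hh ℓ.1 ℓ.2)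
    (by
      refine ⟨fun p => (hG p p.2.1 p.2.2).toCuspForm, ?_⟩
      rw [hφ]
      apply qCoeff_ext
      intro n
      rw [← qCoeffLin_apply, map_sum]
      simp only [qCoeffLin_apply, coe_VLin, IsCF.coe_toCuspForm]
      have hV : ∀ p ∈ s.filter (· ∣ N), IsCF (Gamma0 N) 2 (V p (G p)) := by
        intro p hp
        rw [Finset.mem_filter] at hp
        have := IsCF.V (hG p hp.1 hp.2) (hs p hp.1).ne_zero
        rwa [Nat.div_mul_cancel hp.2] at this
      rw [hGh, qCoeff_sum' _ _ hV]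
      symm
      exact Finset.sum_subtype (s.filter (· ∣ N)) (by simp) (fun p => qCoeff (V p (G p)) n))
  obtain ⟨p, hp⟩ := Function.ne_iff.mp hw0
  refine ⟨p, hs p p.2.1, p.2.2, ?_⟩
  obtain ⟨g, hg, hga⟩ := exists_eigenform (N := N / (p : ℕ)) {ℓ | (ℓ : ℕ) ∉ s} a (h := w p) hp
    (by
      intro ℓ hℓ
      have := congrFun (hw ⟨ℓ, hℓ⟩) p
      exact this)
  exact ⟨g, hg, fun ℓ hℓ => hga ℓ hℓ⟩

/-- Two normalised eigenforms of the same level whose eigenvalues agree at almost all primes have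
the same eigenvalues at all primes not dividing the level. -/
theorem eigenform_good_eq [NeZero N] (s : Finset ℕ) (hs : ∀ p ∈ s, p.Prime)
    {f g : CuspForm (Gamma0 N) 2} (hf : f.IsNormalizedEigenform) (hg : g.IsNormalizedEigenform)
    (h : ∀ ℓ : ℕ, ℓ.Prime → ℓ ∉ s → qCoeff f ℓ = qCoeff g ℓ) :
    ∀ n : ℕ, n.Coprime N → qCoeff f n = qCoeff g n := by
  classical
  intro n hn
  have hf' := IsCF.of_cuspForm f
  have hg' := IsCF.of_cuspForm g
  obtain ⟨G, hG, hGh⟩ := main_lemma s hs (IsCF.sub hf' hg') (by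
    intro n hn
    rw [qCoeff_sub' hf' hg']
    rcases Nat.eq_zero_or_pos n with rfl | hn0
    · rw [qCoeff_cuspForm_zero, qCoeff_cuspForm_zero, sub_zero]
    · have key := qCoeff_eq_zero_of_eigen (s : Set ℕ) (h := f - g) (fun ℓ => qCoeff f ℓ)
        (by
          intro ℓ hℓ
          rw [map_sub, hOp_eigen hf, hOp_eigen hg, ← h ℓ ℓ.2 (by simpa using hℓ), smul_sub])
        (by rw [Eigenform.qCoeff_sub, hf.qCoeff_one, hg.qCoeff_one, sub_self]) n hn0
        (fun ℓ _ hℓn hℓs => hn ℓ (by simpa using hℓs) hℓn)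
      rw [Eigenform.qCoeff_sub] at key
      exact key)
  have hV : ∀ p ∈ s.filter (· ∣ N), IsCF (Gamma0 N) 2 (V p (G p)) := by
    intro p hp
    rw [Finset.mem_filter] at hp
    have := IsCF.V (hG p hp.1 hp.2) (hs p hp.1).ne_zero
    rwa [Nat.div_mul_cancel hp.2] at this
  have h2 : qCoeff ((f : ℍ → ℂ) - g) n = 0 := by
    rw [hGh, qCoeff_sum' _ _ hV]
    apply Finset.sum_eq_zero
    intro p hp
    rw [Finset.mem_filter] at hp
    rw [qCoeff_V (hG p hp.1 hp.2) (hs p hp.1).ne_zero, if_neg]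
    intro hpn
    exact (hs p hp.1).one_lt.ne' (Nat.eq_one_of_dvd_coprimes hn hpn hp.2)
  rw [qCoeff_sub' hf' hg'] at h2
  exact sub_eq_zero.mp h2

/-- **Multiplicity one.** -/
theorem mult_one [NeZero N] (s : Finset ℕ) {g : CuspForm (Gamma0 N) 2} (hg : g.IsNewform)
    {h : CuspForm (Gamma0 N) 2}
    (hh : ∀ ℓ : Nat.Primes, (ℓ : ℕ) ∉ s → hOp N ℓ h = qCoeff g ℓ • h) :
    h = qCoeff h 1 • g := by
  classical
  set s' : Finset ℕ := (s ∪ N.primeFactors).filter Nat.Prime with hs'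
  have hs'p : ∀ p ∈ s', p.Prime := fun p hp => (Finset.mem_filter.mp hp).2
  have hs'N : ∀ p : ℕ, p.Prime → p ∣ N → p ∈ s' := fun p hp hpN =>
    Finset.mem_filter.mpr ⟨Finset.mem_union_right _
      (Nat.mem_primeFactors.mpr ⟨hp, hpN, NeZero.ne N⟩), hp⟩
  have hss' : ∀ ℓ : Nat.Primes, (ℓ : ℕ) ∉ s' → (ℓ : ℕ) ∉ s := fun ℓ hℓ hs =>
    hℓ (Finset.mem_filter.mpr ⟨Finset.mem_union_left _ hs, ℓ.2⟩)
  by_contra hne
  have h0 : h - qCoeff h 1 • g ≠ 0 := fun h' => hne (sub_eq_zero.mp h')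
  obtain ⟨p, hp, hpN, g', hg', hgg'⟩ := exists_lower s' hs'p h0 (fun ℓ => qCoeff g ℓ) hs'N
    (by
      intro ℓ hℓ
      rw [map_sub, map_smul, hh ℓ (hss' ℓ hℓ), hOp_eigen hg.1, smul_sub, smul_comm])
    (by rw [Eigenform.qCoeff_sub, qCoeff_smul, hg.1.qCoeff_one, mul_one, sub_self])
  have hdvd : N / p ∣ N := Nat.div_dvd_of_dvd hpN
  obtain ⟨g'', hg'', h3⟩ := raise hdvd hg'
  have h4 := eigenform_good_eq s' hs'p hg'' hg.1 (by
    intro ℓ hℓ hℓs
    rw [h3 ℓ hℓ (Or.inr fun h => hℓs (hs'N ℓ hℓ h))]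
    exact hgg' ⟨ℓ, hℓ⟩ hℓs)
  refine hg.2 (N / p) hdvd (Nat.div_lt_self (Nat.pos_of_ne_zero (NeZero.ne N)) hp.one_lt).ne
    ⟨g', hg', fun ℓ hℓ hℓN => ?_⟩
  rw [← h4 ℓ ((hℓ.coprime_iff_not_dvd).mpr hℓN), h3 ℓ hℓ (Or.inr hℓN)]

/-- A normalised eigenform with the same eigenvalues as a newform of the same level at almost all
primes is equal to it. -/
theorem eq_of_newform [NeZero N] (s : Finset ℕ) {g : CuspForm (Gamma0 N) 2} (hg : g.IsNewform)
    {h : CuspForm (Gamma0 N) 2} (hh : h.IsNormalizedEigenform)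
    (hgh : ∀ ℓ : ℕ, ℓ.Prime → ℓ ∉ s → qCoeff h ℓ = qCoeff g ℓ) : h = g := by
  have := mult_one s hg (h := h) (fun ℓ hℓ => by rw [hOp_eigen hh, hgh ℓ ℓ.2 hℓ])
  rwa [hh.qCoeff_one, one_smul] at this

end Fermat.Agent.Newform
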