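import Fermat.Agent.Newform.MultOne

set_option autoImplicit false

noncomputable section

namespace Fermat.Agent.Newform

open UpperHalfPlane ModularForm CongruenceSubgroup Matrix.SpecialLinearGroup Filter
open Fermat.Agent.IntStr ModularFormClass CuspForm Fermat.Agent.Eigenform
open scoped MatrixGroups Manifold Topology

variable {N M : ℕ} {k : ℤ} {f : ℍ → ℂ}

/-- Integral matrices with `N ∣ c` and given determinant. -/
def Dset (N : ℕ) (D : ℤ) (m : GL (Fin 2) ℝ) (a b c d : ℤ) : Prop :=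
  a * d - b * c = D ∧ (N : ℤ) ∣ c ∧ (m : Matrix (Fin 2) (Fin 2) ℝ) = !![(a : ℝ), b; c, d]

/-- Atkin–Lehner matrices for the exact divisor `Q` of `N = Q * N₁`:
`(Qx, y; Nz, Qt)` with determinant `Q`. -/
def IsAL (N₁ Q : ℕ) (m : GL (Fin 2) ℝ) (x y z t : ℤ) : Prop :=
  Q * x * t - N₁ * y * z = 1 ∧
    (m : Matrix (Fin 2) (Fin 2) ℝ) = !![(Q * x : ℝ), y; Q * N₁ * z, Q * t]

theorem exists_AL {N₁ Q : ℕ} (hQ : Q ≠ 0) (h : Nat.Coprime Q N₁) :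
    ∃ (m : GL (Fin 2) ℝ) (x y z t : ℤ), IsAL N₁ Q m x y z t := by
  obtain ⟨u, v, huv⟩ := Nat.isCoprime_iff_coprime.mpr h
  have hne : ((Q : ℝ) * u) * (Q * 1) - (-v) * (Q * N₁ * 1) ≠ 0 := by
    have h1 : (u : ℝ) * Q + v * N₁ = 1 := by exact_mod_cast huv
    have h2 : ((Q : ℝ) * u) * (Q * 1) - (-v) * (Q * N₁ * 1) = Q := by
      linear_combination (Q : ℝ) * h1
    rw [h2]
    exact_mod_cast hQ
  refine ⟨mat (Q * u) (-v) (Q * N₁ * 1) (Q * 1) hne, u, -v, 1, 1, ?_, ?_⟩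
  · linear_combination huv
  · rw [val_mat]
    push_cast
    rfl

variable {N₁ Q : ℕ}

/-- Conjugation by an Atkin–Lehner matrix preserves integral matrices with `N ∣ c`. -/
theorem IsAL.conj (hQ : Q ≠ 0) {m : GL (Fin 2) ℝ} {x y z t : ℤ} (hm : IsAL N₁ Q m x y z t)
    {D : ℤ} {g : GL (Fin 2) ℝ} {a b c d : ℤ} (hg : Dset (Q * N₁) D g a b c d) :
    ∃ a' b' c' d', Dset (Q * N₁) D (m * g * m⁻¹) a' b' c' d' ∧
      ∀ r : ℤ, r ∣ N₁ → r ∣ a' - a := by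
  obtain ⟨hdet, ⟨c₀, hc₀⟩, hg⟩ := hg
  obtain ⟨hal, hm⟩ := hm
  have hc : c = Q * N₁ * c₀ := by rw [hc₀]; push_cast; ring
  refine ⟨Q * x * a * t + y * (Q * N₁ * c₀) * t - N₁ * z * (Q * x * b + y * d),
    -(y * x * a) - y ^ 2 * (N₁ * c₀) + Q * x ^ 2 * b + x * y * d,
    Q * N₁ * (z * a * t + Q * c₀ * t ^ 2 - N₁ * z ^ 2 * b - z * t * d),
    -(y * (N₁ * z * a + Q * N₁ * c₀ * t)) + x * (Q * N₁ * z * b + Q * t * d), ⟨?_, ?_, ?_⟩, ?_⟩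
  · rw [hc] at hdet
    rw [← hdet]
    linear_combination (a * d - b * (Q * N₁ * c₀)) * (Q * x * t - N₁ * y * z + 1) * hal
  · exact ⟨z * a * t + Q * c₀ * t ^ 2 - N₁ * z ^ 2 * b - z * t * d, by push_cast; ring⟩
  · have hQr : (Q : ℝ) ≠ 0 := by exact_mod_cast hQ
    have halr : (Q : ℝ) * x * t - N₁ * y * z = 1 := by exact_mod_cast hal
    have hcr : (c : ℝ) = Q * N₁ * c₀ := by exact_mod_cast hc
    set g' : GL (Fin 2) ℝ := m * g * m⁻¹ with hg'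
    have h1 : g' * m = m * g := by rw [hg']; group
    -- compare with candidate
    have hne : (Q : ℝ) * x * (Q * t) - y * (Q * N₁ * z) = Q := by
      linear_combination (Q : ℝ) * halr
    -- matrix equation X * m = m * g determines X
    have h2 := congrArg (fun u : GL (Fin 2) ℝ => (u : Matrix (Fin 2) (Fin 2) ℝ)) h1
    simp only [Units.val_mul] at h2
    set X : Matrix (Fin 2) (Fin 2) ℝ := (g' : Matrix (Fin 2) (Fin 2) ℝ) with hX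
    have key : X * (m : Matrix (Fin 2) (Fin 2) ℝ) =
      !![((Q * x * a * t + y * (Q * N₁ * c₀) * t - N₁ * z * (Q * x * b + y * d) : ℤ) : ℝ),
        ((-(y * x * a) - y ^ 2 * (N₁ * c₀) + Q * x ^ 2 * b + x * y * d : ℤ) : ℝ);
        ((Q * N₁ * (z * a * t + Q * c₀ * t ^ 2 - N₁ * z ^ 2 * b - z * t * d) : ℤ) : ℝ),
        ((-(y * (N₁ * z * a + Q * N₁ * c₀ * t)) + x * (Q * N₁ * z * b + Q * t * d) : ℤ) : ℝ)] *
        (m : Matrix (Fin 2) (Fin 2) ℝ) := by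
      rw [h2, hm, hg, Matrix.mul_fin_two, Matrix.mul_fin_two, hcr]
      push_cast
      ext i j
      fin_cases i <;> fin_cases j <;> simp
      · linear_combination (-(Q * x * a + y * (Q * N₁ * c₀)) : ℝ) * halr
      · linear_combination (-(Q * x * b + y * d) : ℝ) * halr
      · linear_combination (-(Q * N₁ * z * a + Q * t * (Q * N₁ * c₀)) : ℝ) * halr
      · linear_combination (-(Q * N₁ * z * b + Q * t * d) : ℝ) * halr
    have hunit : IsUnit (m : Matrix (Fin 2) (Fin 2) ℝ) := m.isUnit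
    exact hunit.mul_right_cancel key
  · intro r hr
    obtain ⟨e, he⟩ := hr
    refine ⟨a * y * z * e + y * Q * e * c₀ * t - e * z * (Q * x * b + y * d), ?_⟩
    have h1 : (Q : ℤ) * x * t = 1 + N₁ * y * z := by linear_combination hal
    rw [he] at h1 ⊢
    linear_combination a * h1

theorem mem_G0_iff_Dset {m : GL (Fin 2) ℝ} : m ∈ G0 N ↔ ∃ a b c d : ℤ, Dset N 1 m a b c d :=
  mem_G0

theorem IsAL.conj_mem (hQ : Q ≠ 0) {m : GL (Fin 2) ℝ} {x y z t : ℤ} (hm : IsAL N₁ Q m x y z t)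
    {g : GL (Fin 2) ℝ} (hg : g ∈ G0 (Q * N₁)) : m * g * m⁻¹ ∈ G0 (Q * N₁) := by
  obtain ⟨a, b, c, d, h⟩ := mem_G0_iff_Dset.mp hg
  obtain ⟨a', b', c', d', h', -⟩ := hm.conj hQ h
  exact mem_G0_iff_Dset.mpr ⟨_, _, _, _, h'⟩

theorem IsAL.adj (hQ : Q ≠ 0) {m : GL (Fin 2) ℝ} {x y z t : ℤ} (hm : IsAL N₁ Q m x y z t) :
    ∃ m' : GL (Fin 2) ℝ, IsAL N₁ Q m' t (-y) (-z) x ∧
      ∀ g : GL (Fin 2) ℝ, m⁻¹ * g * m = m' * g * m'⁻¹ := by
  obtain ⟨hal, hm⟩ := hm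
  have hQr : (Q : ℝ) ≠ 0 := by exact_mod_cast hQ
  have halr : (Q : ℝ) * x * t - N₁ * y * z = 1 := by exact_mod_cast hal
  set m' : GL (Fin 2) ℝ := mat (Q * t) (-y) (Q * N₁ * (-z)) (Q * x) (by
    have : (Q : ℝ) * t * (Q * x) - -y * (Q * N₁ * -z) = Q := by
      linear_combination (Q : ℝ) * halr
    rw [this]; exact hQr) with hm'
  set s : GL (Fin 2) ℝ := mat Q 0 0 Q (by simpa using hQr) with hs
  have h1 : m * m' = s := by
    apply Units.ext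
    rw [Units.val_mul, hm, hm', hs, val_mat, val_mat, Matrix.mul_fin_two]
    ext i j
    fin_cases i <;> fin_cases j <;> simp
    · linear_combination (Q : ℝ) * halr
    · ring
    · ring
    · linear_combination (Q : ℝ) * halr
  have h2 : ∀ g : GL (Fin 2) ℝ, s * g = g * s := by
    intro g
    apply Units.ext
    rw [Units.val_mul, Units.val_mul, hs, val_mat]
    ext i j
    fin_cases i <;> fin_cases j <;> simp [Matrix.mul_apply, Fin.sum_univ_two, mul_comm]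
  refine ⟨m', ⟨by linear_combination hal, ?_⟩, fun g => ?_⟩
  · rw [hm', val_mat]; push_cast; rfl
  · have h3 : m' = m⁻¹ * s := by rw [← h1]; group
    rw [h3, mul_inv_rev, inv_inv, mul_assoc, mul_assoc, mul_assoc, ← mul_assoc g,
      ← mul_assoc s, h2, ]
    group

theorem IsAL.conj_mem_iff (hQ : Q ≠ 0) {m : GL (Fin 2) ℝ} {x y z t : ℤ}
    (hm : IsAL N₁ Q m x y z t) {g : GL (Fin 2) ℝ} :
    m * g * m⁻¹ ∈ G0 (Q * N₁) ↔ g ∈ G0 (Q * N₁) := by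
  refine ⟨fun h => ?_, hm.conj_mem hQ⟩
  obtain ⟨m', hm', hc⟩ := hm.adj hQ
  have h1 := hm'.conj_mem hQ h
  rw [← hc] at h1
  have e : m⁻¹ * (m * g * m⁻¹) * m = g := by group
  rwa [e] at h1

theorem IsAL.isRatM {m : GL (Fin 2) ℝ} {x y z t : ℤ} (hm : IsAL N₁ Q m x y z t) : IsRatM m := by
  obtain ⟨-, hm⟩ := hm
  intro i j
  rw [hm]
  fin_cases i <;> fin_cases j
  · exact ⟨Q * x, by push_cast; rfl⟩
  · exact ⟨y, by push_cast; rfl⟩
  · exact ⟨Q * N₁ * z, by push_cast; rfl⟩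
  · exact ⟨Q * t, by push_cast; rfl⟩

/-- The Atkin–Lehner operator preserves `S_k(Γ₀(N))`. -/
theorem IsAL.isCF (hQ : Q ≠ 0) {m : GL (Fin 2) ℝ} {x y z t : ℤ} (hm : IsAL N₁ Q m x y z t)
    (hf : IsCF (Gamma0 (Q * N₁)) k f) : IsCF (Gamma0 (Q * N₁)) k (f ∣[k] m) := by
  refine cf_of_G0 (hf.isQCF.slash hm.isRatM) fun g hg => ?_
  have h1 := G0_le_stab hf (hm.conj_mem hQ hg)
  rw [mem_stab] at h1
  rw [← SlashAction.slash_mul]
  have e : m * g = (m * g * m⁻¹) * m := by group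
  rw [e, SlashAction.slash_mul, h1]

/-- Representatives for `T_ℓ`. -/
def rT (ℓ : ℕ) : Option (Fin ℓ) → GL (Fin 2) ℝ := fun o =>
  o.elim (heckeDiagMatrix ℓ) (fun j => heckeMatrix ℓ j)

theorem heckeT_eq_sum (k : ℤ) (ℓ : ℕ) (f : ℍ → ℂ) : heckeT k ℓ f = ∑ i, f ∣[k] rT ℓ i := by
  rw [heckeT_def, Fintype.sum_option, add_comm, Finset.sum_range]
  rfl

theorem heckeU_eq_sum (k : ℤ) (ℓ : ℕ) (f : ℍ → ℂ) :
    heckeU k ℓ f = ∑ j : Fin ℓ, f ∣[k] heckeMatrix ℓ j := by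
  rw [heckeU_def, Finset.sum_range]

theorem cover_aux {ℓ : ℕ} (hℓ : ℓ ≠ 0) {g : GL (Fin 2) ℝ} {a b c d : ℤ}
    (hg : Dset N ℓ g a b c d) (j : ℕ) (h1 : (ℓ : ℤ) ∣ b - a * j) (h2 : (ℓ : ℤ) ∣ d - c * j) :
    g * (heckeMatrix ℓ j)⁻¹ ∈ G0 N := by
  obtain ⟨hdet, hc, hg⟩ := hg
  obtain ⟨b', hb'⟩ := h1
  obtain ⟨d', hd'⟩ := h2
  have hℓZ : (ℓ : ℤ) ≠ 0 := by exact_mod_cast hℓ
  have hdet' : a * d' - b' * c = 1 := by
    apply mul_left_cancel₀ hℓZ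
    linear_combination hdet - a * hd' + c * hb'
  have hne : (a : ℝ) * d' - b' * c ≠ 0 := by
    have : (a : ℝ) * d' - b' * c = 1 := by exact_mod_cast hdet'
    rw [this]; exact one_ne_zero
  have e : g = mat (a : ℝ) b' c d' hne * heckeMatrix ℓ j := by
    obtain ⟨h0, e0⟩ := heckeMatrix_eq_mat hℓ j
    rw [e0]
    apply Units.ext
    rw [Units.val_mul, hg, val_mat, val_mat, Matrix.mul_fin_two]
    have hbr : (b : ℝ) - a * j = ℓ * b' := by exact_mod_cast hb'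
    have hdr : (d : ℝ) - c * j = ℓ * d' := by exact_mod_cast hd'
    ext i j
    fin_cases i <;> fin_cases j <;> simp
    · linear_combination hbr
    · linear_combination hdr
  have e2 : g * (heckeMatrix ℓ j)⁻¹ = mat (a : ℝ) b' c d' hne := by rw [e]; group
  rw [e2, mem_G0]
  exact ⟨a, b', c, d', hdet', hc, val_mat _ _ _ _ _⟩

theorem exists_mod_inv {ℓ : ℕ} (hℓ : ℓ.Prime) {a b : ℤ} (ha : ¬ (ℓ : ℤ) ∣ a) :
    ∃ j : Fin ℓ, (ℓ : ℤ) ∣ b - a * (j : ℕ) := by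
  have hℓZ : (ℓ : ℤ) ≠ 0 := by exact_mod_cast hℓ.ne_zero
  have hpp : Prime (ℓ : ℤ) := Nat.prime_iff_prime_int.mp hℓ
  obtain ⟨u, v, huv⟩ : IsCoprime a (ℓ : ℤ) := ((hpp.coprime_iff_not_dvd).mpr ha).symm
  have hj0 : 0 ≤ (u * b) % ℓ := Int.emod_nonneg _ hℓZ
  have hjlt : (u * b) % ℓ < ℓ := Int.emod_lt_of_pos _ (by exact_mod_cast hℓ.pos)
  obtain ⟨j, hj⟩ : ∃ j : ℕ, (j : ℤ) = (u * b) % ℓ := ⟨((u * b) % ℓ).toNat, Int.toNat_of_nonneg hj0⟩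
  have hjp : j < ℓ := by
    have : (j : ℤ) < ℓ := by rw [hj]; exact hjlt
    exact_mod_cast this
  refine ⟨⟨j, hjp⟩, v * b + a * ((u * b) / ℓ), ?_⟩
  have h1 : (j : ℤ) = u * b - ℓ * ((u * b) / ℓ) := by
    rw [hj]; exact Int.emod_def _ _
  simp only
  rw [h1]
  linear_combination (-b) * huv

theorem U_cover {ℓ : ℕ} (hℓ : ℓ.Prime) {g : GL (Fin 2) ℝ} {a b c d : ℤ}
    (hg : Dset N ℓ g a b c d) (ha : ¬ (ℓ : ℤ) ∣ a) :
    ∃ j : Fin ℓ, g * (heckeMatrix ℓ j)⁻¹ ∈ G0 N := by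
  obtain ⟨j, hj⟩ := exists_mod_inv hℓ (b := b) ha
  refine ⟨j, cover_aux hℓ.ne_zero hg j hj ?_⟩
  have hpp : Prime (ℓ : ℤ) := Nat.prime_iff_prime_int.mp hℓ
  obtain ⟨t, ht⟩ := hj
  have h1 : (ℓ : ℤ) ∣ a * (d - c * (j : ℕ)) := ⟨1 + c * t, by
    linear_combination hg.1 + c * ht⟩
  exact (hpp.dvd_or_dvd h1).resolve_left ha

theorem T_cover {ℓ : ℕ} (hℓ : ℓ.Prime) (hℓN : ¬ ℓ ∣ N) {g : GL (Fin 2) ℝ} {a b c d : ℤ}
    (hg : Dset N ℓ g a b c d) : ∃ i, g * (rT ℓ i)⁻¹ ∈ G0 N := by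
  have hpp : Prime (ℓ : ℤ) := Nat.prime_iff_prime_int.mp hℓ
  have hℓZ : (ℓ : ℤ) ≠ 0 := by exact_mod_cast hℓ.ne_zero
  by_cases ha : (ℓ : ℤ) ∣ a
  · by_cases hc : (ℓ : ℤ) ∣ c
    · obtain ⟨hdet, hNc, hg⟩ := hg
      refine ⟨none, ?_⟩
      change g * (heckeDiagMatrix ℓ)⁻¹ ∈ G0 N
      obtain ⟨a', ha'⟩ := ha
      obtain ⟨c', hc'⟩ := hc
      have hdet' : a' * d - b * c' = 1 := by
        apply mul_left_cancel₀ hℓZ
        rw [ha', hc'] at hdet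
        linear_combination hdet
      have hne : (a' : ℝ) * d - b * c' ≠ 0 := by
        have : (a' : ℝ) * d - b * c' = 1 := by exact_mod_cast hdet'
        rw [this]; exact one_ne_zero
      have e : g = mat (a' : ℝ) b c' d hne * heckeDiagMatrix ℓ := by
        obtain ⟨h0, e0⟩ := heckeDiag_eq_mat hℓ.ne_zero
        rw [e0]
        apply Units.ext
        rw [Units.val_mul, hg, val_mat, val_mat, Matrix.mul_fin_two, ha', hc']
        push_cast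
        ext i j
        fin_cases i <;> fin_cases j <;> simp [mul_comm]
      have e2 : g * (heckeDiagMatrix ℓ)⁻¹ = mat (a' : ℝ) b c' d hne := by rw [e]; group
      rw [e2, mem_G0]
      refine ⟨a', b, c', d, hdet', ?_, val_mat _ _ _ _ _⟩
      rw [hc'] at hNc
      have hcop : IsCoprime (N : ℤ) (ℓ : ℤ) :=
        Nat.isCoprime_iff_coprime.mpr ((hℓ.coprime_iff_not_dvd.mpr hℓN).symm)
      exact hcop.dvd_of_dvd_mul_left hNc
    · obtain ⟨j, hj⟩ := exists_mod_inv hℓ (b := d) hc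
      refine ⟨some j, cover_aux hℓ.ne_zero hg j ?_ hj⟩
      obtain ⟨t, ht⟩ := hj
      have h1 : (ℓ : ℤ) ∣ c * (b - a * (j : ℕ)) := ⟨a * t - 1, by
        linear_combination -hg.1 + a * ht⟩
      exact (hpp.dvd_or_dvd h1).resolve_left hc
  · obtain ⟨j, hj⟩ := U_cover hℓ hg ha
    exact ⟨some j, hj⟩

theorem heckeMatrix_inj {ℓ : ℕ} (hℓ : ℓ ≠ 0) {i j : Fin ℓ}
    (h : heckeMatrix ℓ i * (heckeMatrix ℓ j)⁻¹ ∈ G0 N) : i = j := by
  obtain ⟨a, b, c, d, hdet, hc, hx⟩ := mem_G0.mp h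
  have e : heckeMatrix ℓ i = (heckeMatrix ℓ i * (heckeMatrix ℓ j)⁻¹) * heckeMatrix ℓ j := by group
  have h2 := congrArg (fun u : GL (Fin 2) ℝ => (u : Matrix (Fin 2) (Fin 2) ℝ)) e
  rw [Units.val_mul, hx, val_heckeMatrix hℓ, val_heckeMatrix hℓ, Matrix.mul_fin_two] at h2
  have h3 := congrFun (congrFun h2 0) 0
  have h4 := congrFun (congrFun h2 0) 1
  simp at h3 h4
  rw [← h3, one_mul] at h4
  have h5 : ((i : ℕ) : ℤ) = (j : ℕ) + b * ℓ := by exact_mod_cast h4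
  have h6 : ((i : ℕ) : ℤ) ≡ ((j : ℕ) : ℤ) [ZMOD ℓ] := by
    apply Int.ModEq.symm
    rw [Int.modEq_iff_dvd]
    exact ⟨b, by rw [h5]; ring⟩
  exact Fin.ext (Nat.ModEq.eq_of_lt_of_lt (Int.natCast_modEq_iff.mp h6) i.2 j.2)

theorem rT_inj {ℓ : ℕ} (hℓ : ℓ.Prime) {i j : Option (Fin ℓ)}
    (h : rT ℓ i * (rT ℓ j)⁻¹ ∈ G0 N) : i = j := by
  have hℓ0 := hℓ.ne_zero
  have key : ∀ j : Fin ℓ, heckeDiagMatrix ℓ * (heckeMatrix ℓ j)⁻¹ ∉ G0 N := by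
    intro j h
    obtain ⟨a, b, c, d, hdet, hc, hx⟩ := mem_G0.mp h
    have e : heckeDiagMatrix ℓ = (heckeDiagMatrix ℓ * (heckeMatrix ℓ j)⁻¹) * heckeMatrix ℓ j := by
      group
    have h2 := congrArg (fun u : GL (Fin 2) ℝ => (u : Matrix (Fin 2) (Fin 2) ℝ)) e
    rw [Units.val_mul, hx, val_heckeMatrix hℓ0, val_heckeDiagMatrix hℓ0, Matrix.mul_fin_two] at h2
    have h3 := congrFun (congrFun h2 1) 1
    have h4 := congrFun (congrFun h2 1) 0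
    simp at h3 h4
    rw [← h4, zero_mul, zero_add] at h3
    have h5 : (1 : ℤ) = d * ℓ := by exact_mod_cast h3
    have : (ℓ : ℤ) ∣ 1 := ⟨d, by rw [h5]; ring⟩
    have h6 : ℓ ∣ 1 := by exact_mod_cast this
    exact hℓ.one_lt.ne' (Nat.dvd_one.mp h6)
  rcases i with _ | i <;> rcases j with _ | j
  · rfl
  · exact absurd h (key j)
  · exfalso
    apply key i
    have := (G0 N).inv_mem h
    rw [mul_inv_rev, inv_inv] at this
    exact this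
  · congr 1
    exact heckeMatrix_inj hℓ0 h

theorem Dset_heckeMatrix {ℓ : ℕ} (hℓ : ℓ ≠ 0) (j : ℕ) :
    Dset N ℓ (heckeMatrix ℓ j) 1 j 0 ℓ :=
  ⟨by ring, dvd_zero _, by rw [val_heckeMatrix hℓ]; push_cast; rfl⟩

theorem Dset_heckeDiag {ℓ : ℕ} (hℓ : ℓ ≠ 0) :
    Dset N ℓ (heckeDiagMatrix ℓ) ℓ 0 0 1 :=
  ⟨by ring, dvd_zero _, by rw [val_heckeDiagMatrix hℓ]; push_cast; rfl⟩

/-- The Atkin–Lehner operator commutes with `T_ℓ`, `ℓ ∤ N`. -/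
theorem IsAL.heckeT_comm (hQ : Q ≠ 0) {m : GL (Fin 2) ℝ} {x y z t : ℤ}
    (hm : IsAL N₁ Q m x y z t) (hf : IsCF (Gamma0 (Q * N₁)) k f) {ℓ : ℕ} (hℓ : ℓ.Prime)
    (hℓN : ¬ ℓ ∣ Q * N₁) : heckeT k ℓ (f ∣[k] m) = heckeT k ℓ f ∣[k] m := by
  rw [heckeT_eq_sum, heckeT_eq_sum]
  symm
  apply sum_reps_comm (H := G0 (Q * N₁)) (G0_le_stab hf) (rT ℓ) m
  · rintro (_ | i)
    · obtain ⟨a', b', c', d', h, -⟩ := hm.conj hQ (Dset_heckeDiag (N := Q * N₁) hℓ.ne_zero)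
      exact T_cover hℓ hℓN h
    · obtain ⟨a', b', c', d', h, -⟩ :=
        hm.conj hQ (Dset_heckeMatrix (N := Q * N₁) hℓ.ne_zero i)
      exact T_cover hℓ hℓN h
  · intro i j h
    exact rT_inj hℓ ((hm.conj_mem_iff hQ).mp h)

/-- The Atkin–Lehner operator at `Q` commutes with `U_r`, `r ∣ N / Q`. -/
theorem IsAL.heckeU_comm (hQ : Q ≠ 0) {m : GL (Fin 2) ℝ} {x y z t : ℤ}
    (hm : IsAL N₁ Q m x y z t) (hf : IsCF (Gamma0 (Q * N₁)) k f) {r : ℕ} (hr : r.Prime)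
    (hrN : r ∣ N₁) : heckeU k r (f ∣[k] m) = heckeU k r f ∣[k] m := by
  rw [heckeU_eq_sum, heckeU_eq_sum]
  symm
  apply sum_reps_comm (H := G0 (Q * N₁)) (G0_le_stab hf) (fun j : Fin r => heckeMatrix r j) m
  · intro i
    obtain ⟨a', b', c', d', h, h'⟩ :=
      hm.conj hQ (Dset_heckeMatrix (N := Q * N₁) hr.ne_zero i)
    refine U_cover hr h ?_
    intro ha
    have h1 := h' r (by exact_mod_cast hrN)
    have h2 : (r : ℤ) ∣ 1 := by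
      have := dvd_sub ha h1
      simpa using this
    have h3 : r ∣ 1 := by exact_mod_cast h2
    exact hr.one_lt.ne' (Nat.dvd_one.mp h3)
  · intro i j h
    exact heckeMatrix_inj hr.ne_zero ((hm.conj_mem_iff hQ).mp h)

end Fermat.Agent.Newform
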