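import Fermat.Agent.Newform.Reps

set_option autoImplicit false

noncomputable section

namespace Fermat.Agent.Newform

open UpperHalfPlane ModularForm CongruenceSubgroup Matrix.SpecialLinearGroup Filter
open Fermat.Agent.IntStr ModularFormClass Polynomial
open scoped MatrixGroups Manifold Topology

variable {N M : ℕ} {k : ℤ} {f g : ℍ → ℂ}

/-- Translation operator on functions. -/
def tr (x : ℝ) : Module.End ℂ (ℍ → ℂ) where
  toFun f := fun τ => f (x +ᵥ τ)
  map_add' _ _ := rfl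
  map_smul' _ _ := rfl

theorem tr_apply (x : ℝ) (f : ℍ → ℂ) (τ : ℍ) : tr x f τ = f (x +ᵥ τ) := rfl

theorem tr_eq (k : ℤ) (x : ℝ) (f : ℍ → ℂ) : tr x f = f ∣[k] Tx x := by
  funext τ
  rw [slash_Tx_apply, tr_apply]

theorem tr_pow (x : ℝ) (n : ℕ) : tr x ^ n = tr (n * x) := by
  apply LinearMap.ext
  intro f
  induction n generalizing f with
  | zero =>
    funext τ
    rw [pow_zero, tr_apply]
    simp
  | succ n ih =>
    rw [pow_succ, Module.End.mul_apply, ih, tr_eq 0, tr_eq 0, tr_eq 0, ← SlashAction.slash_mul,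
      ← Tx_add]
    congr 2
    push_cast
    ring

/-- The polynomial giving the depletion at `q` in terms of translation by `1/Q`. -/
def depPoly (Q q : ℕ) : ℂ[X] := 1 - C ((q : ℂ)⁻¹) * ∑ j ∈ Finset.range q, X ^ (j * (Q / q))

theorem aeval_depPoly {Q q : ℕ} (hQ : Q ≠ 0) (hq : q ∣ Q) (k : ℤ) (f : ℍ → ℂ) :
    aeval (tr (1 / Q)) (depPoly Q q) f = f - V q (heckeU k q f) := by
  have hq0 : q ≠ 0 := by rintro rfl; exact hQ (zero_dvd_iff.mp hq)
  have h1 : aeval (tr (1 / Q)) (depPoly Q q) f =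
      f - (q : ℂ)⁻¹ • ∑ j ∈ Finset.range q, (tr (1 / Q) ^ (j * (Q / q))) f := by
    rw [depPoly, map_sub, map_mul, map_one, aeval_C, map_sum, LinearMap.sub_apply,
      Module.End.mul_apply, Module.End.one_apply, LinearMap.sum_apply]
    simp only [map_pow, aeval_X]
    rfl
  rw [h1]
  congr 1
  funext τ
  rw [V, heckeU_apply k hq0, Pi.smul_apply, Finset.sum_apply, smul_eq_mul]
  congr 1
  refine Finset.sum_congr rfl fun j _ => ?_
  rw [tr_pow, tr_apply]
  congr 1
  apply UpperHalfPlane.ext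
  have hq' : (q : ℂ) ≠ 0 := by exact_mod_cast hq0
  have hQ' : (Q : ℂ) ≠ 0 := by exact_mod_cast hQ
  obtain ⟨m, rfl⟩ := hq
  rw [Nat.mul_div_cancel_left _ (Nat.pos_of_ne_zero hq0), coe_heckeMatrix_smul hq0,
    coe_heckeDiagMatrix_smul hq0, UpperHalfPlane.coe_vadd]
  have hm' : (m : ℂ) ≠ 0 := by
    intro h
    apply hQ'
    push_cast
    rw [h, mul_zero]
  push_cast
  field_simp
  ring

/-- The depletion polynomial for a set of primes. -/
def deplPoly (Q : ℕ) (s : Finset ℕ) : ℂ[X] := ∏ q ∈ s, depPoly Q q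

theorem depl_cf {Q : ℕ} (hQ : Q ≠ 0) [NeZero N] (s : Finset ℕ) (hs : ∀ q ∈ s, q.Prime)
    (hsQ : ∀ q ∈ s, q ∣ Q) (hf : IsCF (Gamma0 N) k f) :
    IsCF (Gamma0 (N * (∏ q ∈ s, q) ^ 2)) k (aeval (tr (1 / Q)) (deplPoly Q s) f) ∧
      ∀ n, qCoeff (aeval (tr (1 / Q)) (deplPoly Q s) f) n =
        if ∃ q ∈ s, q ∣ n then 0 else qCoeff f n := by
  classical
  induction s using Finset.induction_on with
  | empty =>
    refine ⟨by simpa [deplPoly] using hf, fun n => by simp [deplPoly]⟩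
  | insert q s hqs ih =>
    obtain ⟨ih1, ih2⟩ := ih (fun q' hq' => hs q' (Finset.mem_insert_of_mem hq'))
      (fun q' hq' => hsQ q' (Finset.mem_insert_of_mem hq'))
    set F := aeval (tr (1 / Q)) (deplPoly Q s) f with hF
    have hqp : q.Prime := hs q (Finset.mem_insert_self q s)
    have e : aeval (tr (1 / Q)) (deplPoly Q (insert q s)) f = F - V q (heckeU k q F) := by
      rw [deplPoly, Finset.prod_insert hqs, map_mul, Module.End.mul_apply,
        aeval_depPoly hQ (hsQ q (Finset.mem_insert_self q s)) k]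
      rfl
    set M := N * (∏ q ∈ s, q) ^ 2 with hM
    have hprod : (∏ q ∈ s, q) ≠ 0 := by
      rw [Finset.prod_ne_zero_iff]
      intro q' hq'
      exact (hs q' (Finset.mem_insert_of_mem hq')).ne_zero
    have hM0 : M ≠ 0 := mul_ne_zero (NeZero.ne N) (pow_ne_zero 2 hprod)
    have : NeZero (M * q) := ⟨mul_ne_zero hM0 hqp.ne_zero⟩
    have hFq : IsCF (Gamma0 (M * q)) k F := IsCF.nezero_level ih1 q
    have hU : IsCF (Gamma0 (M * q)) k (heckeU k q F) := IsCF.heckeU hFq (dvd_mul_left q M)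
    have hVU : IsCF (Gamma0 (M * q * q)) k (V q (heckeU k q F)) := IsCF.V hU hqp.ne_zero
    have hFqq : IsCF (Gamma0 (M * q * q)) k F := IsCF.nezero_level hFq q
    have hlev : M * q * q = N * (∏ q ∈ insert q s, q) ^ 2 := by
      rw [Finset.prod_insert hqs, hM]; ring
    rw [e, ← hlev]
    refine ⟨IsCF.sub hFqq hVU, fun n => ?_⟩
    rw [qCoeff_sub' hFqq hVU, qCoeff_V hU hqp.ne_zero, qCoeff_heckeU' hFq hqp.ne_zero]
    by_cases hqn : q ∣ n
    · rw [if_pos hqn, Nat.div_mul_cancel hqn, sub_self, if_pos ⟨q, Finset.mem_insert_self q s, hqn⟩]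
    · rw [if_neg hqn, sub_zero, ih2]
      congr 1
      simp [Finset.exists_mem_insert, hqn]

/-- Slash by a matrix of positive determinant commutes with polynomials in `tr x`, if it
commutes with the translates of `f`. -/
theorem aeval_tr_slash {x : ℝ} (w : GL (Fin 2) ℝ) (hw : UpperHalfPlane.σ w = .refl ℝ ℂ)
    (h : ∀ j : ℕ, (tr (j * x) f) ∣[k] w = tr (j * x) (f ∣[k] w)) (P : ℂ[X]) :
    (aeval (tr x) P f) ∣[k] w = aeval (tr x) P (f ∣[k] w) := by
  induction P using Polynomial.induction_on' with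
  | add p q hp hq =>
    rw [map_add, LinearMap.add_apply, SlashAction.add_slash, hp, hq, LinearMap.add_apply]
  | monomial n a =>
    rw [aeval_monomial, Module.End.mul_apply, tr_pow, Module.End.mul_apply, ← h]
    change (a • tr (n * x) f) ∣[k] w = a • (tr (n * x) f ∣[k] w)
    rw [ModularForm.smul_slash, hw]
    rfl

end Fermat.Agent.Newform
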