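import Fermat.Agent.Newform.BadPrime
import Fermat.Agent.Petersson.Bound

set_option autoImplicit false

noncomputable section

namespace Fermat.Agent.Newform

open UpperHalfPlane ModularForm CongruenceSubgroup Matrix.SpecialLinearGroup Filter
open Fermat.Agent.IntStr ModularFormClass CuspForm Fermat.Agent.Eigenform
open scoped MatrixGroups Manifold Topology

variable {N M : ℕ} {f : ℍ → ℂ}

theorem V_add (q : ℕ) (f g : ℍ → ℂ) : V q (f + g) = V q f + V q g := rfl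
theorem V_sub (q : ℕ) (f g : ℍ → ℂ) : V q (f - g) = V q f - V q g := rfl
theorem V_neg (q : ℕ) (f : ℍ → ℂ) : V q (-f) = -V q f := rfl
theorem V_smul (q : ℕ) (c : ℂ) (f : ℍ → ℂ) : V q (c • f) = c • V q f := rfl

theorem slash_diag {q : ℕ} (hq : q ≠ 0) (f : ℍ → ℂ) :
    f ∣[(2 : ℤ)] heckeDiagMatrix q = (q : ℂ) • V q f := by
  rw [V_eq 2 hq, smul_smul]
  have : (q : ℂ) * ((q : ℂ) ^ ((2 : ℤ) - 1))⁻¹ = 1 := by
    have : (q : ℂ) ≠ 0 := by exact_mod_cast hq
    norm_num [this]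
  rw [this, one_smul]

theorem V_eq2 {q : ℕ} (hq : q ≠ 0) (f : ℍ → ℂ) :
    V q f = (q : ℂ)⁻¹ • (f ∣[(2 : ℤ)] heckeDiagMatrix q) := by
  rw [slash_diag hq, smul_smul, inv_mul_cancel₀ (by exact_mod_cast hq), one_smul]

theorem sigma_of_matrix {m : GL (Fin 2) ℝ} {a b c d : ℝ}
    (hm : (m : Matrix (Fin 2) (Fin 2) ℝ) = !![a, b; c, d]) (h : 0 < a * d - b * c) :
    UpperHalfPlane.σ m = .refl ℝ ℂ := by
  apply sigma_of_det_pos
  rw [Matrix.GeneralLinearGroup.val_det_apply, hm, Matrix.det_fin_two_of]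
  exact h

theorem IsAL.sigma {N₁ Q : ℕ} (hQ : Q ≠ 0) {m : GL (Fin 2) ℝ} {x y z t : ℤ}
    (hm : IsAL N₁ Q m x y z t) : UpperHalfPlane.σ m = .refl ℝ ℂ := by
  refine sigma_of_matrix hm.2 ?_
  have halr : (Q : ℝ) * x * t - N₁ * y * z = 1 := by exact_mod_cast hm.1
  have hq0 : (0 : ℝ) < Q := by exact_mod_cast Nat.pos_of_ne_zero hQ
  have : (Q : ℝ) * x * (Q * t) - y * (Q * N₁ * z) = Q := by
    linear_combination (Q : ℝ) * halr
  rw [this]
  exact hq0

theorem slash_smul_of_sigma {m : GL (Fin 2) ℝ} (h : UpperHalfPlane.σ m = .refl ℝ ℂ) (c : ℂ)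
    (f : ℍ → ℂ) : (c • f) ∣[(2 : ℤ)] m = c • (f ∣[(2 : ℤ)] m) := by
  rw [ModularForm.smul_slash, h]
  rfl

/-- Property carried along the depletion: `w_Q`-eigenvector. -/
def ALEig (Q m : ℕ) (c : ℂ) (F : ℍ → ℂ) : Prop :=
  IsCF (Gamma0 (Q * m)) 2 F ∧ ∀ (w : GL (Fin 2) ℝ) (x y z t : ℤ), IsAL m Q w x y z t →
    F ∣[(2 : ℤ)] w = c • F

theorem ALEig.mono {Q m : ℕ} {c : ℂ} {F : ℍ → ℂ} (h : ALEig Q m c F) (p : ℕ) :
    ALEig Q (m * p) c F := by
  refine ⟨?_, fun w x y z t hw => h.2 w x y (p * z) t ?_⟩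
  · rw [← mul_assoc]; exact IsCF.nezero_level h.1 p
  · obtain ⟨h1, h2⟩ := hw
    refine ⟨?_, ?_⟩
    · rw [← h1]; push_cast; ring
    · rw [h2]; push_cast; ring_nf

theorem ALEig.V {Q m : ℕ} (hQ : Q ≠ 0) {c : ℂ} {F : ℍ → ℂ} (h : ALEig Q m c F) {p : ℕ}
    (hp : p ≠ 0) : ALEig Q (m * p) c (V p F) := by
  refine ⟨?_, fun w x y z t hw => ?_⟩
  · rw [← mul_assoc]; exact IsCF.V h.1 hp
  · have hσ := hw.sigma hQ
    obtain ⟨h1, h2⟩ := hw
    have hne : (Q * x : ℝ) * (Q * t) - (y * p) * (Q * m * z) ≠ 0 := by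
      have h1r : (Q : ℝ) * x * t - (m * p : ℕ) * y * z = 1 := by exact_mod_cast h1
      have : (Q * x : ℝ) * (Q * t) - (y * p) * (Q * m * z) = Q := by
        push_cast at h1r
        linear_combination (Q : ℝ) * h1r
      rw [this]; exact_mod_cast hQ
    have hw' : IsAL m Q (mat (Q * x) (y * p) (Q * m * z) (Q * t) hne) x (y * p) z t := by
      refine ⟨?_, ?_⟩
      · rw [← h1]; push_cast; ring
      · rw [val_mat]; push_cast; rfl
    have e : heckeDiagMatrix p * w =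
        mat (Q * x) (y * p) (Q * m * z) (Q * t) hne * heckeDiagMatrix p := by
      apply Units.ext
      rw [Units.val_mul, Units.val_mul, h2, val_mat, val_heckeDiagMatrix hp, Matrix.mul_fin_two,
        Matrix.mul_fin_two]
      push_cast
      ext i j
      fin_cases i <;> fin_cases j <;> simp <;> ring
    have h3 := h.2 _ _ _ _ _ hw'
    rw [V_eq2 hp, slash_smul_of_sigma hσ, ← SlashAction.slash_mul, e, SlashAction.slash_mul, h3,
      slash_smul_of_sigma, smul_comm]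
    refine sigma_of_matrix (val_heckeDiagMatrix hp) ?_
    have : (0 : ℝ) < p := by exact_mod_cast Nat.pos_of_ne_zero hp
    simpa using this

theorem ALEig.add {Q m : ℕ} {c : ℂ} {F G : ℍ → ℂ} (hF : ALEig Q m c F) (hG : ALEig Q m c G) :
    ALEig Q m c (F + G) :=
  ⟨IsCF.add hF.1 hG.1, fun w x y z t hw => by
    rw [SlashAction.add_slash, hF.2 w x y z t hw, hG.2 w x y z t hw, smul_add]⟩

theorem ALEig.smul {Q m : ℕ} (hQ : Q ≠ 0) {c : ℂ} {F : ℍ → ℂ} (hF : ALEig Q m c F) (a : ℂ) :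
    ALEig Q m c (a • F) :=
  ⟨IsCF.smul a hF.1, fun w x y z t hw => by
    rw [slash_smul_of_sigma (hw.sigma hQ), hF.2 w x y z t hw, smul_comm]⟩

/-- Depletion of an eigenform at a finite set of primes, keeping the `w_Q`-eigenvector property. -/
theorem exists_depletion [NeZero M] {Q m : ℕ} (hQ : Q ≠ 0)
    {g : CuspForm (Gamma0 M) 2} (hg : g.IsNormalizedEigenform) {c : ℂ} (hgc : ALEig Q m c g)
    (s : Finset ℕ) (hs : ∀ p ∈ s, p.Prime) :
    ∃ F : ℍ → ℂ, ALEig Q (m * (∏ p ∈ s, p) ^ 2) c F ∧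
      ∀ n, qCoeff F n = if ∃ p ∈ s, p ∣ n then 0 else qCoeff g n := by
  classical
  induction s using Finset.induction_on with
  | empty => exact ⟨g, by simpa using hgc, fun n => by simp⟩
  | insert p s hps ih =>
    obtain ⟨F, hF, hFn⟩ := ih (fun q hq => hs q (Finset.mem_insert_of_mem hq))
    have hp : p.Prime := hs p (Finset.mem_insert_self p s)
    set m₀ := m * (∏ p ∈ s, p) ^ 2 with hm₀
    set b : ℂ := if p ∣ M then 0 else p with hb
    have hV1 := (hF.V hQ hp.ne_zero)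
    have hV2 := hV1.V hQ hp.ne_zero
    refine ⟨F + (-(qCoeff g p)) • V p F + b • V p (V p F), ?_, fun n => ?_⟩
    · have e : m * (∏ p ∈ insert p s, p) ^ 2 = m₀ * p * p := by
        rw [Finset.prod_insert hps, hm₀]; ring
      rw [e]
      exact (((hF.mono p).mono p).add ((hV1.mono p).smul hQ _)).add (hV2.smul hQ _)
    · have hcF := hF.1
      have c1 : IsCF (Gamma0 (Q * m₀ * p)) 2 F := IsCF.nezero_level hcF p
      have c2 : IsCF (Gamma0 (Q * m₀ * p * p)) 2 F := IsCF.nezero_level c1 p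
      have c3 : IsCF (Gamma0 (Q * m₀ * p)) 2 (V p F) := IsCF.V hcF hp.ne_zero
      have c4 : IsCF (Gamma0 (Q * m₀ * p * p)) 2 (V p F) := IsCF.nezero_level c3 p
      have c5 : IsCF (Gamma0 (Q * m₀ * p * p)) 2 (V p (V p F)) := IsCF.V c3 hp.ne_zero
      rw [qCoeff_add' (IsCF.add c2 (IsCF.smul _ c4)) (IsCF.smul _ c5), qCoeff_add' c2
        (IsCF.smul _ c4), qCoeff_smul' c4, qCoeff_smul' c5, qCoeff_V hcF hp.ne_zero,
        qCoeff_V c3 hp.ne_zero]
      by_cases hpn : p ∣ n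
      · obtain ⟨n₁, rfl⟩ := hpn
        rw [if_pos (dvd_mul_right p n₁), if_pos (dvd_mul_right p n₁),
          if_pos ⟨p, Finset.mem_insert_self p s, dvd_mul_right p n₁⟩,
          Nat.mul_div_cancel_left n₁ hp.pos, qCoeff_V hcF hp.ne_zero]
        have key := qCoeff_mul_prime hg hp n₁
        have hiff : (∃ q ∈ s, q ∣ p * n₁) ↔ ∃ q ∈ s, q ∣ n₁ := by
          constructor
          · rintro ⟨q, hq, hqn⟩
            refine ⟨q, hq, ?_⟩
            rcases (hs q (Finset.mem_insert_of_mem hq)).dvd_mul.mp hqn with h | h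
            · exfalso
              rw [(Nat.prime_dvd_prime_iff_eq (hs q (Finset.mem_insert_of_mem hq)) hp).mp h] at hq
              exact hps hq
            · exact h
          · rintro ⟨q, hq, hqn⟩
            exact ⟨q, hq, hqn.mul_left p⟩
        rw [hFn, hFn]
        by_cases hex : ∃ q ∈ s, q ∣ n₁
        · rw [if_pos (hiff.mpr hex), if_pos hex]
          by_cases hpn₁ : p ∣ n₁
          · have hex2 : ∃ q ∈ s, q ∣ n₁ / p := by
              obtain ⟨n₂, rfl⟩ := hpn₁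
              rw [Nat.mul_div_cancel_left n₂ hp.pos]
              obtain ⟨q, hq, hqn⟩ := hex
              refine ⟨q, hq, ?_⟩
              rcases (hs q (Finset.mem_insert_of_mem hq)).dvd_mul.mp hqn with h | h
              · exfalso
                rw [(Nat.prime_dvd_prime_iff_eq (hs q (Finset.mem_insert_of_mem hq)) hp).mp h] at hq
                exact hps hq
              · exact h
            rw [if_pos hpn₁, hFn, if_pos hex2]; ring
          · rw [if_neg hpn₁]; ring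
        · rw [if_neg (fun h => hex (hiff.mp h)), if_neg hex]
          by_cases hpn₁ : p ∣ n₁
          · have hex2 : ¬ ∃ q ∈ s, q ∣ n₁ / p := by
              rintro ⟨q, hq, hqn⟩
              exact hex ⟨q, hq, hqn.trans (Nat.div_dvd_of_dvd hpn₁)⟩
            rw [if_pos hpn₁, hFn, if_neg hex2]
            rw [if_pos hpn₁] at key
            have hb' : b = (if p ∣ M then (0 : ℂ) else (p : ℂ)) := rfl
            rw [← hb'] at key
            linear_combination key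
          · rw [if_neg hpn₁]
            rw [if_neg hpn₁] at key
            linear_combination key
      · rw [if_neg hpn, if_neg hpn, hFn, mul_zero, mul_zero, add_zero, add_zero]
        congr 1
        simp [hpn]

theorem IsAL.mul_inv_mem {Q m : ℕ} {w w' : GL (Fin 2) ℝ} {x y z t x' y' z' t' : ℤ}
    (hw : IsAL m Q w x y z t) (hw' : IsAL m Q w' x' y' z' t') : w * w'⁻¹ ∈ G0 (Q * m) := by
  obtain ⟨h1, h2⟩ := hw
  obtain ⟨h1', h2'⟩ := hw'
  have hdet : (Q * x * t' - m * y * z') * (Q * t * x' - m * z * y') -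
      (y * x' - x * y') * (Q * m * (z * t' - t * z')) = 1 := by
    linear_combination (Q * x' * t' - m * y' * z') * h1 + h1'
  have hne : ((Q * x * t' - m * y * z' : ℤ) : ℝ) * ((Q * t * x' - m * z * y' : ℤ) : ℝ) -
      ((y * x' - x * y' : ℤ) : ℝ) * ((Q * m * (z * t' - t * z') : ℤ) : ℝ) ≠ 0 := by
    have : ((Q * x * t' - m * y * z' : ℤ) : ℝ) * ((Q * t * x' - m * z * y' : ℤ) : ℝ) -
      ((y * x' - x * y' : ℤ) : ℝ) * ((Q * m * (z * t' - t * z') : ℤ) : ℝ) = 1 := by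
      exact_mod_cast hdet
    rw [this]; exact one_ne_zero
  have e : w = mat ((Q * x * t' - m * y * z' : ℤ) : ℝ) ((y * x' - x * y' : ℤ) : ℝ)
      ((Q * m * (z * t' - t * z') : ℤ) : ℝ) ((Q * t * x' - m * z * y' : ℤ) : ℝ) hne * w' := by
    apply Units.ext
    rw [Units.val_mul, h2, h2', val_mat, Matrix.mul_fin_two]
    have h1r : (Q : ℝ) * x' * t' - m * y' * z' = 1 := by exact_mod_cast h1'
    push_cast
    ext i j
    fin_cases i <;> fin_cases j <;> simp
    · linear_combination (-(Q : ℝ) * x) * h1r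
    · linear_combination (-(y : ℝ)) * h1r
    · linear_combination (-(Q : ℝ) * m * z) * h1r
    · linear_combination (-(Q : ℝ) * t) * h1r
  have e2 : w * w'⁻¹ = mat ((Q * x * t' - m * y * z' : ℤ) : ℝ) ((y * x' - x * y' : ℤ) : ℝ)
      ((Q * m * (z * t' - t * z') : ℤ) : ℝ) ((Q * t * x' - m * z * y' : ℤ) : ℝ) hne := by
    conv_lhs => rw [e]
    rw [mul_inv_cancel_right]
  rw [e2, mem_G0]
  exact ⟨_, _, _, _, hdet, ⟨z * t' - t * z', by push_cast; ring⟩, val_mat _ _ _ _ _⟩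

/-- A newform is an eigenvector of the Atkin–Lehner operators. -/
theorem newform_ALEig [NeZero M] {Q m : ℕ} (hM : M = Q * m) (hcop : Nat.Coprime Q m)
    {g : CuspForm (Gamma0 M) 2} (hg : g.IsNewform) : ∃ c, ALEig Q m c g := by
  subst hM
  have hQ : Q ≠ 0 := left_ne_zero_of_mul (NeZero.ne (Q * m))
  obtain ⟨w₀, x₀, y₀, z₀, t₀, hw₀⟩ := exists_AL hQ hcop
  have hF := IsCF.of_cuspForm g
  have hFm := hw₀.isCF hQ hF
  refine ⟨qCoeff hFm.toCuspForm 1, hF, fun w x y z t hw => ?_⟩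
  have h1 : (g : ℍ → ℂ) ∣[(2 : ℤ)] w = (g : ℍ → ℂ) ∣[(2 : ℤ)] w₀ := by
    have e : w = (w * w₀⁻¹) * w₀ := by group
    have h2 := G0_le_stab hF (hw.mul_inv_mem hw₀)
    rw [mem_stab] at h2
    rw [e, SlashAction.slash_mul, h2]
  rw [h1]
  have h3 := mult_one (Q * m).primeFactors hg (h := hFm.toCuspForm) (by
    intro ℓ hℓ
    have hℓN : ¬ (ℓ : ℕ) ∣ Q * m := fun h => hℓ (Nat.mem_primeFactors.mpr
      ⟨ℓ.2, h, NeZero.ne _⟩)
    apply DFunLike.coe_injective
    rw [coe_hOp_of_not_dvd hℓN, IsCF.coe_toCuspForm, hw₀.heckeT_comm hQ hF ℓ.2 hℓN]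
    have h4 := congrArg (fun G : CuspForm (Gamma0 (Q * m)) 2 => (G : ℍ → ℂ)) (hOp_eigen hg.1 ℓ)
    rw [coe_hOp_of_not_dvd hℓN] at h4
    rw [h4]
    change (qCoeff g ℓ • (g : ℍ → ℂ)) ∣[(2 : ℤ)] w₀ = qCoeff g ℓ • ((g : ℍ → ℂ) ∣[(2 : ℤ)] w₀)
    exact slash_smul_of_sigma (hw₀.sigma hQ) _ _)
  exact congrArg (fun G : CuspForm (Gamma0 (Q * m)) 2 => (G : ℍ → ℂ)) h3

theorem qCoeff_eq_of_primes [NeZero N] [NeZero M] {f : CuspForm (Gamma0 N) 2}
    {g : CuspForm (Gamma0 M) 2} (hf : f.IsNormalizedEigenform) (hg : g.IsNormalizedEigenform)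
    (n : ℕ) (h : ∀ ℓ : ℕ, ℓ.Prime → ℓ ∣ n → ¬ ℓ ∣ N ∧ ¬ ℓ ∣ M ∧ qCoeff f ℓ = qCoeff g ℓ) :
    qCoeff f n = qCoeff g n := by
  induction n using Nat.strong_induction_on with
  | _ n ih =>
    rcases Nat.eq_zero_or_pos n with rfl | hn0
    · rw [qCoeff_cuspForm_zero, qCoeff_cuspForm_zero]
    rcases Nat.lt_or_ge 1 n with hn1 | hn1
    · obtain ⟨ℓ, hℓ, m, rfl⟩ : ∃ ℓ : ℕ, ℓ.Prime ∧ ∃ m, n = ℓ * m :=
        ⟨n.minFac, Nat.minFac_prime hn1.ne', n.minFac_dvd⟩
      have hm : 0 < m := Nat.pos_of_ne_zero (by rintro rfl; simp at hn0)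
      have hlt : m < ℓ * m := by nlinarith [hℓ.two_le]
      obtain ⟨h1, h2, h3⟩ := h ℓ hℓ (dvd_mul_right ℓ m)
      have k1 := qCoeff_mul_prime hf hℓ m
      have k2 := qCoeff_mul_prime hg hℓ m
      have k3 := ih m hlt (fun r hr hrm => h r hr (hrm.mul_left ℓ))
      rw [if_neg h1] at k1
      rw [if_neg h2] at k2
      by_cases h4 : ℓ ∣ m
      · have k4 := ih (m / ℓ) (lt_of_le_of_lt (Nat.div_le_self _ _) hlt) (fun r hr hrm => h r hr
          ((hrm.trans (Nat.div_dvd_of_dvd h4)).mul_left ℓ))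
        rw [if_pos h4] at k1 k2
        rw [k3, k4, h3] at k1
        linear_combination k1 - k2
      · rw [if_neg h4] at k1 k2
        rw [k3, h3] at k1
        linear_combination k1 - k2
    · have : n = 1 := by omega
      rw [this, hf.qCoeff_one, hg.qCoeff_one]

/-- `F | w_{q^(a+1)} = q V_q (F | w_{q^a})` for `F` of level `q^a m`. -/
theorem slash_AL_lower {q a m : ℕ} (hq : q ≠ 0) {F : ℍ → ℂ} {w : GL (Fin 2) ℝ} {x y z t : ℤ}
    (hw : IsAL m (q ^ (a + 1)) w x y z t) :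
    ∃ w', IsAL m (q ^ a) w' x y z (q * t) ∧
      F ∣[(2 : ℤ)] w = (q : ℂ) • V q (F ∣[(2 : ℤ)] w') := by
  obtain ⟨h1, h2⟩ := hw
  have h1' : ((q ^ a : ℕ) : ℤ) * x * (q * t) - m * y * z = 1 := by
    rw [← h1]; push_cast; ring
  have hq0 : (q : ℝ) ≠ 0 := by exact_mod_cast hq
  have hne : ((q ^ a : ℕ) : ℝ) * x * ((q ^ a : ℕ) * (q * t)) - y * ((q ^ a : ℕ) * m * z) ≠ 0 := by
    have h1r : ((q ^ a : ℕ) : ℝ) * x * (q * t) - m * y * z = 1 := by exact_mod_cast h1'
    have : ((q ^ a : ℕ) : ℝ) * x * ((q ^ a : ℕ) * (q * t)) - y * ((q ^ a : ℕ) * m * z) =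
        (q ^ a : ℕ) := by
      linear_combination ((q ^ a : ℕ) : ℝ) * h1r
    rw [this]
    exact_mod_cast pow_ne_zero a hq
  refine ⟨mat ((q ^ a : ℕ) * x) y ((q ^ a : ℕ) * m * z) ((q ^ a : ℕ) * (q * t)) hne,
    ⟨h1', by rw [val_mat]; push_cast; rfl⟩, ?_⟩
  have e : w = mat ((q ^ a : ℕ) * x) y ((q ^ a : ℕ) * m * z) ((q ^ a : ℕ) * (q * t)) hne *
      heckeDiagMatrix q := by
    apply Units.ext
    rw [Units.val_mul, h2, val_mat, val_heckeDiagMatrix hq, Matrix.mul_fin_two]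
    push_cast
    ext i j
    fin_cases i <;> fin_cases j <;> simp <;> ring
  rw [e, SlashAction.slash_mul, slash_diag hq]

/-- `(V_q r) | w_{q^(a+1)} = q⁻¹ r | w_{q^a}`. -/
theorem V_slash_AL {q a m : ℕ} (hq : q ≠ 0) {r : ℍ → ℂ} {w : GL (Fin 2) ℝ} {x y z t : ℤ}
    (hw : IsAL m (q ^ (a + 1)) w x y z t) :
    ∃ w', IsAL m (q ^ a) w' (q * x) y z t ∧
      (V q r) ∣[(2 : ℤ)] w = (q : ℂ)⁻¹ • (r ∣[(2 : ℤ)] w') := by
  have hσ := hw.sigma (pow_ne_zero _ hq)
  obtain ⟨h1, h2⟩ := hw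
  have h1' : ((q ^ a : ℕ) : ℤ) * (q * x) * t - m * y * z = 1 := by
    rw [← h1]; push_cast; ring
  have hq0 : (q : ℝ) ≠ 0 := by exact_mod_cast hq
  have hqp : (0 : ℝ) < q := by exact_mod_cast Nat.pos_of_ne_zero hq
  have hne : ((q ^ a : ℕ) : ℝ) * (q * x) * ((q ^ a : ℕ) * t) - y * ((q ^ a : ℕ) * m * z) ≠ 0 := by
    have h1r : ((q ^ a : ℕ) : ℝ) * (q * x) * t - m * y * z = 1 := by exact_mod_cast h1'
    have : ((q ^ a : ℕ) : ℝ) * (q * x) * ((q ^ a : ℕ) * t) - y * ((q ^ a : ℕ) * m * z) =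
        (q ^ a : ℕ) := by
      linear_combination ((q ^ a : ℕ) : ℝ) * h1r
    rw [this]
    exact_mod_cast pow_ne_zero a hq
  refine ⟨mat ((q ^ a : ℕ) * (q * x)) y ((q ^ a : ℕ) * m * z) ((q ^ a : ℕ) * t) hne,
    ⟨h1', by rw [val_mat]; push_cast; rfl⟩, ?_⟩
  have hs : (q : ℝ) * q - 0 * 0 ≠ 0 := by simpa using hq0
  have e : heckeDiagMatrix q * w = mat q 0 0 q hs *
      mat ((q ^ a : ℕ) * (q * x)) y ((q ^ a : ℕ) * m * z) ((q ^ a : ℕ) * t) hne := by
    apply Units.ext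
    rw [Units.val_mul, Units.val_mul, h2, val_mat, val_mat, val_heckeDiagMatrix hq,
      Matrix.mul_fin_two, Matrix.mul_fin_two]
    push_cast
    ext i j
    fin_cases i <;> fin_cases j <;> simp <;> first | ring1 | (left; ring1)
  rw [V_eq2 hq, slash_smul_of_sigma hσ, ← SlashAction.slash_mul, e, SlashAction.slash_mul,
    slash_scalar hqp]

/-- If `V_q u = κ u` with `u` a cusp form then `u = 0`. -/
theorem eq_zero_of_V_eq {u : ℍ → ℂ} (hu : IsCF (Gamma0 N) 2 u) {q : ℕ} (hq : q.Prime) {κ : ℂ}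
    (hκ : κ ≠ 0) (h : V q u = κ • u) : u = 0 := by
  have hVcf := IsCF.V hu hq.ne_zero
  have hu' : IsCF (Gamma0 (N * q)) 2 u := IsCF.nezero_level hu q
  have hcoef : ∀ n, (if q ∣ n then qCoeff u (n / q) else 0) = κ * qCoeff u n := by
    intro n
    have h1 := congrArg (fun F => qCoeff F n) h
    rwa [qCoeff_smul' hu', qCoeff_V hu hq.ne_zero] at h1
  have hn : ∀ n, qCoeff u n = 0 := by
    intro n
    induction n using Nat.strong_induction_on with
    | _ n ih =>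
      rcases Nat.eq_zero_or_pos n with rfl | hn
      · exact qCoeff_zero' hu
      · have h1 := hcoef n
        have h2 : (if q ∣ n then qCoeff u (n / q) else 0) = 0 := by
          split_ifs with h
          · rw [ih _ (Nat.div_lt_self hn hq.one_lt)]
          · rfl
        rw [h2] at h1
        exact (mul_eq_zero.mp h1.symm).resolve_left hκ
  refine cf_ext hu (IsCF.zero (N := N)) fun n => ?_
  rw [hn, qCoeff_zero_fun]

/-- The core of strong multiplicity one across levels, at one prime `q`. -/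
theorem core_contradiction {q a m : ℕ} (hq : q.Prime) (hm0 : m ≠ 0) (hqm : ¬ q ∣ m)
    {G F : ℍ → ℂ} {c e : ℂ} (hG : ALEig (q ^ (a + 1)) m c G)
    (hF : IsCF (Gamma0 (q ^ a * m)) 2 F) (hG1 : qCoeff G 1 = 1) (hF1 : qCoeff F 1 = 1)
    (hGF : ∀ n, ¬ q ∣ n → qCoeff G n = qCoeff F n)
    (hUG : ∀ n, qCoeff G (q * n) = e * qCoeff G n) (he : 1 ≤ a → e = 0)
    (hec : a = 0 → c = -e) : False := by
  have hq0 := hq.ne_zero
  have hqC : (q : ℂ) ≠ 0 := by exact_mod_cast hq0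
  have hnz : NeZero m := ⟨hm0⟩
  have hnz1 : ∀ b, NeZero (q ^ b * m) := fun b => ⟨mul_ne_zero (pow_ne_zero b hq0) hm0⟩
  have hGc := hG.1
  have hlev : q ^ (a + 1) * m = q ^ a * m * q := by ring
  have hFc : IsCF (Gamma0 (q ^ (a + 1) * m)) 2 F := by
    rw [hlev]; exact IsCF.nezero_level hF q
  have := hnz1 (a + 1)
  have := hnz1 a
  obtain ⟨r, hr, hrG⟩ := single_dvd hq (N := q ^ (a + 1) * m)
    (by rw [pow_succ]; exact (dvd_mul_left q _).mul_right m) (IsCF.sub hGc hFc) (by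
      intro n hn
      rw [qCoeff_sub' hGc hFc, hGF n hn, sub_self])
  have hlev2 : q ^ (a + 1) * m / q = q ^ a * m := by
    rw [hlev, Nat.mul_div_cancel _ hq.pos]
  rw [hlev2] at hr
  have hGeq : G = F + V q r := by rw [← hrG]; abel
  obtain ⟨w, x, y, z, t, hw⟩ := exists_AL (N₁ := m) (pow_ne_zero (a + 1) hq0)
    (Nat.Coprime.pow_left _ ((hq.coprime_iff_not_dvd).mpr hqm))
  have hGw := hG.2 w x y z t hw
  have hσ := hw.sigma (pow_ne_zero (a + 1) hq0)
  have hc2 : c * c = 1 := by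
    have h1 := hw.sq (pow_ne_zero (a + 1) hq0) hGc
    rw [hGw, slash_smul_of_sigma hσ, hGw, smul_smul] at h1
    have h2 := congrArg (fun F => qCoeff F 1) h1
    rw [qCoeff_smul' hGc, hG1, mul_one] at h2
    exact h2
  obtain ⟨w₁, hw₁, hFw⟩ := slash_AL_lower (F := F) hq0 hw
  obtain ⟨w₂, hw₂, hrw⟩ := V_slash_AL (r := r) hq0 hw
  -- relation `c (F + V r) = q V (F|w₁) + q⁻¹ r|w₂`
  have hrel : c • (F + V q r) = (q : ℂ) • V q (F ∣[(2 : ℤ)] w₁) + (q : ℂ)⁻¹ • (r ∣[(2 : ℤ)] w₂) := by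
    rw [← hFw, ← hrw, ← SlashAction.add_slash, ← hGeq, hGw]
  have hFw1 : IsCF (Gamma0 (q ^ a * m)) 2 (F ∣[(2 : ℤ)] w₁) := hw₁.isCF (pow_ne_zero a hq0) hF
  have hrw2 : IsCF (Gamma0 (q ^ a * m)) 2 (r ∣[(2 : ℤ)] w₂) := hw₂.isCF (pow_ne_zero a hq0) hr
  have hVF : IsCF (Gamma0 (q ^ a * m * q)) 2 (V q (F ∣[(2 : ℤ)] w₁)) := IsCF.V hFw1 hq0
  have hrw2' : IsCF (Gamma0 (q ^ a * m * q)) 2 (r ∣[(2 : ℤ)] w₂) := IsCF.nezero_level hrw2 q
  have hcq : c * (q : ℂ) = qCoeff (r ∣[(2 : ℤ)] w₂) 1 := by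
    have h1 := congrArg (fun F => qCoeff F 1) hrel
    rw [← hGeq, qCoeff_smul' hGc, hG1, qCoeff_add' (IsCF.smul _ hVF) (IsCF.smul _ hrw2'),
      qCoeff_smul' hVF, qCoeff_smul' hrw2', qCoeff_V hFw1 hq0, if_neg
      (by intro h; exact hq.one_lt.ne' (Nat.dvd_one.mp h)), mul_zero, zero_add, mul_one] at h1
    rw [h1]
    field_simp
  rcases Nat.eq_zero_or_pos a with rfl | ha
  · -- `a = 0`
    have hF0 : IsCF (Gamma0 m) 2 F := by simpa using hF
    have hr0 : IsCF (Gamma0 m) 2 r := by simpa using hr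
    have hFw₁ : F ∣[(2 : ℤ)] w₁ = F := by
      have h1 : w₁ ∈ G0 m := by
        obtain ⟨h1, h2⟩ := hw₁
        refine mem_G0.mpr ⟨x, y, m * z, q * t, ?_, dvd_mul_right _ _, ?_⟩
        · rw [← h1]; push_cast; ring
        · rw [h2]; push_cast; ring_nf
      exact G0_le_stab hF0 h1
    have hrw₂ : r ∣[(2 : ℤ)] w₂ = r := by
      have h1 : w₂ ∈ G0 m := by
        obtain ⟨h1, h2⟩ := hw₂
        refine mem_G0.mpr ⟨q * x, y, m * z, t, ?_, dvd_mul_right _ _, ?_⟩
        · rw [← h1]; push_cast; ring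
        · rw [h2]; push_cast; ring_nf
      exact G0_le_stab hr0 h1
    rw [hFw₁, hrw₂] at hrel
    have hc0 : c ≠ 0 := by rintro rfl; norm_num at hc2
    have hu := eq_zero_of_V_eq (IsCF.sub (IsCF.smul (q : ℂ) hF0) (IsCF.smul c hr0)) hq
      (κ := c * (q : ℂ)⁻¹) (mul_ne_zero hc0 (inv_ne_zero hqC)) (by
        rw [V_sub, V_smul, V_smul]
        have h1 : (q : ℂ) • V q F - c • V q r = c • F - (q : ℂ)⁻¹ • r := by
          rw [smul_add] at hrel
          rw [sub_eq_sub_iff_add_eq_add, ← hrel]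
        rw [h1, smul_sub, smul_smul, smul_smul]
        congr 1
        · congr 1
          field_simp
        · congr 1
          linear_combination (-(q : ℂ)⁻¹) * hc2)
    have hrF : r = (c * q) • F := by
      have h1 : c • r = (q : ℂ) • F := (sub_eq_zero.mp hu).symm
      have h2 : r = c • (c • r) := by rw [smul_smul, hc2, one_smul]
      rw [h2, h1, smul_smul]
    have hce := hec rfl
    have hVFm : IsCF (Gamma0 (m * q)) 2 (V q F) := IsCF.V hF0 hq0
    have hFm : IsCF (Gamma0 (m * q)) 2 F := IsCF.nezero_level hF0 q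
    have hGn : ∀ n, qCoeff G n = qCoeff F n + c * q * (if q ∣ n then qCoeff F (n / q) else 0) := by
      intro n
      rw [hGeq, hrF, V_smul, qCoeff_add' hFm (IsCF.smul _ hVFm), qCoeff_smul' hVFm,
        qCoeff_V hF0 hq0]
    have hT : heckeT 2 q F = ((-c) * (q + 1)) • F := by
      refine cf_ext (IsCF.heckeT hF0 hq hqm) (IsCF.smul _ hF0) fun n => ?_
      rw [qCoeff_heckeT' hF0 hq0, qCoeff_smul' hF0]
      have h1 := hUG n
      rw [hGn, hGn, if_pos (dvd_mul_right q n), Nat.mul_div_cancel_left n hq.pos] at h1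
      rw [ModularForm.coeffHeckeT_apply, mul_comm n q]
      have h3 : e = -c := by rw [hce]; ring
      rw [h3] at h1
      split_ifs at h1 ⊢ with hqn
      · norm_num
        linear_combination h1 - (q : ℂ) * qCoeff F (n / q) * hc2
      · norm_num
        linear_combination h1
    have hF00 := Petersson.eq_zero_of_heckeT_eigen hq hqm hF0 (ε := -c)
      (by rw [neg_sq, sq, hc2]) hT
    rw [hF00, qCoeff_zero_fun] at hF1
    exact zero_ne_one hF1
  · -- `a ≥ 1`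
    have he0 := he ha
    obtain ⟨a', rfl⟩ : ∃ a', a = a' + 1 := ⟨a - 1, by omega⟩
    have hqN : q ∣ q ^ (a' + 1) * m := by rw [pow_succ]; exact (dvd_mul_left q _).mul_right m
    have hrU : r = -heckeU 2 q F := by
      refine cf_ext hr (IsCF.neg (IsCF.heckeU hF hqN)) fun n => ?_
      have hF' := IsCF.heckeU hF hqN
      have h1 : qCoeff (-heckeU 2 q F) n = -qCoeff (heckeU 2 q F) n := by
        have := qCoeff_smul' hF' (-1) n
        rw [neg_one_smul] at this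
        rw [this]; ring
      rw [h1, qCoeff_heckeU' hF hq0]
      have h2 := hUG n
      rw [he0, zero_mul, hGeq] at h2
      have hVr : IsCF (Gamma0 (q ^ (a' + 1 + 1) * m)) 2 (V q r) := by
        rw [hlev]; exact IsCF.V hr hq0
      rw [qCoeff_add' hFc hVr, qCoeff_V hr hq0, if_pos (dvd_mul_right q n),
        Nat.mul_div_cancel_left n hq.pos] at h2
      rw [mul_comm n q]
      linear_combination h2
    rcases Nat.eq_zero_or_pos a' with rfl | ha'
    · -- `a = 1`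
      have hw₂' : IsAL m q w₂ (q * x) y z t := by simpa using hw₂
      have hFqm : IsCF (Gamma0 (q * m)) 2 F := by simpa using hF
      have hFw₂ := hw₂'.isCF hq0 hFqm
      have htr := trace_isCF hq hqm hw₂' hFw₂
      rw [hw₂'.sq hq0 hFqm] at htr
      set h := F ∣[(2 : ℤ)] w₂ + heckeU 2 q F with hh
      have hU : heckeU 2 q F = h + (-1 : ℂ) • (F ∣[(2 : ℤ)] w₂) := by
        rw [hh, neg_one_smul]; abel
      have hσ₂ := hw₂'.sigma hq0
      have hhw : h ∣[(2 : ℤ)] w₂ = (q : ℂ) • V q h := by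
        have h1 : IsAL m (q ^ (0 + 1)) w₂ (q * x) y z t := by simpa using hw₂
        obtain ⟨w₃, hw₃, h3⟩ := slash_AL_lower (F := h) hq0 h1
        rw [h3]
        congr 2
        have h4 : w₃ ∈ G0 m := by
          obtain ⟨h1, h2⟩ := hw₃
          refine mem_G0.mpr ⟨q * x, y, m * z, q * t, ?_, dvd_mul_right _ _, ?_⟩
          · rw [← h1]; push_cast; ring
          · rw [h2]; push_cast; ring_nf
        exact G0_le_stab htr h4
      have hUw : r ∣[(2 : ℤ)] w₂ = F + (-(q : ℂ)) • V q h := by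
        rw [hrU, SlashAction.neg_slash, hU, SlashAction.add_slash, slash_smul_of_sigma hσ₂, hhw,
          hw₂'.sq hq0 hFqm]
        rw [neg_one_smul, _root_.neg_smul]
        abel
      have hVh : IsCF (Gamma0 (q * m)) 2 (V q h) := by
        rw [mul_comm]; exact IsCF.V htr hq0
      rw [hUw, qCoeff_add' hFqm (IsCF.smul _ hVh), qCoeff_smul' hVh, qCoeff_V htr hq0,
        if_neg (by intro h; exact hq.one_lt.ne' (Nat.dvd_one.mp h)), mul_zero, add_zero, hF1] at hcq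
      have h5 : (q : ℂ) * q = 1 := by
        linear_combination (c * q + 1) * hcq - (q : ℂ) * q * hc2
      have h6 : (q * q : ℕ) = 1 := by exact_mod_cast h5
      have := hq.two_le
      nlinarith
    · -- `a ≥ 2`
      obtain ⟨a'', rfl⟩ : ∃ a'', a' = a'' + 1 := ⟨a' - 1, by omega⟩
      obtain ⟨h, hh, hhn⟩ := qCoeff_of_reps_sq hq (N := q ^ (a'' + 1 + 1) * m)
        (by rw [pow_succ, pow_succ]; exact ⟨q ^ a'' * m, by ring⟩) hF
      have hlev3 : q ^ (a'' + 1 + 1) * m / q = q ^ (a'' + 1) * m := by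
        rw [show q ^ (a'' + 1 + 1) * m = q ^ (a'' + 1) * m * q by ring,
          Nat.mul_div_cancel _ hq.pos]
      rw [hlev3] at hh
      have hUh : heckeU 2 q F = h := by
        refine cf_ext (IsCF.heckeU hF hqN) hh fun n => ?_
        rw [qCoeff_heckeU' hF hq0]
        have h1 := hhn (q * n)
        rw [qCoeff_V hh hq0, if_pos (dvd_mul_right q n), if_pos (dvd_mul_right q n),
          Nat.mul_div_cancel_left n hq.pos] at h1
        rw [h1, mul_comm]
      obtain ⟨w₃, hw₃, h3⟩ := slash_AL_lower (F := h) (a := a'' + 1) hq0 hw₂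
      have hhw3 := hw₃.isCF (pow_ne_zero _ hq0) hh
      have hV3 : IsCF (Gamma0 (q ^ (a'' + 1) * m * q)) 2 (V q (h ∣[(2 : ℤ)] w₃)) := IsCF.V hhw3 hq0
      have h4 : r ∣[(2 : ℤ)] w₂ = (-(q : ℂ)) • V q (h ∣[(2 : ℤ)] w₃) := by
        rw [hrU, hUh, SlashAction.neg_slash, h3, _root_.neg_smul]
      rw [h4, qCoeff_smul' hV3, qCoeff_V hhw3 hq0,
        if_neg (by intro h; exact hq.one_lt.ne' (Nat.dvd_one.mp h)), mul_zero] at hcq
      have h5 : c = 0 := (mul_eq_zero.mp hcq).resolve_right hqC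
      rw [h5] at hc2
      norm_num at hc2

end Fermat.Agent.Newform
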