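import Fermat.Agent.Newform.Depl

set_option autoImplicit false

noncomputable section

namespace Fermat.Agent.Newform

open UpperHalfPlane ModularForm CongruenceSubgroup Matrix.SpecialLinearGroup Filter
open Fermat.Agent.IntStr ModularFormClass Polynomial
open scoped MatrixGroups Manifold Topology

variable {N M : ℕ} {k : ℤ} {f g : ℍ → ℂ}

/-- The set of matrices `(a, b/p; c, d)` with `N ∣ c`, determinant one. -/
def Kset (p N : ℕ) : Set (GL (Fin 2) ℝ) :=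
  {m | ∃ a b c d : ℤ, (N : ℤ) ∣ c ∧ a * d * p - b * c = p ∧
    (m : Matrix (Fin 2) (Fin 2) ℝ) = !![(a : ℝ), b / p; c, d]}

theorem mul_mem_Kset {p N : ℕ} (hp : p ≠ 0) (hpN : p ∣ N) {x y : GL (Fin 2) ℝ}
    (hx : x ∈ Kset p N) (hy : y ∈ Kset p N) : x * y ∈ Kset p N := by
  obtain ⟨a, b, c, d, hc, hdet, hx⟩ := hx
  obtain ⟨a', b', c', d', hc', hdet', hy⟩ := hy
  have hpZ : (p : ℤ) ≠ 0 := by exact_mod_cast hp
  have hpR : (p : ℝ) ≠ 0 := by exact_mod_cast hp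
  have hpN' : (p : ℤ) ∣ N := by exact_mod_cast hpN
  obtain ⟨c₁, hc₁⟩ := dvd_trans hpN' hc
  obtain ⟨c₁', hc₁'⟩ := dvd_trans hpN' hc'
  refine ⟨a * a' + b * c₁', a * b' + b * d', c * a' + d * c', c₁ * b' + d * d',
    dvd_add (hc.mul_right _) (hc'.mul_left _), ?_, ?_⟩
  · rw [hc₁] at hdet ⊢
    rw [hc₁'] at hdet' ⊢
    have h1 : a * d - b * c₁ = 1 := by
      apply mul_left_cancel₀ hpZ; linarith
    have h2 : a' * d' - b' * c₁' = 1 := by
      apply mul_left_cancel₀ hpZ; linarith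
    linear_combination (p : ℤ) * (a' * d' - b' * c₁') * h1 + (p : ℤ) * h2
  · rw [Units.val_mul, hx, hy, Matrix.mul_fin_two]
    have e1 : (c : ℝ) = p * c₁ := by exact_mod_cast hc₁
    have e2 : (c' : ℝ) = p * c₁' := by exact_mod_cast hc₁'
    ext i j
    fin_cases i <;> fin_cases j <;> simp
    · rw [e2]; field_simp
    · field_simp
    · rw [e1]; field_simp

theorem Tx_mem_Kset {p : ℕ} (N : ℕ) (j : ℤ) : Tx (j / p) ∈ Kset p N := by
  refine ⟨1, j, 0, 1, dvd_zero _, by ring, ?_⟩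
  rw [Tx, val_mat]
  push_cast
  rfl

theorem G0_subset_Kset {p : ℕ} (hp : p ≠ 0) {x : GL (Fin 2) ℝ} (hx : x ∈ G0 N) : x ∈ Kset p N := by
  obtain ⟨a, b, c, d, hdet, hc, hx⟩ := mem_G0.mp hx
  have hpR : (p : ℝ) ≠ 0 := by exact_mod_cast hp
  refine ⟨a, p * b, c, d, hc, by linear_combination (p : ℤ) * hdet, ?_⟩
  rw [hx]
  ext i j
  fin_cases i <;> fin_cases j <;> simp
  field_simp

theorem Tx_mem_G0_iff {p : ℕ} (hp : p ≠ 0) (j : ℤ) (h : Tx (j / p) ∈ G0 N) : (p : ℤ) ∣ j := by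
  obtain ⟨a, b, c, d, hdet, hc, hx⟩ := mem_G0.mp h
  have hpR : (p : ℝ) ≠ 0 := by exact_mod_cast hp
  have h1 := congrFun (congrFun hx 0) 1
  rw [Tx, val_mat] at h1
  simp at h1
  rw [div_eq_iff hpR] at h1
  refine ⟨b, ?_⟩
  have : (j : ℝ) = p * b := by rw [h1]; ring
  exact_mod_cast this

/-- coset representatives, first type -/
theorem Kset_cover_one {p : ℕ} (hp : p.Prime) (hpN : p ∣ N) {a b c d : ℤ} (hc : (N : ℤ) ∣ c)
    (hdet : a * d * p - b * c = p) (hpa : ¬ (p : ℤ) ∣ a) {x : GL (Fin 2) ℝ}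
    (hx : (x : Matrix (Fin 2) (Fin 2) ℝ) = !![(a : ℝ), b / p; c, d]) :
    ∃ j : Fin p, x * (Tx ((j : ℕ) / p))⁻¹ ∈ G0 N := by
  have hp0 : (p : ℝ) ≠ 0 := by exact_mod_cast hp.ne_zero
  have hpZ : (p : ℤ) ≠ 0 := by exact_mod_cast hp.ne_zero
  have hpp : Prime (p : ℤ) := Nat.prime_iff_prime_int.mp hp
  obtain ⟨c₁, hc₁⟩ : (p : ℤ) ∣ c := dvd_trans (by exact_mod_cast hpN) hc
  have hdet1 : a * d - b * c₁ = 1 := by
    rw [hc₁] at hdet
    have : (p : ℤ) * (a * d - b * c₁) = p * 1 := by linarith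
    exact mul_left_cancel₀ hpZ this
  have hcop : IsCoprime a (p : ℤ) := ((hpp.coprime_iff_not_dvd).mpr hpa).symm
  obtain ⟨u, v, huv⟩ := hcop
  have hj0 : 0 ≤ (u * b) % p := Int.emod_nonneg _ hpZ
  have hjlt : (u * b) % p < p := Int.emod_lt_of_pos _ (by exact_mod_cast hp.pos)
  obtain ⟨j, hj⟩ : ∃ j : ℕ, (j : ℤ) = (u * b) % p := ⟨((u * b) % p).toNat, Int.toNat_of_nonneg hj0⟩
  have hjp : j < p := by
    have : (j : ℤ) < p := by rw [hj]; exact hjlt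
    exact_mod_cast this
  have hjb : ∃ t : ℤ, b - a * j = p * t := by
    have h1 : (j : ℤ) = u * b - p * ((u * b) / p) := by
      rw [hj]; exact Int.emod_def _ _
    refine ⟨v * b + a * ((u * b) / p), ?_⟩
    rw [h1]
    linear_combination (-b) * huv
  obtain ⟨t, ht⟩ := hjb
  refine ⟨⟨j, hjp⟩, ?_⟩
  rw [mem_G0]
  refine ⟨a, t, c, d - c₁ * j, ?_, hc, ?_⟩
  · rw [hc₁]
    linear_combination hdet1 + c₁ * ht
  · rw [← Tx_neg, Units.val_mul, hx, Tx, val_mat, Matrix.mul_fin_two]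
    have hcr : (c : ℝ) = p * c₁ := by exact_mod_cast hc₁
    have htr : (b : ℝ) - a * j = p * t := by exact_mod_cast ht
    ext i j
    fin_cases i <;> fin_cases j <;> simp
    · field_simp
      linarith
    · rw [hcr]; field_simp; ring

/-- The extra representative. -/
theorem Kset_cover_two {p : ℕ} (hp : p.Prime) {a b c d : ℤ}
    (hc : (N : ℤ) ∣ c) (hpc : (p : ℤ) ∣ c)
    (hdet : a * d * p - b * c = p) (hpa : (p : ℤ) ∣ a) {x : GL (Fin 2) ℝ}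
    (hx : (x : Matrix (Fin 2) (Fin 2) ℝ) = !![(a : ℝ), b / p; c, d])
    {C₁ : ℤ} (hC : (N : ℤ) ∣ p * C₁) (hC1 : (p : ℤ) ∣ 1 + C₁) {w : GL (Fin 2) ℝ}
    (hw : (w : Matrix (Fin 2) (Fin 2) ℝ) = !![1 + (C₁ : ℝ), 1 / p; p * C₁, 1]) :
    x * w⁻¹ ∈ G0 N := by
  have hp0 : (p : ℝ) ≠ 0 := by exact_mod_cast hp.ne_zero
  have hpZ : (p : ℤ) ≠ 0 := by exact_mod_cast hp.ne_zero
  obtain ⟨c₁, hc₁⟩ := hpc
  have hdet1 : a * d - b * c₁ = 1 := by
    rw [hc₁] at hdet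
    have : (p : ℤ) * (a * d - b * c₁) = p * 1 := by linarith
    exact mul_left_cancel₀ hpZ this
  obtain ⟨a₁, ha₁⟩ := hpa
  obtain ⟨e, he⟩ := hC1
  -- y = x w⁻¹
  set y : GL (Fin 2) ℝ := mat ((a - b * C₁ : ℤ) : ℝ) ((b * e - a₁ : ℤ) : ℝ)
    ((c - d * (p * C₁) : ℤ) : ℝ) ((d * (1 + C₁) - c₁ : ℤ) : ℝ) (by
      have h1 : (a - b * C₁) * (d * (1 + C₁) - c₁) - (b * e - a₁) * (c - d * (p * C₁)) = 1 := by
        rw [hc₁]
        rw [ha₁] at hdet1 ⊢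
        linear_combination hdet1 + (b * c₁ - b * d * C₁) * he
      have h2 : ((a - b * C₁ : ℤ) : ℝ) * ((d * (1 + C₁) - c₁ : ℤ) : ℝ) -
        ((b * e - a₁ : ℤ) : ℝ) * ((c - d * (p * C₁) : ℤ) : ℝ) = 1 := by exact_mod_cast h1
      rw [h2]; exact one_ne_zero) with hy
  have hyw : y * w = x := by
    apply Units.ext
    rw [Units.val_mul, hy, val_mat, hw, hx, Matrix.mul_fin_two]
    have hcr : (c : ℝ) = p * c₁ := by exact_mod_cast hc₁
    have har : (a : ℝ) = p * a₁ := by exact_mod_cast ha₁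
    have her : 1 + (C₁ : ℝ) = p * e := by exact_mod_cast he
    have hdetr : (a : ℝ) * d - b * c₁ = 1 := by exact_mod_cast hdet1
    ext i j
    fin_cases i <;> fin_cases j <;> simp
    · rw [har]
      linear_combination (-(b * C₁ : ℝ)) * her
    · rw [har]
      field_simp
      linear_combination (-(b : ℝ)) * her
    · rw [hcr]
      ring
    · rw [hcr]
      field_simp
      ring
  have : x * w⁻¹ = y := by rw [← hyw]; group
  rw [this, mem_G0]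
  refine ⟨_, _, _, _, ?_, ?_, val_mat _ _ _ _ _⟩
  · rw [hc₁]
    rw [ha₁] at hdet1 ⊢
    linear_combination hdet1 + (b * c₁ - b * d * C₁) * he
  · exact dvd_sub hc (hC.mul_left d)

/-- `f ↦ ∑ f|r_i` lands in forms which are `V_p` of forms of level `N / p`, given a cover. -/
theorem isCF_sum_reps {p : ℕ} (hp : p.Prime) (hpN : p ∣ N) (hf : IsCF (Gamma0 N) k f)
    {ι : Type*} [Fintype ι] (r : ι → GL (Fin 2) ℝ) (hr : ∀ i, r i ∈ Kset p N)
    (hrat : ∀ i, IsRatM (r i))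
    (hcover : ∀ x ∈ Kset p N, ∃ i, x * (r i)⁻¹ ∈ G0 N)
    (hinj : ∀ i j, r i * (r j)⁻¹ ∈ G0 N → i = j) :
    IsCF (Gamma0 N) k (∑ i, f ∣[k] r i) ∧ Tx (1 / p) ∈ stab k (∑ i, f ∣[k] r i) := by
  have h1 : ∀ κ ∈ Kset p N, (∑ i, f ∣[k] r i) ∣[k] κ = ∑ i, f ∣[k] r i := by
    intro κ hκ
    exact sum_reps_slash (G0_le_stab hf) r κ
      (fun i => hcover _ (mul_mem_Kset hp.ne_zero hpN (hr i) hκ)) hinj
  have hq : IsQCF k (∑ i, f ∣[k] r i) :=
    IsQCF.sum _ _ fun i _ => hf.isQCF.slash (hrat i)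
  refine ⟨cf_of_G0 hq fun m hm => h1 m (G0_subset_Kset hp.ne_zero hm), ?_⟩
  rw [mem_stab]
  have := h1 _ (Tx_mem_Kset (p := p) N 1)
  simpa using this

theorem V_heckeU_eq {p : ℕ} (hp : p ≠ 0) (f : ℍ → ℂ) :
    V p (heckeU k p f) = (p : ℂ)⁻¹ • ∑ j ∈ Finset.range p, f ∣[k] Tx (j / p) := by
  funext τ
  rw [V, heckeU_apply k hp, Pi.smul_apply, Finset.sum_apply, smul_eq_mul]
  congr 1
  refine Finset.sum_congr rfl fun j _ => ?_
  rw [slash_Tx_apply]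
  congr 1
  apply UpperHalfPlane.ext
  have hq' : (p : ℂ) ≠ 0 := by exact_mod_cast hp
  rw [coe_heckeMatrix_smul hp, coe_heckeDiagMatrix_smul hp, UpperHalfPlane.coe_vadd]
  push_cast
  field_simp
  ring

theorem isRatM_Tx_div (j p : ℕ) : IsRatM (Tx ((j : ℝ) / p)) := by
  have := isRatM_Tx ((j : ℚ) / p)
  push_cast at this
  exact this

theorem qCoeff_of_reps_sq {p : ℕ} [NeZero N] (hp : p.Prime) (hpN : p ^ 2 ∣ N)
    (hf : IsCF (Gamma0 N) k f) :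
    ∃ g, IsCF (Gamma0 (N / p)) k g ∧ ∀ n, qCoeff (V p g) n = if p ∣ n then qCoeff f n else 0 := by
  have hpN1 : p ∣ N := dvd_trans (dvd_pow_self p two_ne_zero) hpN
  have hpZ : (p : ℤ) ≠ 0 := by exact_mod_cast hp.ne_zero
  have hpC : (p : ℂ) ≠ 0 := by exact_mod_cast hp.ne_zero
  have hpp : Prime (p : ℤ) := Nat.prime_iff_prime_int.mp hp
  obtain ⟨h1, h2⟩ := isCF_sum_reps hp hpN1 hf (fun j : Fin p => Tx ((j : ℕ) / p))
    (fun j => by simpa using Tx_mem_Kset (p := p) N ((j : ℕ) : ℤ))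
    (fun j => isRatM_Tx_div _ _)
    (by
      rintro x ⟨a, b, c, d, hc, hdet, hx⟩
      refine Kset_cover_one hp hpN1 hc hdet ?_ hx
      intro hpa
      have hc2 : ((p ^ 2 : ℕ) : ℤ) ∣ c := dvd_trans (by exact_mod_cast hpN) hc
      obtain ⟨c₂, hc₂⟩ := hc2
      obtain ⟨a₁, ha₁⟩ := hpa
      apply hpp.not_isUnit
      rw [isUnit_iff_dvd_one]
      refine ⟨a₁ * d - b * c₂, ?_⟩
      apply mul_left_cancel₀ hpZ
      rw [hc₂, ha₁] at hdet
      push_cast at hdet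
      linear_combination -hdet)
    (by
      intro i j hij
      have e : Tx ((i : ℕ) / p) * (Tx ((j : ℕ) / p))⁻¹ = Tx ((((i : ℕ) : ℤ) - ((j : ℕ) : ℤ) : ℤ) / p) := by
        rw [← Tx_neg, ← Tx_add]
        congr 1
        push_cast
        ring
      rw [e] at hij
      have h3 := Tx_mem_G0_iff hp.ne_zero _ hij
      have h4 : ((i : ℕ) : ℤ) ≡ ((j : ℕ) : ℤ) [ZMOD p] :=
        ((Int.modEq_iff_dvd.mpr h3)).symm
      have h5 := (Int.natCast_modEq_iff.mp h4)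
      exact Fin.ext (Nat.ModEq.eq_of_lt_of_lt h5 i.2 j.2))
  set F := ∑ j : Fin p, f ∣[k] Tx ((j : ℕ) / p) with hF
  have h3 : IsCF (Gamma0 N) k ((p : ℂ)⁻¹ • F) := IsCF.smul _ h1
  have h4 : Tx (1 / p) ∈ stab k ((p : ℂ)⁻¹ • F) := by
    rw [mem_stab, ← tr_eq k, map_smul, tr_eq k, mem_stab.mp h2]
  refine ⟨W p ((p : ℂ)⁻¹ • F), isCF_W hp hpN1 h3 h4, fun n => ?_⟩
  rw [V_W hp.ne_zero]
  have e : (p : ℂ)⁻¹ • F = V p (heckeU k p f) := by
    rw [V_heckeU_eq hp.ne_zero, hF, Finset.sum_range]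
  have : NeZero (N * p) := ⟨mul_ne_zero (NeZero.ne N) hp.ne_zero⟩
  rw [e, qCoeff_V (IsCF.heckeU hf hpN1) hp.ne_zero, qCoeff_heckeU' hf hp.ne_zero]
  split_ifs with h
  · rw [Nat.div_mul_cancel h]
  · rfl

end Fermat.Agent.Newform
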