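import Fermat.Agent.Newform.MainLemma

set_option autoImplicit false

noncomputable section

namespace Fermat.Agent.Newform

open UpperHalfPlane ModularForm CongruenceSubgroup Matrix.SpecialLinearGroup Filter
open Fermat.Agent.IntStr ModularFormClass Polynomial
open scoped MatrixGroups Manifold Topology

variable {N M : ℕ} {k : ℤ} {f g : ℍ → ℂ}

theorem sigma_of_det_pos {m : GL (Fin 2) ℝ} (h : 0 < (m.det : ℝ)) :
    UpperHalfPlane.σ m = .refl ℝ ℂ := by
  rw [UpperHalfPlane.σ, if_pos h]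

theorem proj_exact {p : ℕ} [NeZero N] (hp : p.Prime) (hpN : p ∣ N) (hp2 : ¬ p ^ 2 ∣ N)
    (s : Finset ℕ) (hs : ∀ q ∈ s, q.Prime) (hps : p ∉ s) (hf : IsCF (Gamma0 N) k f)
    (hz : ∀ n, ¬ p ∣ n → (∀ q ∈ s, ¬ q ∣ n) → qCoeff f n = 0) :
    ∃ g, IsCF (Gamma0 (N / p)) k g ∧ ∀ n, (∀ q ∈ s, ¬ q ∣ n) → qCoeff (V p g) n = qCoeff f n := by
  classical
  have hp0 : (p : ℝ) ≠ 0 := by exact_mod_cast hp.ne_zero
  have hpZ : (p : ℤ) ≠ 0 := by exact_mod_cast hp.ne_zero
  have hpC : (p : ℂ) ≠ 0 := by exact_mod_cast hp.ne_zero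
  have hpC1 : (p : ℂ) + 1 ≠ 0 := by exact_mod_cast (Nat.succ_ne_zero p)
  have hpp : Prime (p : ℤ) := Nat.prime_iff_prime_int.mp hp
  obtain ⟨N₁, hN₁⟩ := id hpN
  have hpN₁ : ¬ p ∣ N₁ := by
    rintro ⟨t, rfl⟩
    apply hp2
    rw [hN₁]
    exact ⟨t, by ring⟩
  set Q := ∏ q ∈ s, q with hQ
  have hQ0 : Q ≠ 0 := by
    rw [hQ, Finset.prod_ne_zero_iff]
    exact fun q hq => (hs q hq).ne_zero
  have hpQ : ¬ p ∣ Q := by
    rw [hQ, hp.prime.dvd_finsetProd_iff]
    rintro ⟨q, hq, hpq⟩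
    rw [Nat.prime_dvd_prime_iff_eq hp (hs q hq)] at hpq
    exact hps (hpq ▸ hq)
  have hsQ : ∀ q ∈ s, q ∣ Q := fun q hq => Finset.dvd_prod_of_mem _ hq
  -- choice of C₁
  obtain ⟨t, v, htv⟩ : ∃ t v : ℤ, 1 + N₁ * Q ^ 2 * t = p * v := by
    have hcop : IsCoprime ((N₁ : ℤ) * (Q : ℤ) ^ 2) (p : ℤ) := by
      have h1 : IsCoprime (N₁ : ℤ) (p : ℤ) :=
        Nat.isCoprime_iff_coprime.mpr ((hp.coprime_iff_not_dvd.mpr hpN₁).symm)
      have h2 : IsCoprime (Q : ℤ) (p : ℤ) :=
        Nat.isCoprime_iff_coprime.mpr ((hp.coprime_iff_not_dvd.mpr hpQ).symm)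
      exact h1.mul_left (h2.pow_left)
    obtain ⟨u, v, huv⟩ := hcop
    exact ⟨-u, v, by linear_combination -huv⟩
  set C₁ : ℤ := N₁ * Q ^ 2 * t with hC₁
  have hC : (N : ℤ) ∣ p * C₁ := ⟨Q ^ 2 * t, by rw [hC₁, hN₁]; push_cast; ring⟩
  have hCQ : ((N * Q ^ 2 : ℕ) : ℤ) ∣ p * C₁ := ⟨t, by rw [hC₁, hN₁]; push_cast; ring⟩
  have hC1 : (p : ℤ) ∣ 1 + C₁ := ⟨v, htv⟩
  have hwdet : (1 + (C₁ : ℝ)) * 1 - 1 / p * (p * C₁) = 1 := by field_simp; ring
  set w : GL (Fin 2) ℝ := mat (1 + (C₁ : ℝ)) (1 / p) (p * C₁) 1 (by rw [hwdet]; exact one_ne_zero)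
    with hw
  have hwm : (w : Matrix (Fin 2) (Fin 2) ℝ) = !![1 + (C₁ : ℝ), 1 / p; p * C₁, 1] := val_mat _ _ _ _ _
  have hwσ : UpperHalfPlane.σ w = .refl ℝ ℂ := by
    apply sigma_of_det_pos
    rw [Matrix.GeneralLinearGroup.val_det_apply, hwm, Matrix.det_fin_two_of, hwdet]
    exact one_pos
  have hwrat : IsRatM w := isRatM_mat ⟨1 + C₁, by push_cast; rfl⟩ ⟨1 / p, by push_cast; rfl⟩
    ⟨p * C₁, by push_cast; rfl⟩ ⟨1, by simp⟩
  set L : GL (Fin 2) ℝ := mat 1 0 (p * C₁) 1 (by norm_num) with hL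
  have hwL : w = Tx (1 / p) * L := by
    apply Units.ext
    rw [Units.val_mul, hwm, hL, Tx, val_mat, val_mat, Matrix.mul_fin_two]
    ext i j
    fin_cases i <;> fin_cases j <;> simp
    field_simp
  -- representatives
  let r : Option (Fin p) → GL (Fin 2) ℝ := fun o => o.elim w (fun j => Tx ((j : ℕ) / p))
  have hrn : r none = w := rfl
  have hrs : ∀ j, r (some j) = Tx ((j : ℕ) / p) := fun _ => rfl
  have hwT : ∀ j : Fin p, w * (Tx ((j : ℕ) / p))⁻¹ ∉ G0 N := by
    intro j hj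
    obtain ⟨a, b, c, d, hdet, hc, hx⟩ := mem_G0.mp hj
    have h1 := congrFun (congrFun hx 0) 1
    rw [← Tx_neg, Units.val_mul, hwm, Tx, val_mat, Matrix.mul_fin_two] at h1
    simp at h1
    have h2 : (1 : ℝ) - (1 + C₁) * (j : ℕ) = p * b := by
      field_simp at h1
      linear_combination h1
    have h3 : (1 : ℤ) - (1 + C₁) * (j : ℕ) = p * b := by exact_mod_cast h2
    apply hpp.not_isUnit
    rw [isUnit_iff_dvd_one]
    have h4 : (1 : ℤ) = p * b + (1 + C₁) * (j : ℕ) := by linarith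
    rw [h4]
    exact dvd_add (dvd_mul_right _ _) (hC1.mul_right _)
  obtain ⟨h1, h2⟩ := isCF_sum_reps hp hpN hf r
    (by
      rintro (_ | j)
      · refine ⟨1 + C₁, 1, p * C₁, 1, hC, by ring, ?_⟩
        rw [hrn, hwm]
        push_cast
        rfl
      · rw [hrs]
        simpa using Tx_mem_Kset (p := p) N ((j : ℕ) : ℤ))
    (by
      rintro (_ | j)
      · exact hwrat
      · exact isRatM_Tx_div _ _)
    (by
      rintro x ⟨a, b, c, d, hc, hdet, hx⟩
      by_cases hpa : (p : ℤ) ∣ a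
      · exact ⟨none, Kset_cover_two hp hc (dvd_trans (by exact_mod_cast hpN) hc) hdet hpa hx hC
          hC1 hwm⟩
      · obtain ⟨j, hj⟩ := Kset_cover_one hp hpN hc hdet hpa hx
        exact ⟨some j, hj⟩)
    (by
      rintro (_ | i) (_ | j) hij
      · rfl
      · exact absurd hij (hwT j)
      · exfalso
        apply hwT i
        have := (G0 N).inv_mem hij
        rw [mul_inv_rev, inv_inv] at this
        exact this
      · congr 1
        rw [hrs, hrs] at hij
        have e : Tx ((i : ℕ) / p) * (Tx ((j : ℕ) / p))⁻¹ =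
            Tx ((((i : ℕ) : ℤ) - ((j : ℕ) : ℤ) : ℤ) / p) := by
          rw [← Tx_neg, ← Tx_add]
          congr 1
          push_cast
          ring
        rw [e] at hij
        have h3 := Tx_mem_G0_iff hp.ne_zero _ hij
        have h4 : ((i : ℕ) : ℤ) ≡ ((j : ℕ) : ℤ) [ZMOD p] :=
          ((Int.modEq_iff_dvd.mpr h3)).symm
        have h5 := (Int.natCast_modEq_iff.mp h4)
        exact Fin.ext (Nat.ModEq.eq_of_lt_of_lt h5 i.2 j.2))
  set F := ∑ i, f ∣[k] r i with hF
  have h3 : IsCF (Gamma0 N) k (((p : ℂ) + 1)⁻¹ • F) := IsCF.smul _ h1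
  have h4 : Tx (1 / p) ∈ stab k (((p : ℂ) + 1)⁻¹ • F) := by
    rw [mem_stab, ← tr_eq k, map_smul, tr_eq k, mem_stab.mp h2]
  refine ⟨W p (((p : ℂ) + 1)⁻¹ • F), isCF_W hp hpN h3 h4, ?_⟩
  rw [V_W hp.ne_zero]
  -- the depletion operator
  set D := aeval (tr (1 / Q)) (deplPoly Q s) with hD
  obtain ⟨hz1, hz2⟩ := depl_cf hQ0 s hs hsQ hf
  rw [← hD] at hz1 hz2
  set z := D f with hzdef
  have : NeZero (N * Q ^ 2) := ⟨mul_ne_zero (NeZero.ne N) (pow_ne_zero 2 hQ0)⟩
  have hzT : Tx (1 / p) ∈ stab k z := by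
    rw [Tx_mem_stab_iff hp hz1]
    intro n hn
    rw [hz2]
    split_ifs with h
    · rfl
    · push Not at h
      exact hz n hn h
  have hzL : L ∈ stab k z := by
    refine mem_stab_of_cf hz1 (a := 1) (b := 0) (c := p * C₁) (d := 1) (by ring) hCQ L ?_
    rw [hL, val_mat]
    push_cast
    rfl
  have hzw : w ∈ stab k z := by
    rw [hwL]
    exact mul_mem hzT hzL
  have hzj : ∀ j : ℕ, Tx (j / p) ∈ stab k z := by
    intro j
    have := pow_mem hzT j
    rw [← Tx_nsmul] at this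
    rw [div_eq_mul_one_div]
    exact this
  have hDj : ∀ j : ℕ, D (f ∣[k] Tx (j / p)) = z := by
    intro j
    rw [← mem_stab.mp (hzj j), hzdef]
    symm
    apply aeval_tr_slash
    · apply sigma_of_det_pos
      rw [Matrix.GeneralLinearGroup.val_det_apply, Tx, val_mat, Matrix.det_fin_two_of]
      norm_num
    · intro i
      rw [tr_eq k, tr_eq k, ← SlashAction.slash_mul, ← SlashAction.slash_mul, ← Tx_add, ← Tx_add,
        add_comm]
  have hDw : D (f ∣[k] w) = z := by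
    rw [← mem_stab.mp hzw, hzdef]
    symm
    apply aeval_tr_slash w hwσ
    intro i
    have hQR : (Q : ℝ) ≠ 0 := by exact_mod_cast hQ0
    rw [tr_eq k, tr_eq k]
    set x : ℝ := (i : ℝ) * (1 / (Q : ℝ)) with hx
    have hCr : (C₁ : ℝ) = N₁ * Q ^ 2 * t := by rw [hC₁]; push_cast; ring
    have hy : Tx x * w * (Tx x)⁻¹ * w⁻¹ ∈ G0 N := by
      refine Kset_cover_two hp (a := 1 + C₁ + i * p * N₁ * Q * t)
        (b := 1 - p * (i * N₁ * Q * t + i ^ 2 * p * N₁ * t)) (c := p * C₁)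
        (d := 1 - i * p * N₁ * Q * t) hC (dvd_mul_right _ _) ?_ ?_ ?_ hC hC1 hwm
      · rw [hC₁]; ring
      · refine dvd_add hC1 ⟨i * N₁ * Q * t, by ring⟩
      · rw [← Tx_neg, Units.val_mul, Units.val_mul, hwm, Tx, Tx, val_mat, val_mat,
          Matrix.mul_fin_two, Matrix.mul_fin_two, hx, hCr]
        ext a b
        fin_cases a <;> fin_cases b <;> simp
        · rw [hCr]; field_simp
        · field_simp
          ring
        · left
          rw [hCr]
        · field_simp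
          ring
    have h5 := G0_le_stab hf hy
    rw [mem_stab] at h5
    rw [← SlashAction.slash_mul, ← SlashAction.slash_mul]
    have e : Tx x * w = (Tx x * w * (Tx x)⁻¹ * w⁻¹) * (w * Tx x) := by group
    rw [e, SlashAction.slash_mul, h5]
  have hDF : D (((p : ℂ) + 1)⁻¹ • F) = z := by
    rw [map_smul, hF, map_sum, Fintype.sum_option]
    have h6 : ∑ i : Fin p, D (f ∣[k] r (some i)) = (p : ℂ) • z := by
      rw [Finset.sum_congr rfl fun i _ => by rw [hrs, hDj], Finset.sum_const, Finset.card_univ,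
        Fintype.card_fin, Nat.cast_smul_eq_nsmul]
    rw [h6, hrn, hDw, ← one_smul ℂ z, smul_smul, ← add_smul, smul_smul]
    congr 1
    field_simp
    ring
  intro n hn
  have h7 := (depl_cf hQ0 s hs hsQ h3).2 n
  rw [← hD, hDF, hz2] at h7
  have h8 : ¬ ∃ q ∈ s, q ∣ n := by push Not; exact hn
  rw [if_neg h8, if_neg h8] at h7
  exact h7.symm

/-- Projection onto `V_p S_k(Γ₀(N/p))`, compatible with depletion at the primes of `s`. -/
theorem exists_proj {p : ℕ} [NeZero N] (hp : p.Prime) (hpN : p ∣ N)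
    (s : Finset ℕ) (hs : ∀ q ∈ s, q.Prime) (hps : p ∉ s) (hf : IsCF (Gamma0 N) k f)
    (hz : ∀ n, ¬ p ∣ n → (∀ q ∈ s, ¬ q ∣ n) → qCoeff f n = 0) :
    ∃ g, IsCF (Gamma0 (N / p)) k g ∧ ∀ n, (∀ q ∈ s, ¬ q ∣ n) → qCoeff (V p g) n = qCoeff f n := by
  by_cases hp2 : p ^ 2 ∣ N
  · obtain ⟨g, hg, h⟩ := qCoeff_of_reps_sq hp hp2 hf
    refine ⟨g, hg, fun n hn => ?_⟩
    rw [h]
    split_ifs with h1
    · rfl
    · exact (hz n h1 hn).symm
  · exact proj_exact hp hpN hp2 s hs hps hf hz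

/-- **Atkin–Lehner main lemma.** If `f ∈ S_k(Γ₀(N))` has `a_n(f) = 0` for all `n` prime to all the
primes in `s`, then `f = ∑_{p ∈ s, p ∣ N} g_p(pτ)` with `g_p ∈ S_k(Γ₀(N/p))`. -/
theorem main_lemma (s : Finset ℕ) (hs : ∀ q ∈ s, q.Prime) [NeZero N] (hf : IsCF (Gamma0 N) k f)
    (h : ∀ n, (∀ q ∈ s, ¬ q ∣ n) → qCoeff f n = 0) :
    ∃ g : ℕ → ℍ → ℂ, (∀ p ∈ s, p ∣ N → IsCF (Gamma0 (N / p)) k (g p)) ∧
      f = ∑ p ∈ s with p ∣ N, V p (g p) := by
  classical
  induction s using Finset.induction_on generalizing f with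
  | empty =>
    refine ⟨fun _ => 0, by simp, ?_⟩
    rw [Finset.filter_empty, Finset.sum_empty]
    exact cf_ext hf (IsCF.zero (N := N)) fun n => by
      rw [qCoeff_zero_fun]; exact h n (by simp)
  | insert p s hps ih =>
    have hp : p.Prime := hs p (Finset.mem_insert_self p s)
    have hs' : ∀ q ∈ s, q.Prime := fun q hq => hs q (Finset.mem_insert_of_mem hq)
    have hz : ∀ n, ¬ p ∣ n → (∀ q ∈ s, ¬ q ∣ n) → qCoeff f n = 0 := by
      intro n h1 h2
      apply h
      intro q hq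
      rcases Finset.mem_insert.mp hq with rfl | hq
      · exact h1
      · exact h2 q hq
    by_cases hpN : p ∣ N
    · obtain ⟨g₀, hg₀, hg₀n⟩ := exists_proj hp hpN s hs' hps hf hz
      have hV : IsCF (Gamma0 N) k (V p g₀) := by
        have := IsCF.V hg₀ hp.ne_zero
        rwa [Nat.div_mul_cancel hpN] at this
      obtain ⟨g, hg, hfg⟩ := ih hs' (IsCF.sub hf hV) (by
        intro n hn
        rw [qCoeff_sub' hf hV, hg₀n n hn, sub_self])
      refine ⟨Function.update g p g₀, ?_, ?_⟩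
      · intro q hq hqN
        rcases Finset.mem_insert.mp hq with h1 | hq'
        · rw [h1, Function.update_self]; exact hg₀
        · have hne : q ≠ p := by
            intro h2
            rw [h2] at hq'
            exact hps hq'
          rw [Function.update_of_ne hne]
          exact hg q hq' hqN
      · rw [Finset.filter_insert, if_pos hpN, Finset.sum_insert (by simp [hps]),
          Function.update_self]
        have h1 : ∑ q ∈ s with q ∣ N, V q (Function.update g p g₀ q) =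
            ∑ q ∈ s with q ∣ N, V q (g q) := by
          refine Finset.sum_congr rfl fun q hq => ?_
          rw [Function.update_of_ne]
          rintro rfl
          exact hps (Finset.mem_filter.mp hq).1
        rw [h1, ← hfg]
        abel
    · -- `p ∤ N`
      set Q := ∏ q ∈ s, q with hQ
      have hQ0 : Q ≠ 0 := by
        rw [hQ, Finset.prod_ne_zero_iff]
        exact fun q hq => (hs' q hq).ne_zero
      have hpQ : ¬ p ∣ Q := by
        rw [hQ, hp.prime.dvd_finsetProd_iff]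
        rintro ⟨q, hq, hpq⟩
        rw [Nat.prime_dvd_prime_iff_eq hp (hs' q hq)] at hpq
        exact hps (hpq ▸ hq)
      obtain ⟨hz1, hz2⟩ := depl_cf hQ0 s hs' (fun q hq => Finset.dvd_prod_of_mem _ hq) hf
      have : NeZero (N * Q ^ 2) := ⟨mul_ne_zero (NeZero.ne N) (pow_ne_zero 2 hQ0)⟩
      have hpNQ : ¬ p ∣ N * Q ^ 2 := by
        rw [hp.dvd_mul]
        push Not
        exact ⟨hpN, fun h => hpQ (hp.dvd_of_dvd_pow h)⟩
      have hz0 := single_not_dvd hp hpNQ hz1 (by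
        intro n hn
        rw [hz2]
        split_ifs with h1
        · rfl
        · push Not at h1
          exact hz n hn h1)
      obtain ⟨g, hg, hfg⟩ := ih hs' hf (by
        intro n hn
        have h1 := hz2 n
        rw [hz0, qCoeff_zero_fun, if_neg (by push Not; exact hn)] at h1
        exact h1.symm)
      refine ⟨g, ?_, ?_⟩
      · intro q hq hqN
        rcases Finset.mem_insert.mp hq with rfl | hq
        · exact absurd hqN hpN
        · exact hg q hq hqN
      · rw [Finset.filter_insert, if_neg hpN]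
        exact hfg

end Fermat.Agent.Newform
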