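import Fermat.Agent.Newform.VOp
import Fermat.Agent.IntStr.Main

set_option autoImplicit false

noncomputable section

namespace Fermat.Agent.Newform

open UpperHalfPlane ModularForm CongruenceSubgroup Matrix.SpecialLinearGroup Filter
open Fermat.Agent.IntStr ModularFormClass
open scoped MatrixGroups Manifold Topology

variable {N M : ℕ} {k : ℤ} {f g : ℍ → ℂ}

/-- Stabiliser of a function for the weight `k` slash action. -/
def stab (k : ℤ) (f : ℍ → ℂ) : Subgroup (GL (Fin 2) ℝ) where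
  carrier := {m | f ∣[k] m = f}
  mul_mem' {a b} ha hb := by
    simp only [Set.mem_ofPred_eq] at *
    rw [SlashAction.slash_mul, ha, hb]
  one_mem' := by simp
  inv_mem' {a} ha := by
    simp only [Set.mem_ofPred_eq] at *
    conv_lhs => rw [← ha]
    rw [← SlashAction.slash_mul]
    simp

theorem mem_stab {m : GL (Fin 2) ℝ} : m ∈ stab k f ↔ f ∣[k] m = f := Iff.rfl

/-- Translation by `x`. -/
def Tx (x : ℝ) : GL (Fin 2) ℝ := mat 1 x 0 1 (by norm_num)

theorem Tx_add (x y : ℝ) : Tx (x + y) = Tx x * Tx y := by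
  rw [Tx, Tx, Tx]
  symm
  apply mat_mul_mat <;> ring

theorem Tx_zero : Tx 0 = 1 := by
  apply Units.ext
  rw [Tx, val_mat]
  ext i j
  fin_cases i <;> fin_cases j <;> simp

theorem Tx_nsmul (n : ℕ) (x : ℝ) : Tx (n * x) = Tx x ^ n := by
  induction n with
  | zero => simp [Tx_zero]
  | succ n ih => rw [pow_succ, ← ih, ← Tx_add]; congr 1; push_cast; ring

theorem Tx_neg (x : ℝ) : Tx (-x) = (Tx x)⁻¹ := by
  rw [eq_inv_iff_mul_eq_one, ← Tx_add, neg_add_cancel, Tx_zero]

theorem Tx_zsmul (n : ℤ) (x : ℝ) : Tx (n * x) = Tx x ^ n := by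
  obtain ⟨m, rfl | rfl⟩ := n.eq_nat_or_neg
  · rw [zpow_natCast, ← Tx_nsmul]; push_cast; rfl
  · rw [zpow_neg, zpow_natCast, ← Tx_nsmul, ← Tx_neg]; congr 1; push_cast; ring

theorem isRatM_Tx (x : ℚ) : IsRatM (Tx x) :=
  isRatM_mat ⟨1, by simp⟩ ⟨x, rfl⟩ ⟨0, by simp⟩ ⟨1, by simp⟩

theorem slash_Tx_apply (x : ℝ) (f : ℍ → ℂ) (τ : ℍ) : (f ∣[k] Tx x) τ = f (x +ᵥ τ) := by
  have hdet : ((Tx x).det : ℝ) = 1 := by
    rw [Matrix.GeneralLinearGroup.val_det_apply, Tx, val_mat, Matrix.det_fin_two_of]; ring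
  rw [ModularForm.slash_apply]
  have h2 : denom (Tx x) τ = 1 := by
    simp [UpperHalfPlane.denom, Tx]
  have h3 : UpperHalfPlane.σ (Tx x) = .refl ℝ ℂ := by
    rw [UpperHalfPlane.σ, if_pos (by rw [hdet]; exact one_pos)]
  rw [h2, h3, hdet]
  have h4 : (Tx x) • τ = x +ᵥ τ := by
    apply UpperHalfPlane.ext
    rw [UpperHalfPlane.coe_smul_of_det_pos (by rw [hdet]; exact one_pos)]
    simp [UpperHalfPlane.num, UpperHalfPlane.denom, Tx, add_comm]
  rw [h4]
  simp

theorem mem_stab_of_cf (hf : IsCF (Gamma0 N) k f) {a b c d : ℤ} (hdet : a * d - b * c = 1)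
    (hc : (N : ℤ) ∣ c) (m : GL (Fin 2) ℝ)
    (hm : (m : Matrix (Fin 2) (Fin 2) ℝ) = !![(a : ℝ), b; c, d]) : m ∈ stab k f :=
  cf_slash_mat hf hdet hc m hm

/-- Invariance under the bigger group `{(a, b/p; c, d) : N ∣ c}`. -/
theorem mem_stab_K {p : ℕ} (hp : p.Prime) (hpN : p ∣ N) (hf : IsCF (Gamma0 N) k f)
    (hT : Tx (1 / p) ∈ stab k f) {a b c d : ℤ} (hc : (N : ℤ) ∣ c)
    (hdet : a * d * p - b * c = p) (m : GL (Fin 2) ℝ)
    (hm : (m : Matrix (Fin 2) (Fin 2) ℝ) = !![(a : ℝ), b / p; c, d]) : m ∈ stab k f := by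
  have hp0 : (p : ℝ) ≠ 0 := by exact_mod_cast hp.ne_zero
  have hpZ : (p : ℤ) ≠ 0 := by exact_mod_cast hp.ne_zero
  have hpp : Prime (p : ℤ) := Nat.prime_iff_prime_int.mp hp
  obtain ⟨c₁, hc₁⟩ : (p : ℤ) ∣ c := dvd_trans (by exact_mod_cast hpN) hc
  have hdet1 : a * d - b * c₁ = 1 := by
    rw [hc₁] at hdet
    have : (p : ℤ) * (a * d - b * c₁) = p * 1 := by linarith
    exact mul_left_cancel₀ hpZ this
  -- first case
  have key : ∀ (a b c d c₁ : ℤ), (N : ℤ) ∣ c → c = p * c₁ → a * d - b * c₁ = 1 → ¬ (p : ℤ) ∣ a →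
      ∀ m : GL (Fin 2) ℝ, (m : Matrix (Fin 2) (Fin 2) ℝ) = !![(a : ℝ), b / p; c, d] →
      m ∈ stab k f := by
    intro a b c d c₁ hc hc₁ hdet1 hpa m hm
    have hcop : IsCoprime a (p : ℤ) := ((hpp.coprime_iff_not_dvd).mpr hpa).symm
    obtain ⟨u, v, huv⟩ := hcop
    -- j = u * b
    have hj : b - a * (u * b) = p * (v * b) := by linear_combination (-b) * huv
    have e : m = mat (a : ℝ) ((v * b : ℤ) : ℝ) (c : ℝ) ((d - c₁ * (u * b) : ℤ) : ℝ) (by
        have : (a : ℝ) * ((d - c₁ * (u * b) : ℤ) : ℝ) - ((v * b : ℤ) : ℝ) * (c : ℝ) = 1 := by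
          have h2 : a * (d - c₁ * (u * b)) - (v * b) * c = 1 := by
            rw [hc₁]
            linear_combination hdet1 + c₁ * hj
          exact_mod_cast h2
        rw [this]; exact one_ne_zero) * Tx (((u * b : ℤ) : ℝ) * (1 / p)) := by
      apply Units.ext
      rw [Units.val_mul, hm, Tx, val_mat, val_mat, Matrix.mul_fin_two]
      have hjr : (b : ℝ) - a * (u * b) = p * (v * b) := by exact_mod_cast hj
      have hcr : (c : ℝ) = p * c₁ := by exact_mod_cast hc₁
      ext i j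
      fin_cases i <;> fin_cases j <;> simp
      · field_simp
        linarith
      · rw [hcr]; field_simp; ring
    rw [e]
    refine mul_mem (mem_stab_of_cf hf ?_ hc _ (val_mat _ _ _ _ _)) ?_
    · rw [hc₁]
      linear_combination hdet1 + c₁ * hj
    · rw [Tx_zsmul]
      exact zpow_mem hT _
  by_cases hpa : (p : ℤ) ∣ a
  · -- second case
    obtain ⟨N₁, hN₁⟩ := hpN
    have hN₁' : (N : ℤ) = p * N₁ := by rw [hN₁]; push_cast; ring
    obtain ⟨c₂, hc₂⟩ := hc
    have hc₁' : c₁ = N₁ * c₂ := by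
      apply mul_left_cancel₀ hpZ
      rw [← hc₁, hc₂, hN₁']; ring
    have hpb : ¬ (p : ℤ) ∣ b * N₁ := by
      intro h
      apply hpp.not_isUnit
      rw [isUnit_iff_dvd_one, ← hdet1, hc₁']
      refine dvd_sub (hpa.mul_right d) ?_
      rw [← mul_assoc]
      exact h.mul_right _
    have hpa' : ¬ (p : ℤ) ∣ a + b * N₁ := fun h => hpb ((dvd_add_right hpa).mp h)
    set L : GL (Fin 2) ℝ := mat 1 0 (N : ℝ) 1 (by norm_num) with hL
    have hLs : L ∈ stab k f := by
      refine mem_stab_of_cf hf (a := 1) (b := 0) (c := N) (d := 1) (by ring) (dvd_refl _) L ?_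
      rw [hL, val_mat]
      push_cast
      rfl
    have h1 : m * L ∈ stab k f := by
      refine key (a + b * N₁) b (c + d * N) d (c₁ + d * N₁) ?_ ?_ ?_ hpa' _ ?_
      · rw [hc₂]; exact ⟨c₂ + d, by ring⟩
      · rw [hc₁, hN₁']; ring
      · linear_combination hdet1
      · rw [Units.val_mul, hm, hL, val_mat, Matrix.mul_fin_two]
        have hNr : (N : ℝ) = p * N₁ := by exact_mod_cast hN₁'
        ext i j
        fin_cases i <;> fin_cases j <;> simp
        rw [hNr]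
        field_simp
    exact (Subgroup.mul_mem_cancel_right _ hLs).mp h1
  · exact key a b c d c₁ hc hc₁ hdet1 hpa m hm

/-- The operator `f(τ) ↦ f(τ/q)`. -/
def W (q : ℕ) (f : ℍ → ℂ) : ℍ → ℂ := fun τ => f (heckeMatrix q 0 • τ)

theorem W_eq (k : ℤ) {q : ℕ} (hq : q ≠ 0) (f : ℍ → ℂ) :
    W q f = (q : ℂ) • (f ∣[k] heckeMatrix q 0) := by
  funext τ
  have hq' : (q : ℂ) ≠ 0 := by exact_mod_cast hq
  rw [W, Pi.smul_apply, slash_heckeMatrix_apply k hq, smul_eq_mul, ← mul_assoc,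
    mul_inv_cancel₀ hq', one_mul]

theorem V_W {q : ℕ} (hq : q ≠ 0) (f : ℍ → ℂ) : V q (W q f) = f := by
  funext τ
  rw [V, W]
  congr 1
  apply UpperHalfPlane.ext
  rw [coe_heckeMatrix_smul hq, coe_heckeDiagMatrix_smul hq]
  have hq' : (q : ℂ) ≠ 0 := by exact_mod_cast hq
  push_cast
  rw [add_zero]
  field_simp

theorem W_V {q : ℕ} (hq : q ≠ 0) (f : ℍ → ℂ) : W q (V q f) = f := by
  funext τ
  rw [W, V]
  congr 1
  apply UpperHalfPlane.ext
  rw [coe_heckeDiagMatrix_smul hq, coe_heckeMatrix_smul hq]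
  have hq' : (q : ℂ) ≠ 0 := by exact_mod_cast hq
  push_cast
  rw [add_zero]
  field_simp

theorem V_injective {q : ℕ} (hq : q ≠ 0) : Function.Injective (V q) :=
  Function.LeftInverse.injective (g := W q) (W_V hq)

/-- Single prime lemma, `p ∣ N`. -/
theorem isCF_W {p : ℕ} (hp : p.Prime) (hpN : p ∣ N) (hf : IsCF (Gamma0 N) k f)
    (hT : Tx (1 / p) ∈ stab k f) : IsCF (Gamma0 (N / p)) k (W p f) := by
  have hq : IsQCF k (W p f) := by
    rw [W_eq k hp.ne_zero]
    exact (hf.isQCF.slash (isRatM_heckeMatrix p 0)).smul _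
  refine cf_of_mat hq ?_
  intro a b c d hdet hc h'
  rw [W_eq k hp.ne_zero, ModularForm.smul_slash]
  have hσ : UpperHalfPlane.σ (mat (a : ℝ) b c d h') = .refl ℝ ℂ := by
    rw [UpperHalfPlane.σ, if_pos]
    rw [Matrix.GeneralLinearGroup.val_det_apply, val_mat, Matrix.det_fin_two_of]
    have : (a : ℝ) * d - b * c = 1 := by exact_mod_cast hdet
    rw [this]
    exact one_pos
  rw [hσ]
  simp only [ContinuousAlgEquiv.refl_apply]
  congr 1
  have hp0 : (p : ℝ) ≠ 0 := by exact_mod_cast hp.ne_zero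
  obtain ⟨h0, e0⟩ := heckeMatrix_eq_mat hp.ne_zero 0
  set x : GL (Fin 2) ℝ := mat (a : ℝ) (b / p) ((p * c : ℤ) : ℝ) d (by
    have h1 : (a : ℝ) * d - b / p * ((p * c : ℤ) : ℝ) = 1 := by
      have h2 : (a : ℝ) * d - b * c = 1 := by exact_mod_cast hdet
      push_cast
      field_simp
      linarith
    rw [h1]; exact one_ne_zero) with hx
  have key : heckeMatrix p 0 * mat (a : ℝ) b c d h' = x * heckeMatrix p 0 := by
    rw [e0]
    apply Units.ext
    rw [Units.val_mul, Units.val_mul, hx, val_mat, val_mat, val_mat, Matrix.mul_fin_two,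
      Matrix.mul_fin_two]
    push_cast
    ext i j
    fin_cases i <;> fin_cases j <;> simp <;> field_simp
  have hxs : x ∈ stab k f := by
    refine mem_stab_K hp hpN hf hT (a := a) (b := b) (c := p * c) (d := d) ?_ ?_ x
      (val_mat _ _ _ _ _)
    · obtain ⟨N₁, rfl⟩ := hpN
      rw [Nat.mul_div_cancel_left _ hp.pos] at hc
      push_cast
      exact mul_dvd_mul_left _ hc
    · linear_combination (p : ℤ) * hdet
  rw [← SlashAction.slash_mul, key, SlashAction.slash_mul, mem_stab.mp hxs]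

theorem vadd_one_of_cf (hf : IsCF (Gamma0 N) k f) (τ : ℍ) : f ((1 : ℝ) +ᵥ τ) = f τ := by
  have h : Tx 1 ∈ stab k f := by
    refine mem_stab_of_cf hf (a := 1) (b := 1) (c := 0) (d := 1) (by ring) (dvd_zero _) _ ?_
    rw [Tx, val_mat]
    push_cast
    rfl
  have := congrFun (mem_stab.mp h) τ
  rwa [slash_Tx_apply] at this

theorem Tx_mem_stab_V {p : ℕ} (hp : p ≠ 0) (hf : IsCF (Gamma0 N) k f) :
    Tx (1 / p) ∈ stab k (V p f) := by
  rw [mem_stab]
  funext τ
  rw [slash_Tx_apply, V, V, ← vadd_one_of_cf hf (heckeDiagMatrix p • τ)]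
  congr 1
  apply UpperHalfPlane.ext
  have hq' : (p : ℂ) ≠ 0 := by exact_mod_cast hp
  rw [coe_heckeDiagMatrix_smul hp, UpperHalfPlane.coe_vadd, UpperHalfPlane.coe_vadd,
    coe_heckeDiagMatrix_smul hp]
  push_cast
  field_simp

theorem IsCF.nezero_level (hf : IsCF (Gamma0 N) k f) (M : ℕ) : IsCF (Gamma0 (N * M)) k f :=
  IsCF.level_mono (dvd_mul_right _ _) hf

theorem eq_V_heckeU [NeZero N] {p : ℕ} (hp : p.Prime) (hf : IsCF (Gamma0 N) k f)
    (hs : ∀ n, ¬ p ∣ n → qCoeff f n = 0) : f = V p (heckeU k p f) := by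
  have : NeZero (N * p) := ⟨mul_ne_zero (NeZero.ne N) hp.ne_zero⟩
  have hf' : IsCF (Gamma0 (N * p)) k f := IsCF.nezero_level hf p
  have hU : IsCF (Gamma0 (N * p)) k (heckeU k p f) := IsCF.heckeU hf' (dvd_mul_left _ _)
  refine cf_ext hf' (IsCF.V hU hp.ne_zero) ?_
  intro n
  rw [qCoeff_V hU hp.ne_zero, qCoeff_heckeU' hf' hp.ne_zero]
  split_ifs with h
  · rw [Nat.div_mul_cancel h]
  · exact hs n h

theorem Tx_mem_stab_iff [NeZero N] {p : ℕ} (hp : p.Prime) (hf : IsCF (Gamma0 N) k f) :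
    Tx (1 / p) ∈ stab k f ↔ ∀ n, ¬ p ∣ n → qCoeff f n = 0 := by
  have : NeZero (N * p) := ⟨mul_ne_zero (NeZero.ne N) hp.ne_zero⟩
  have hf' : IsCF (Gamma0 (N * p)) k f := IsCF.nezero_level hf p
  constructor
  · intro h n hn
    have hW := isCF_W hp (dvd_mul_left p N) hf' h
    rw [← V_W hp.ne_zero f, qCoeff_V hW hp.ne_zero, if_neg hn]
  · intro h
    have h1 := eq_V_heckeU hp hf h
    have hU : IsCF (Gamma0 (N * p)) k (heckeU k p f) := IsCF.heckeU hf' (dvd_mul_left _ _)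
    rw [h1]
    exact Tx_mem_stab_V hp.ne_zero hU

/-- Single prime lemma, `p ∣ N`: if the `q`-expansion is supported on multiples of `p`
then `f = V_p g` with `g` of level `N / p`. -/
theorem single_dvd [NeZero N] {p : ℕ} (hp : p.Prime) (hpN : p ∣ N) (hf : IsCF (Gamma0 N) k f)
    (hs : ∀ n, ¬ p ∣ n → qCoeff f n = 0) :
    ∃ g, IsCF (Gamma0 (N / p)) k g ∧ f = V p g :=
  ⟨W p f, isCF_W hp hpN hf ((Tx_mem_stab_iff hp hf).mpr hs), (V_W hp.ne_zero f).symm⟩

theorem heckeU_V {p : ℕ} (hp : p ≠ 0) (hf : IsCF (Gamma0 N) k f) : heckeU k p (V p f) = f := by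
  funext τ
  rw [heckeU_apply k hp]
  have hper : ∀ j : ℕ, f ((j : ℝ) +ᵥ τ) = f τ := by
    intro j
    have h : Tx (j : ℝ) ∈ stab k f := by
      refine mem_stab_of_cf hf (a := 1) (b := j) (c := 0) (d := 1) (by ring) (dvd_zero _) _ ?_
      rw [Tx, val_mat]
      push_cast
      rfl
    have := congrFun (mem_stab.mp h) τ
    rwa [slash_Tx_apply] at this
  have hj : ∀ j ∈ Finset.range p, V p f (heckeMatrix p j • τ) = f τ := by
    intro j _
    rw [V, ← hper j]
    congr 1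
    apply UpperHalfPlane.ext
    have hq' : (p : ℂ) ≠ 0 := by exact_mod_cast hp
    rw [coe_heckeDiagMatrix_smul hp, coe_heckeMatrix_smul hp, UpperHalfPlane.coe_vadd]
    push_cast
    field_simp
    ring
  rw [Finset.sum_congr rfl hj, Finset.sum_const, Finset.card_range, nsmul_eq_mul, ← mul_assoc,
    inv_mul_cancel₀ (by exact_mod_cast hp), one_mul]

/-- Single prime lemma, `p ∤ N`. -/
theorem single_not_dvd [NeZero N] {p : ℕ} (hp : p.Prime) (hpN : ¬ p ∣ N)
    (hf : IsCF (Gamma0 N) k f) (hs : ∀ n, ¬ p ∣ n → qCoeff f n = 0) : f = 0 := by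
  have : NeZero (N * p) := ⟨mul_ne_zero (NeZero.ne N) hp.ne_zero⟩
  have hf' : IsCF (Gamma0 (N * p)) k f := IsCF.nezero_level hf p
  obtain ⟨g, hg, hfg⟩ := single_dvd hp (dvd_mul_left p N) hf' hs
  rw [Nat.mul_div_cancel _ hp.pos] at hg
  have hpC : (p : ℂ) ^ (k - 1) ≠ 0 := zpow_ne_zero _ (by exact_mod_cast hp.ne_zero)
  have hall : ∀ j : ℕ, IsCF (Gamma0 N) k ((V p)^[j] g) ∧ IsCF (Gamma0 N) k ((V p)^[j + 1] g) := by
    intro j
    induction j with
    | zero =>
      refine ⟨hg, ?_⟩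
      rw [zero_add, Function.iterate_one, ← hfg]
      exact hf
    | succ j ih =>
      refine ⟨ih.2, ?_⟩
      have h1 := IsCF.heckeT ih.2 hp hpN
      have h2 : heckeT k p ((V p)^[j + 1] g) = (V p)^[j] g +
          ((p : ℂ) ^ (k - 1)) • (V p)^[j + 2] g := by
        rw [heckeT_eq_heckeU_add]
        congr 1
        · rw [Function.iterate_succ_apply', heckeU_V hp.ne_zero ih.1]
        · rw [Function.iterate_succ_apply' (V p) (j + 1), V_eq k hp.ne_zero, smul_smul,
            mul_inv_cancel₀ hpC, one_smul]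
      have h3 : (V p)^[j + 2] g = ((p : ℂ) ^ (k - 1))⁻¹ •
          (heckeT k p ((V p)^[j + 1] g) - (V p)^[j] g) := by
        rw [h2, add_sub_cancel_left, smul_smul, inv_mul_cancel₀ hpC, one_smul]
      change IsCF (Gamma0 N) k ((V p)^[j + 2] g)
      rw [h3]
      exact IsCF.smul _ (IsCF.sub h1 ih.1)
  -- vanishing order
  have hord : ∀ j n : ℕ, n < p ^ j → qCoeff ((V p)^[j] g) n = 0 := by
    intro j
    induction j with
    | zero =>
      intro n hn
      have : n = 0 := by simpa using hn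
      rw [this]
      exact qCoeff_zero' hg
    | succ j ih =>
      intro n hn
      rw [Function.iterate_succ_apply', qCoeff_V (hall j).1 hp.ne_zero]
      split_ifs with h
      · apply ih
        rw [pow_succ] at hn
        exact (Nat.div_lt_iff_lt_mul hp.pos).mpr hn
      · rfl
  set B := (k * (Gamma0 N).index).toNat / 12 + 1 with hB
  have h0 : (V p)^[B] g = 0 := by
    have h1 : (hall B).1.toCuspForm = 0 := by
      apply qLin_eq_zero
      intro i hi
      exact hord B i (lt_trans hi Nat.lt_two_pow_self |>.trans_le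
        (Nat.pow_le_pow_left hp.two_le _))
    have := congrArg (fun F : CuspForm (Gamma0 N) k => (F : ℍ → ℂ)) h1
    exact this
  have hg0 : g = 0 := by
    have hV0 : ∀ j, (V p)^[j] (0 : ℍ → ℂ) = 0 := by
      intro j
      induction j with
      | zero => rfl
      | succ j ih => rw [Function.iterate_succ_apply', ih]; rfl
    rw [← hV0 B] at h0
    exact (V_injective hp.ne_zero).iterate B h0
  rw [hfg, hg0]
  rfl

end Fermat.Agent.Newform
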