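import Fermat.Agent.Newform.Slash
import Fermat.Prelude.Def_ModularForm_HeckeOperatorForms
import Fermat.Prelude.Thm_ModularFormClass_qCoeff_heckeU
import Fermat.Prelude.Thm_ModularFormClass_qCoeff_heckeT
import Fermat.Prelude.Thm_UpperHalfPlane_qCoeff_heckeU
import Fermat.Prelude.Thm_UpperHalfPlane_qCoeff_heckeT
import Fermat.Prelude.Def_FLTPrelim_Modularity

set_option autoImplicit false

noncomputable section

namespace Fermat.Agent.Newform

open UpperHalfPlane ModularForm CongruenceSubgroup Matrix.SpecialLinearGroup Filter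
open Fermat.Agent.IntStr ModularFormClass
open scoped MatrixGroups Manifold Topology

variable {N M : ℕ} {k : ℤ} {f g : ℍ → ℂ}

theorem cf_slash_mat (hf : IsCF (Gamma0 N) k f) {a b c d : ℤ} (hdet : a * d - b * c = 1)
    (hc : (N : ℤ) ∣ c) (m : GL (Fin 2) ℝ)
    (hm : (m : Matrix (Fin 2) (Fin 2) ℝ) = !![(a : ℝ), b; c, d]) : f ∣[k] m = f := by
  let γ : SL(2, ℤ) := ⟨!![a, b; c, d], by rw [Matrix.det_fin_two_of]; exact hdet⟩
  have hγ : γ ∈ Gamma0 N := by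
    rw [Gamma0_mem, ZMod.intCast_zmod_eq_zero_iff_dvd]
    exact hc
  have h1 := hf.slash γ hγ
  rw [ModularForm.SL_slash] at h1
  have h2 : m = mapGL ℝ γ := by
    apply Units.ext
    rw [hm]
    ext i j
    rw [val_mapGL]
    fin_cases i <;> fin_cases j <;> simp [γ]
  rw [h2]
  exact h1

theorem cf_of_mat (hf : IsQCF k f)
    (h : ∀ (a b c d : ℤ), a * d - b * c = 1 → (N : ℤ) ∣ c → ∀ h',
      f ∣[k] mat a b c d h' = f) : IsCF (Gamma0 N) k f := by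
  refine hf.isCF ?_
  intro γ hγ
  rw [ModularForm.SL_slash]
  rw [Gamma0_mem, ZMod.intCast_zmod_eq_zero_iff_dvd] at hγ
  have hdet : γ 0 0 * γ 1 1 - γ 0 1 * γ 1 0 = 1 := by
    have := γ.det_coe
    rwa [Matrix.det_fin_two] at this
  have hdet' : ((γ 0 0 : ℤ) : ℝ) * ((γ 1 1 : ℤ) : ℝ) - ((γ 0 1 : ℤ) : ℝ) * ((γ 1 0 : ℤ) : ℝ) ≠ 0 := by
    have : ((γ 0 0 : ℤ) : ℝ) * ((γ 1 1 : ℤ) : ℝ) - ((γ 0 1 : ℤ) : ℝ) * ((γ 1 0 : ℤ) : ℝ) = 1 := by
      exact_mod_cast hdet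
    rw [this]
    exact one_ne_zero
  have h1 := h _ _ _ _ hdet hγ hdet'
  have h2 : (mapGL ℝ γ : GL (Fin 2) ℝ) = mat _ _ _ _ hdet' := by
    apply Units.ext
    ext i j
    rw [val_mapGL, val_mat]
    fin_cases i <;> fin_cases j <;> simp
  change f ∣[k] (mapGL ℝ γ : GL (Fin 2) ℝ) = f
  rw [h2]
  exact h1

theorem IsCF.level_mono (h : N ∣ M) (hf : IsCF (Gamma0 N) k f) : IsCF (Gamma0 M) k f :=
  cf_of_mat hf.isQCF fun a b c d hdet hc h' =>
    cf_slash_mat hf hdet (dvd_trans (by exact_mod_cast h) hc) _ (val_mat _ _ _ _ _)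

theorem _root_.Fermat.Agent.IntStr.IsCF.per (hf : IsCF (Gamma0 N) k f) :
    Function.Periodic (f ∘ ofComplex) 1 :=
  hf.toIsMF.periodic (T_mem_Gamma0 N)

/-- `q`-expansion principle. -/
theorem cf_ext (hf : IsCF (Gamma0 N) k f) (hg : IsCF (Gamma0 M) k g)
    (h : ∀ n, qCoeff f n = qCoeff g n) : f = g := by
  have hf' : IsCF (Gamma0 (N * M)) k f := IsCF.level_mono (dvd_mul_right _ _) hf
  have hg' : IsCF (Gamma0 (N * M)) k g := IsCF.level_mono (dvd_mul_left _ _) hg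
  exact IsMF.eq_of_qExpansion hf'.toIsMF hg'.toIsMF (T_mem_Gamma0 _) (PowerSeries.ext h)

theorem IsCF.add (hf : IsCF (Gamma0 N) k f) (hg : IsCF (Gamma0 N) k g) :
    IsCF (Gamma0 N) k (f + g) :=
  (hf.isQCF.add hg.isQCF).isCF fun γ hγ => (hf.toIsMF.add hg.toIsMF).slash γ hγ

theorem IsCF.smul (c : ℂ) (hf : IsCF (Gamma0 N) k f) : IsCF (Gamma0 N) k (c • f) :=
  (hf.isQCF.smul c).isCF fun γ hγ => (hf.toIsMF.smul c).slash γ hγ

theorem IsCF.zero : IsCF (Gamma0 N) k 0 :=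
  IsQCF.zero'.isCF fun γ hγ => IsMF.zero.slash γ hγ

theorem IsCF.neg (hf : IsCF (Gamma0 N) k f) : IsCF (Gamma0 N) k (-f) := by
  have := IsCF.smul (-1) hf
  rwa [neg_one_smul] at this

theorem IsCF.sub (hf : IsCF (Gamma0 N) k f) (hg : IsCF (Gamma0 N) k g) :
    IsCF (Gamma0 N) k (f - g) := by
  rw [sub_eq_add_neg]
  exact IsCF.add hf (IsCF.neg hg)

theorem IsCF.sum {ι : Type*} (s : Finset ι) (F : ι → ℍ → ℂ)
    (hF : ∀ i ∈ s, IsCF (Gamma0 N) k (F i)) : IsCF (Gamma0 N) k (∑ i ∈ s, F i) := by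
  classical
  induction s using Finset.induction_on with
  | empty => simpa using IsCF.zero
  | insert i s hi ih =>
    rw [Finset.sum_insert hi]
    exact IsCF.add (hF i (Finset.mem_insert_self i s))
      (ih fun j hj => hF j (Finset.mem_insert_of_mem hj))

theorem qCoeff_add' (hf : IsCF (Gamma0 N) k f) (hg : IsCF (Gamma0 N) k g) (n : ℕ) :
    qCoeff (f + g) n = qCoeff f n + qCoeff g n := by
  rw [qCoeff, hf.toIsMF.qExpansion_add hg.toIsMF (T_mem_Gamma0 N), map_add]; rfl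

theorem qCoeff_sub' (hf : IsCF (Gamma0 N) k f) (hg : IsCF (Gamma0 N) k g) (n : ℕ) :
    qCoeff (f - g) n = qCoeff f n - qCoeff g n := by
  rw [qCoeff, hf.toIsMF.qExpansion_sub hg.toIsMF (T_mem_Gamma0 N), map_sub]; rfl

theorem qCoeff_smul' (hf : IsCF (Gamma0 N) k f) (c : ℂ) (n : ℕ) :
    qCoeff (c • f) n = c * qCoeff f n := by
  rw [qCoeff, hf.toIsMF.qExpansion_smul (T_mem_Gamma0 N), PowerSeries.coeff_smul]; rfl

theorem qCoeff_sum' {ι : Type*} (s : Finset ι) (F : ι → ℍ → ℂ)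
    (hF : ∀ i ∈ s, IsCF (Gamma0 N) k (F i)) (n : ℕ) :
    qCoeff (∑ i ∈ s, F i) n = ∑ i ∈ s, qCoeff (F i) n := by
  rw [qCoeff, qExpansion_sum s F (fun i hi => (hF i hi).toIsMF) (T_mem_Gamma0 N), map_sum]; rfl

theorem qCoeff_zero_fun (n : ℕ) : qCoeff (0 : ℍ → ℂ) n = 0 := by
  rw [qCoeff, qExpansion_zero, map_zero]

theorem qCoeff_zero' (hf : IsCF (Gamma0 N) k f) : qCoeff f 0 = 0 := by
  have h0 : IsZeroAtImInfty f := by
    have := hf.zero_cusp 1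
    simpa using this
  have h1 := h0.cuspFunction_apply_zero (h := 1) one_pos
  rw [qCoeff, qExpansion_coeff]
  simpa using h1

/-- The operator `f(τ) ↦ f(qτ)`. -/
def V (q : ℕ) (f : ℍ → ℂ) : ℍ → ℂ := fun τ => f (heckeDiagMatrix q • τ)

theorem V_eq (k : ℤ) {q : ℕ} (hq : q ≠ 0) (f : ℍ → ℂ) :
    V q f = ((q : ℂ) ^ (k - 1))⁻¹ • (f ∣[k] heckeDiagMatrix q) := by
  funext τ
  have hq' : (q : ℂ) ≠ 0 := by exact_mod_cast hq
  rw [V, Pi.smul_apply, slash_heckeDiagMatrix_apply k hq, smul_eq_mul, ← mul_assoc,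
    inv_mul_cancel₀ (zpow_ne_zero _ hq'), one_mul]

theorem heckeDiag_eq_mat {q : ℕ} (hq : q ≠ 0) :
    ∃ h, heckeDiagMatrix q = mat (q : ℝ) 0 0 1 h := by
  refine ⟨?_, ?_⟩
  · have : (q : ℝ) ≠ 0 := by exact_mod_cast hq
    simpa using this
  · apply Units.ext
    rw [val_mat, val_heckeDiagMatrix hq]

theorem heckeMatrix_eq_mat {q : ℕ} (hq : q ≠ 0) (j : ℕ) :
    ∃ h, heckeMatrix q j = mat 1 (j : ℝ) 0 (q : ℝ) h := by
  refine ⟨?_, ?_⟩
  · have : (q : ℝ) ≠ 0 := by exact_mod_cast hq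
    simpa using this
  · apply Units.ext
    rw [val_mat, val_heckeMatrix hq]

theorem isRatM_heckeDiag (q : ℕ) : IsRatM (heckeDiagMatrix q) := by
  rcases eq_or_ne q 0 with rfl | hq
  · rw [heckeDiagMatrix_zero]
    intro i j
    fin_cases i <;> fin_cases j
    · exact ⟨1, by simp⟩
    · exact ⟨0, by simp⟩
    · exact ⟨0, by simp⟩
    · exact ⟨1, by simp⟩
  · obtain ⟨h, e⟩ := heckeDiag_eq_mat hq
    rw [e]
    exact isRatM_mat ⟨q, by simp⟩ ⟨0, by simp⟩ ⟨0, by simp⟩ ⟨1, by simp⟩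

theorem isRatM_heckeMatrix (q j : ℕ) : IsRatM (heckeMatrix q j) := by
  rcases eq_or_ne q 0 with rfl | hq
  · rw [heckeMatrix_zero]
    intro i j
    fin_cases i <;> fin_cases j
    · exact ⟨1, by simp⟩
    · exact ⟨0, by simp⟩
    · exact ⟨0, by simp⟩
    · exact ⟨1, by simp⟩
  · obtain ⟨h, e⟩ := heckeMatrix_eq_mat hq j
    rw [e]
    exact isRatM_mat ⟨1, by simp⟩ ⟨j, by simp⟩ ⟨0, by simp⟩ ⟨q, by simp⟩

theorem IsQCF.V (hf : IsQCF k f) {q : ℕ} (hq : q ≠ 0) : IsQCF k (V q f) := by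
  rw [V_eq k hq]
  exact (hf.slash (isRatM_heckeDiag q)).smul _

theorem IsCF.V (hf : IsCF (Gamma0 M) k f) {q : ℕ} (hq : q ≠ 0) : IsCF (Gamma0 (M * q)) k (V q f) := by
  refine cf_of_mat (hf.isQCF.V hq) ?_
  intro a b c d hdet hc h'
  rw [V_eq k hq, ModularForm.smul_slash]
  have hσ : UpperHalfPlane.σ (mat (a : ℝ) b c d h') = .refl ℝ ℂ := by
    rw [UpperHalfPlane.σ, if_pos]
    rw [Matrix.GeneralLinearGroup.val_det_apply, val_mat, Matrix.det_fin_two_of]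
    have : (a : ℝ) * d - b * c = 1 := by exact_mod_cast hdet
    rw [this]
    exact one_pos
  rw [hσ]
  simp only [ContinuousAlgEquiv.refl_apply]
  congr 1
  obtain ⟨c', hc'⟩ : ((M * q : ℕ) : ℤ) ∣ c := hc
  have hq0 : (q : ℝ) ≠ 0 := by exact_mod_cast hq
  have hdet2 : a * d - (q * b) * (M * c') = 1 := by
    rw [← hdet, hc']; push_cast; ring
  obtain ⟨h0, e0⟩ := heckeDiag_eq_mat hq
  have hne : (a : ℝ) * d - ((q * b : ℤ) : ℝ) * ((M * c' : ℤ) : ℝ) ≠ 0 := by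
    have : (a : ℝ) * d - ((q * b : ℤ) : ℝ) * ((M * c' : ℤ) : ℝ) = 1 := by exact_mod_cast hdet2
    rw [this]; exact one_ne_zero
  have key : heckeDiagMatrix q * mat (a : ℝ) b c d h' =
      mat (a : ℝ) ((q * b : ℤ) : ℝ) ((M * c' : ℤ) : ℝ) d hne * heckeDiagMatrix q := by
    rw [e0]
    apply Units.ext
    rw [Units.val_mul, Units.val_mul, val_mat, val_mat, val_mat, Matrix.mul_fin_two,
      Matrix.mul_fin_two]
    have hcr : (c : ℝ) = M * q * c' := by rw [hc']; push_cast; ring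
    rw [hcr]
    push_cast
    congr 1
    ext i j
    fin_cases i <;> fin_cases j <;> simp <;> ring
  rw [← SlashAction.slash_mul, key, SlashAction.slash_mul,
    cf_slash_mat hf hdet2 (dvd_mul_right _ _) _ (val_mat _ _ _ _ _)]

theorem qCoeff_V (hf : IsCF (Gamma0 M) k f) {q : ℕ} (hq : q ≠ 0) (n : ℕ) :
    qCoeff (V q f) n = if q ∣ n then qCoeff f (n / q) else 0 := by
  have h1 : ∀ τ : ℍ, HasSum (fun m => (qExpansion 1 f).coeff m •
      Function.Periodic.qParam 1 (τ : ℂ) ^ m) (f τ) := fun τ =>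
    hasSum_qExpansion one_pos hf.per hf.holo hf.toIsMF.bdd_infty τ
  have hV := IsCF.V hf hq
  exact coeff_unique hV.holo.continuous (hV.toIsMF.analyticAt (T_mem_Gamma0 _))
    (fun τ => hasSum_V hq h1 τ) n

theorem qCoeff_heckeU' (hf : IsCF (Gamma0 M) k f) {q : ℕ} (hq : q ≠ 0) (n : ℕ) :
    qCoeff (heckeU k q f) n = qCoeff f (n * q) :=
  UpperHalfPlane.qCoeff_heckeU hf.per hf.holo hf.toIsMF.bdd_infty k hq n

theorem qCoeff_heckeT' (hf : IsCF (Gamma0 M) k f) {q : ℕ} (hq : q ≠ 0) (n : ℕ) :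
    qCoeff (heckeT k q f) n = coeffHeckeT k q (qCoeff f) n :=
  UpperHalfPlane.qCoeff_heckeT hf.per hf.holo hf.toIsMF.bdd_infty k hq n

theorem IsCF.heckeU [NeZero N] (hf : IsCF (Gamma0 N) k f) {q : ℕ} (hq : q ∣ N) :
    IsCF (Gamma0 N) k (heckeU k q f) :=
  IsCF.of_cuspForm (CuspForm.heckeULin k hq hf.toCuspForm)

theorem IsCF.heckeT [NeZero N] (hf : IsCF (Gamma0 N) k f) {q : ℕ} (hq : q.Prime) (hqN : ¬ q ∣ N) :
    IsCF (Gamma0 N) k (heckeT k q f) :=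
  IsCF.of_cuspForm (CuspForm.heckeTLin k hq hqN hf.toCuspForm)

end Fermat.Agent.Newform
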